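import Fermat.Agent.LT.HeckeOp
import Fermat.Agent.LT.Setup.Measure
import Mathlib.MeasureTheory.Integral.Bochner.SumMeasure

/-!
# Hecke operators are adjoint for integrals over the quotient

For a Hecke function with symmetric kernel, `∫ φ · (T S) = ∫ (T φ) · S` on `PGL₂(F) \ Y`: the
integrand lives on triples `(P, a, b)`, and the weights `ω(P, a)` and `ω(P, b)` are two partitions
of unity for the diagonal action.
-/

set_option autoImplicit false

noncomputable section

open MeasureTheory Filter

namespace Fermat.Agent.LT.LiftHecke

variable {F : Type*} [Field F] [NumberField F] {U : Level F}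

/-- The action of `GL₂ F` on the cosets of the level factors through `PGL₂ F`. -/
theorem glIncl_smul_eq_of_mk_eq {γ δ : GL (Fin 2) F}
    (h : (QuotientGroup.mk γ : PGLIndex F) = QuotientGroup.mk δ) (b : GLFin F ⧸ U.toSubgroup) :
    glIncl F γ • b = glIncl F δ • b := by
  have h' := congrArg (fun c : PGLIndex F =>
    c • ((fun _ => H3.origin, b) : Y U)) h
  simp only [pgl_mk_smul] at h'
  exact congrArg Prod.snd h'

/-- `PGL₂(F)` on the finite cosets. -/
instance cosetPGLAction (U : Level F) : MulAction (PGLIndex F) (GLFin F ⧸ U.toSubgroup) where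
  smul c b := Quotient.liftOn' c (fun γ => glIncl F γ • b)
    fun _ _ h => glIncl_smul_eq_of_mk_eq (Quotient.sound' h) b
  one_smul b := by
    show glIncl F 1 • b = b
    rw [map_one, one_smul]
  mul_smul c d b := by
    induction c using QuotientGroup.induction_on with
    | H γ =>
      induction d using QuotientGroup.induction_on with
      | H δ =>
        show glIncl F (γ * δ) • b = glIncl F γ • glIncl F δ • b
        rw [map_mul, mul_smul]

theorem measurePreserving_cosetSmul (c : PGLIndex F) :
    MeasurePreserving (fun b : GLFin F ⧸ U.toSubgroup => c • b) Measure.count Measure.count := by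
  refine ⟨measurable_from_top, Measure.ext_of_singleton fun a => ?_⟩
  rw [Measure.map_apply measurable_from_top (measurableSet_singleton a),
    show (fun b : GLFin F ⧸ U.toSubgroup => c • b) ⁻¹' {a} = {c⁻¹ • a} by
      ext b; simp [eq_inv_smul_iff],
    Measure.count_singleton, Measure.count_singleton]

theorem finite_kernel_row (h : HeckeFn U) (a : GLFin F ⧸ U.toSubgroup) :
    (Function.support fun b => h.kernel a b).Finite := by
  refine QuotientGroup.induction_on a fun g => ?_
  refine (h.finite_support.image fun b => g • b).subset fun b hb => ?_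
  revert hb
  refine QuotientGroup.induction_on b fun x hx => ?_
  refine ⟨QuotientGroup.mk (g⁻¹ * x), ⟨g⁻¹ * x, hx, rfl⟩, ?_⟩
  show (QuotientGroup.mk (g * (g⁻¹ * x)) : GLFin F ⧸ U.toSubgroup) = _
  rw [mul_inv_cancel_left]

/-- The mass of a row of the kernel. -/
def rowMass (h : HeckeFn U) : ℝ :=
  ∑' b : GLFin F ⧸ U.toSubgroup, ‖h.kernel (QuotientGroup.mk 1) b‖

theorem summable_row (h : HeckeFn U) (a : GLFin F ⧸ U.toSubgroup) :
    Summable fun b => ‖h.kernel a b‖ :=
  summable_of_hasFiniteSupport ((finite_kernel_row h a).subset fun b hb h0 => hb (by simp [h0]))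

theorem tsum_row (h : HeckeFn U) (a : GLFin F ⧸ U.toSubgroup) :
    ∑' b, ‖h.kernel a b‖ = rowMass h := by
  refine QuotientGroup.induction_on a fun g => ?_
  rw [rowMass, ← (MulAction.toPerm g).tsum_eq fun b => ‖h.kernel (QuotientGroup.mk g) b‖]
  refine tsum_congr fun b => ?_
  show ‖h.kernel _ (g • b)‖ = _
  rw [← h.kernel_smul g (QuotientGroup.mk 1) b]
  congr 2
  show QuotientGroup.mk g = (QuotientGroup.mk (g * 1) : GLFin F ⧸ U.toSubgroup)
  rw [mul_one]

theorem integral_count_row (h : HeckeFn U) (a : GLFin F ⧸ U.toSubgroup)
    (u : GLFin F ⧸ U.toSubgroup → ℂ) :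
    Integrable (fun b => h.kernel a b * u b) Measure.count ∧
      ∫ b, h.kernel a b * u b ∂Measure.count = ∑ᶠ b, h.kernel a b * u b := by
  have hfin : (Function.support fun b => h.kernel a b * u b).Finite :=
    (finite_kernel_row h a).subset fun b hb h0 => hb (by simp [show h.kernel a b = 0 from h0])
  have hsum : Summable fun b => ‖h.kernel a b * u b‖ :=
    summable_of_hasFiniteSupport (hfin.subset fun b hb h0 => hb (by simp [show h.kernel a b * u b = 0 from h0]))
  have hint : Integrable (fun b => h.kernel a b * u b) Measure.count :=
    integrable_count_iff.mpr hsum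
  refine ⟨hint, ?_⟩
  rw [integral_countable hint]
  refine Eq.trans ?_ (tsum_eq_finsum (L := .unconditional _) hfin)
  refine tsum_congr fun b => ?_
  rw [Measure.real, Measure.count_singleton, ENNReal.toReal_one, one_smul]

/-- **Adjointness.** -/
theorem quotIntegral_op_symm (w : PartitionOfUnity U) (hw : Measurable w.weight) (h : HeckeFn U)
    (hsymm : ∀ a b, h.kernel a b = h.kernel b a) {φ S : Y U → ℂ}
    (hφm : Measurable φ) (hSm : Measurable S) (hφ : IsAutomorphic φ) (hS : IsAutomorphic S)
    {C : ℝ} (hC : ∀ y, ‖φ y‖ ≤ C)
    (hint : Integrable (fun y => w.weight y • S y) (yVol U)) :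
    quotIntegral w (fun y => φ y * h.op S y) = quotIntegral w (fun y => h.op φ y * S y) := by
  set D := GLFin F ⧸ U.toSubgroup
  set μ : Measure (Y U × D) := (yVol U).prod Measure.count
  set a : Y U × D → ℝ := fun t => w.weight t.1 with ha
  set b : Y U × D → ℝ := fun t => w.weight (t.1.1, t.2) with hb
  set A : Y U × D → ℂ := fun t => h.kernel t.1.2 t.2 * φ t.1 * S (t.1.1, t.2) with hA
  have ham : Measurable a := hw.comp measurable_fst
  have hpair : Measurable fun t : Y U × D => ((t.1.1, t.2) : Y U) :=
    (measurable_fst.comp measurable_fst).prodMk measurable_snd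
  have hbm : Measurable b := hw.comp hpair
  have hkm : Measurable fun t : Y U × D => h.kernel t.1.2 t.2 :=
    (measurable_from_top (f := fun x : D => fun y : D => h.kernel x y) |> fun _ =>
      (measurable_from_prod_countable_right (f := fun q : D × D => h.kernel q.1 q.2)
        fun _ => measurable_from_top)).comp
      ((measurable_snd.comp measurable_fst).prodMk measurable_snd)
  have hAm : Measurable A := (hkm.mul (hφm.comp measurable_fst)).mul (hSm.comp hpair)
  have hpres : ∀ c : PGLIndex F, MeasurePreserving (fun t : Y U × D => c • t) μ μ := fun c =>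
    (measurePreserving_pglSmul U c).prod (measurePreserving_cosetSmul c)
  have hfst : ∀ (c : PGLIndex F) (t : Y U × D),
      (((c • t).1.1, (c • t).2) : Y U) = c • ((t.1.1, t.2) : Y U) := fun c t => by
    induction c using QuotientGroup.induction_on with
    | H γ => rfl
  have hpa : Lift.IsPartition (PGLIndex F) a :=
    ⟨fun t => w.nonneg _, fun t => w.hasSum_pgl t.1⟩
  have hpb : Lift.IsPartition (PGLIndex F) b := by
    refine ⟨fun t => w.nonneg _, fun t => ?_⟩
    simp only [hb, hfst]
    exact w.hasSum_pgl _
  have hinv : ∀ (c : PGLIndex F) (t : Y U × D), A (c • t) = A t := by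
    intro c t
    simp only [hA, hfst, hS.pgl]
    rw [show (c • t).1 = c • t.1 from rfl, hφ.pgl]
    congr 2
    induction c using QuotientGroup.induction_on with
    | H γ => exact h.kernel_smul _ _ _
  -- exchange of the two cosets
  set σ : Y U × D → Y U × D := fun t => ((t.1.1, t.2), t.1.2) with hσ
  have hσp : MeasurePreserving σ μ μ := by
    have h1 := measurePreserving_prodAssoc (infVol F) (Measure.count : Measure D)
      (Measure.count : Measure D)
    have h2 : MeasurePreserving (Prod.map id (Prod.swap (α := D) (β := D)))
        ((infVol F).prod ((Measure.count : Measure D).prod Measure.count))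
        ((infVol F).prod ((Measure.count : Measure D).prod Measure.count)) :=
      (MeasurePreserving.id _).prod Measure.measurePreserving_swap
    exact ((h1.symm MeasurableEquiv.prodAssoc).comp (h2.comp h1) :)
  have hσe : MeasurableEmbedding σ :=
    (⟨⟨σ, σ, fun t => rfl, fun t => rfl⟩, hσp.measurable, hσp.measurable⟩ :
      Y U × D ≃ᵐ Y U × D).measurableEmbedding
  have hbσ_eq : ∀ t : Y U × D, b (σ t) • A (σ t) =
      (h.kernel t.1.2 t.2 * φ (t.1.1, t.2)) * (w.weight t.1 • S t.1) := fun t => by
    simp only [hb, hA, hσ, hsymm t.2 t.1.2, Complex.real_smul]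
    ring
  have hbσ : Integrable (fun t => b (σ t) • A (σ t)) μ := by
    refine (integrable_prod_iff ((hbm.smul hAm).comp hσp.measurable).aestronglyMeasurable).mpr
      ⟨Eventually.of_forall fun y => ?_, ?_⟩
    · show Integrable (fun x => b (σ (y, x)) • A (σ (y, x))) Measure.count
      simp only [hbσ_eq]
      exact (integral_count_row h y.2 fun x => φ (y.1, x)).1.mul_const _
    · refine (hint.norm.const_mul (rowMass h * C)).mono'
        ((((hbm.smul hAm).comp hσp.measurable).norm).stronglyMeasurable.integral_prod_right'
          ).aestronglyMeasurable (Eventually.of_forall fun y => ?_)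
      simp only [Function.comp_apply, Pi.smul_apply', hbσ_eq]
      rw [Real.norm_of_nonneg (integral_nonneg fun x => norm_nonneg _)]
      have hC0 : 0 ≤ C := (norm_nonneg _).trans (hC y)
      have hrow : Integrable (fun x => ‖h.kernel y.2 x‖ * C * ‖w.weight y • S y‖) Measure.count :=
        ((integrable_count_iff (f := fun x => ‖h.kernel y.2 x‖)).mpr
          (by simpa using summable_row h y.2)).mul_const C |>.mul_const _
      refine (integral_mono_of_nonneg (Eventually.of_forall fun x => norm_nonneg _) hrow
        (Eventually.of_forall fun x => ?_)).trans (le_of_eq ?_)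
      · show ‖_‖ ≤ _
        rw [norm_mul, norm_mul]
        exact mul_le_mul_of_nonneg_right
          (mul_le_mul_of_nonneg_left (hC _) (norm_nonneg _)) (norm_nonneg _)
      · rw [integral_countable hrow]
        simp only [Measure.real, Measure.count_singleton, ENNReal.toReal_one, one_smul]
        rw [tsum_mul_right, tsum_mul_right, tsum_row]
  have hbi : Integrable (fun t => b t • A t) μ := (hσp.integrable_comp_emb hσe).mp hbσ
  have hai : Integrable (fun t => a t • A t) μ :=
    Lift.integrable_partition_swap hpres hbm ham hAm.aestronglyMeasurable hpb hpa hinv hbi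
  have key := Lift.integral_partition_swap hpres ham hbm hAm.aestronglyMeasurable hpa hpb hinv hai
  calc quotIntegral w (fun y => φ y * h.op S y) = ∫ t, a t • A t ∂μ := by
        rw [quotIntegral, integral_prod _ hai]
        refine integral_congr_ae (Eventually.of_forall fun y => ?_)
        simp only [ha, hA]
        rw [integral_smul]
        congr 1
        rw [show (fun x => h.kernel y.2 x * φ y * S (y.1, x)) =
            fun x => φ y * (h.kernel y.2 x * S (y.1, x)) from funext fun x => by ring,
          integral_const_mul, (integral_count_row h y.2 fun x => S (y.1, x)).2]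
        rfl
    _ = ∫ t, b t • A t ∂μ := key
    _ = ∫ t, b (σ t) • A (σ t) ∂μ := (hσp.integral_comp hσe fun t => b t • A t).symm
    _ = quotIntegral w (fun y => h.op φ y * S y) := by
        rw [quotIntegral, integral_prod _ hbσ]
        refine integral_congr_ae (Eventually.of_forall fun y => ?_)
        simp only [hbσ_eq]
        rw [integral_mul_const, (integral_count_row h y.2 fun x => φ (y.1, x)).2]
        simp only [HeckeFn.op, Complex.real_smul]
        ring

end Fermat.Agent.LT.LiftHecke

end
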