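import Mathlib

/-!
# The lattice identity behind the Hecke relation of the Hermitian theta lift at a split prime

At a prime split in the quadratic field the Hermitian forms become `M₂(ℚ_p)`, acted on from the left
by the first component.  Summed over the `p + 1` cosets of the Hecke double coset of `diag (p, 1)`
the indicator of `M₂(ℤ_p)` becomes its restriction to singular reductions plus `p` times the
indicator of `p M₂(ℤ_p)`.
-/

set_option autoImplicit false

noncomputable section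

open Matrix
open scoped Classical

namespace Fermat.Agent.LT.LiftHecke

section Field

variable {k : Type*} [Field k] [Fintype k]

/-- Left kernel lines of a `2 × 2` matrix over a finite field, counted. -/
theorem card_left_kernel (M : Matrix (Fin 2) (Fin 2) k) :
    (Finset.univ.filter fun j : k => ∀ c, M 0 c = j * M 1 c).card + (if ∀ c, M 1 c = 0 then 1 else 0)
      = (if M.det = 0 then 1 else 0) + Fintype.card k * (if M = 0 then 1 else 0) := by
  by_cases h1 : ∀ c, M 1 c = 0
  · rw [if_pos h1, if_pos (by rw [Matrix.det_fin_two, h1 0, h1 1]; ring)]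
    by_cases h0 : ∀ c, M 0 c = 0
    · have hM : M = 0 := by
        ext i c; fin_cases i
        · exact h0 c
        · exact h1 c
      rw [if_pos hM, mul_one]
      have : (Finset.univ.filter fun j : k => ∀ c, M 0 c = j * M 1 c) = Finset.univ :=
        Finset.filter_true_of_mem fun j _ c => by rw [h0, h1, mul_zero]
      rw [this, Finset.card_univ, add_comm]
    · have hM : M ≠ 0 := fun h => h0 fun c => by rw [h]; rfl
      rw [if_neg hM, mul_zero, add_zero]
      have : (Finset.univ.filter fun j : k => ∀ c, M 0 c = j * M 1 c) = ∅ :=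
        Finset.filter_false_of_mem fun j _ hj => h0 fun c => by rw [hj c, h1, mul_zero]
      rw [this, Finset.card_empty, zero_add]
  · rw [if_neg h1, add_zero, if_neg (fun h : M = 0 => h1 fun c => by rw [h]; rfl), mul_zero,
      add_zero]
    push Not at h1
    obtain ⟨c₀, hc₀⟩ := h1
    by_cases hd : M.det = 0
    · rw [if_pos hd, Finset.card_eq_one]
      refine ⟨M 0 c₀ / M 1 c₀, Finset.ext fun j => ?_⟩
      simp only [Finset.mem_filter, Finset.mem_univ, true_and, Finset.mem_singleton]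
      refine ⟨fun h => by rw [h c₀]; field_simp, fun h c => ?_⟩
      rw [h]
      rw [Matrix.det_fin_two] at hd
      field_simp
      fin_cases c₀ <;> fin_cases c <;> simp <;>
        first | linear_combination hd | linear_combination -hd
    · rw [if_neg hd, Finset.card_eq_zero]
      refine Finset.filter_false_of_mem fun j _ hj => hd ?_
      rw [Matrix.det_fin_two, hj 0, hj 1]; ring

end Field

section Padic

variable {p : ℕ} [Fact p.Prime]

/-- All entries are `p`-integral. -/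
def IsInt (X : Matrix (Fin 2) (Fin 2) ℚ_[p]) : Prop := ∀ i j, ‖X i j‖ ≤ 1

/-- Representatives of the cosets in the double coset of `diag (p, 1)`. -/
def heckeRep (p : ℕ) [Fact p.Prime] : Option (ZMod p) → Matrix (Fin 2) (Fin 2) ℚ_[p]
  | some j => !![(p : ℚ_[p]), (j.val : ℚ_[p]); 0, 1]
  | none => !![1, 0; 0, (p : ℚ_[p])]

theorem det_heckeRep (i : Option (ZMod p)) : (heckeRep p i).det = (p : ℚ_[p]) := by
  cases i <;> simp [heckeRep, Matrix.det_fin_two]

theorem isInt_mul {X Y : Matrix (Fin 2) (Fin 2) ℚ_[p]} (hX : IsInt X) (hY : IsInt Y) :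
    IsInt (X * Y) := by
  intro i j
  rw [Matrix.mul_apply, Fin.sum_univ_two]
  refine (Padic.nonarchimedean _ _).trans (max_le ?_ ?_) <;> rw [norm_mul] <;>
    exact mul_le_one₀ (hX _ _) (norm_nonneg _) (hY _ _)

theorem isInt_heckeRep (i : Option (ZMod p)) : IsInt (heckeRep p i) := by
  have hp : ‖(p : ℚ_[p])‖ ≤ 1 := by simpa using Padic.norm_int_le_one (p := p) (p : ℤ)
  have hn : ∀ n : ℕ, ‖(n : ℚ_[p])‖ ≤ 1 := fun n => by
    simpa using Padic.norm_int_le_one (p := p) (n : ℤ)
  cases i <;> intro a b <;> fin_cases a <;> fin_cases b <;>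
    simp [heckeRep, -Padic.norm_p, -ZMod.natCast_val, hp, hn]

/-- An integral matrix as a matrix over `ℤ_p`. -/
def toInt {X : Matrix (Fin 2) (Fin 2) ℚ_[p]} (hX : IsInt X) : Matrix (Fin 2) (Fin 2) ℤ_[p] :=
  Matrix.of fun i j => ⟨X i j, hX i j⟩

@[simp] theorem coe_toInt {X : Matrix (Fin 2) (Fin 2) ℚ_[p]} (hX : IsInt X) (i j : Fin 2) :
    ((toInt hX i j : ℤ_[p]) : ℚ_[p]) = X i j := rfl

theorem norm_div_p_le_one_iff (z : ℤ_[p]) :
    ‖(z : ℚ_[p]) / (p : ℚ_[p])‖ ≤ 1 ↔ PadicInt.toZMod z = 0 := by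
  have hp : (0 : ℝ) < p := by exact_mod_cast (Fact.out : p.Prime).pos
  rw [← RingHom.mem_ker, PadicInt.ker_toZMod, PadicInt.maximalIdeal_eq_span_p,
    ← pow_one (p : ℤ_[p]), ← PadicInt.norm_le_pow_iff_mem_span_pow, norm_div, Padic.norm_p,
    PadicInt.norm_def, Nat.cast_one, _root_.zpow_neg, zpow_one, div_le_iff₀ (by positivity), one_mul]

/-- A `p`-adic integer has norm below one exactly when it reduces to zero. -/
theorem norm_lt_one_iff (z : ℤ_[p]) : ‖(z : ℚ_[p])‖ < 1 ↔ PadicInt.toZMod z = 0 := by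
  rw [← PadicInt.norm_def, ← RingHom.mem_ker, PadicInt.ker_toZMod,
    IsLocalRing.mem_maximalIdeal, PadicInt.mem_nonunits]

theorem isInt_inv_heckeRep_some {X : Matrix (Fin 2) (Fin 2) ℚ_[p]} (hX : IsInt X) (j : ZMod p) :
    IsInt ((heckeRep p (some j))⁻¹ * X) ↔
      ∀ c, ((toInt hX).map PadicInt.toZMod) 0 c = j * ((toInt hX).map PadicInt.toZMod) 1 c := by
  have hp : (p : ℚ_[p]) ≠ 0 := by exact_mod_cast (Fact.out : p.Prime).ne_zero
  have hinv : (heckeRep p (some j))⁻¹ =
      !![(p : ℚ_[p])⁻¹, -(j.val : ℚ_[p]) * (p : ℚ_[p])⁻¹; 0, 1] := by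
    refine Matrix.inv_eq_left_inv ?_
    ext a b; fin_cases a <;> fin_cases b <;> simp [heckeRep, Matrix.mul_apply, Fin.sum_univ_two, hp]
    ring
  have h0 : ∀ c, ((heckeRep p (some j))⁻¹ * X) 0 c =
      (((toInt hX) 0 c - (j.val : ℤ_[p]) * (toInt hX) 1 c : ℤ_[p]) : ℚ_[p]) / (p : ℚ_[p]) := by
    intro c
    simp [hinv, Matrix.mul_apply, Fin.sum_univ_two, -ZMod.natCast_val]
    ring
  have h1 : ∀ c, ((heckeRep p (some j))⁻¹ * X) 1 c = X 1 c := by
    intro c; simp [hinv, Matrix.mul_apply, Fin.sum_univ_two]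
  have key : ∀ c, ‖((heckeRep p (some j))⁻¹ * X) 0 c‖ ≤ 1 ↔
      ((toInt hX).map PadicInt.toZMod) 0 c = j * ((toInt hX).map PadicInt.toZMod) 1 c := by
    intro c
    rw [h0, norm_div_p_le_one_iff, map_sub, map_mul, map_natCast, ZMod.natCast_zmod_val, sub_eq_zero]
    rfl
  refine ⟨fun h c => (key c).1 (h 0 c), fun h => ?_⟩
  intro a c
  fin_cases a
  · exact (key c).2 (h c)
  · show ‖((heckeRep p (some j))⁻¹ * X) 1 c‖ ≤ 1
    rw [h1]; exact hX 1 c

theorem isInt_inv_heckeRep_none {X : Matrix (Fin 2) (Fin 2) ℚ_[p]} (hX : IsInt X) :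
    IsInt ((heckeRep p none)⁻¹ * X) ↔ ∀ c, ((toInt hX).map PadicInt.toZMod) 1 c = 0 := by
  have hp : (p : ℚ_[p]) ≠ 0 := by exact_mod_cast (Fact.out : p.Prime).ne_zero
  have hinv : (heckeRep p none)⁻¹ = !![1, 0; 0, (p : ℚ_[p])⁻¹] := by
    refine Matrix.inv_eq_left_inv ?_
    ext a b; fin_cases a <;> fin_cases b <;> simp [heckeRep, Matrix.mul_apply, Fin.sum_univ_two, hp]
  have h0 : ∀ c, ((heckeRep p none)⁻¹ * X) 0 c = X 0 c := by
    intro c; simp [hinv, Matrix.mul_apply, Fin.sum_univ_two]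
  have key : ∀ c, ‖((heckeRep p none)⁻¹ * X) 1 c‖ ≤ 1 ↔
      ((toInt hX).map PadicInt.toZMod) 1 c = 0 := by
    intro c
    have : ((heckeRep p none)⁻¹ * X) 1 c = ((toInt hX) 1 c : ℚ_[p]) / (p : ℚ_[p]) := by
      simp [hinv, Matrix.mul_apply, Fin.sum_univ_two]; ring
    rw [this, norm_div_p_le_one_iff]
    rfl
  refine ⟨fun h c => (key c).1 (h 1 c), fun h => ?_⟩
  intro a c
  fin_cases a
  · show ‖((heckeRep p none)⁻¹ * X) 0 c‖ ≤ 1
    rw [h0]; exact hX 0 c
  · exact (key c).2 (h c)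

theorem isInt_of_smul_inv {X : Matrix (Fin 2) (Fin 2) ℚ_[p]}
    (h : IsInt ((p : ℚ_[p])⁻¹ • X)) : IsInt X := by
  intro i j
  have hp : (p : ℚ_[p]) ≠ 0 := by exact_mod_cast (Fact.out : p.Prime).ne_zero
  have hij := h i j
  rw [show X i j = (p : ℚ_[p]) * ((p : ℚ_[p])⁻¹ • X) i j by simp [hp], norm_mul]
  exact mul_le_one₀ (by simpa using Padic.norm_int_le_one (p := p) (p : ℤ)) (norm_nonneg _) hij

/-- The identity: summing the indicator of `M₂(ℤ_p)` over the Hecke cosets. -/
theorem sum_isInt_inv_heckeRep (X : Matrix (Fin 2) (Fin 2) ℚ_[p]) :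
    (∑ i : Option (ZMod p), if IsInt ((heckeRep p i)⁻¹ * X) then 1 else 0 : ℕ) =
      (if IsInt X ∧ ‖X.det‖ < 1 then 1 else 0) +
        p * (if IsInt ((p : ℚ_[p])⁻¹ • X) then 1 else 0) := by
  by_cases hX : IsInt X
  · rw [Fintype.sum_option]
    simp only [isInt_inv_heckeRep_some hX, isInt_inv_heckeRep_none hX]
    rw [Finset.sum_boole, Nat.cast_id, add_comm]
    have hcount := card_left_kernel ((toInt hX).map PadicInt.toZMod)
    rw [ZMod.card] at hcount
    have hdet : ((toInt hX).map PadicInt.toZMod).det = 0 ↔ IsInt X ∧ ‖X.det‖ < 1 := by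
      have e : (((toInt hX).det : ℤ_[p]) : ℚ_[p]) = X.det := by
        rw [Matrix.det_fin_two, Matrix.det_fin_two]; simp
      rw [← RingHom.mapMatrix_apply, ← RingHom.map_det, ← norm_lt_one_iff, e]
      exact ⟨fun h => ⟨hX, h⟩, fun h => h.2⟩
    have hzero : (toInt hX).map PadicInt.toZMod = 0 ↔ IsInt ((p : ℚ_[p])⁻¹ • X) := by
      rw [← Matrix.ext_iff]
      refine forall_congr' fun i => forall_congr' fun j => ?_
      rw [Matrix.map_apply, Matrix.zero_apply, ← norm_div_p_le_one_iff, Matrix.smul_apply,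
        smul_eq_mul, inv_mul_eq_div]
      rfl
    simp only [hdet, hzero] at hcount
    convert hcount
  · rw [if_neg (fun h => hX h.1), if_neg (fun h => hX (isInt_of_smul_inv h)), mul_zero, add_zero]
    refine Finset.sum_eq_zero fun i _ => if_neg fun h => hX ?_
    have hu : IsUnit (heckeRep p i).det := by
      rw [det_heckeRep, isUnit_iff_ne_zero]; exact_mod_cast (Fact.out : p.Prime).ne_zero
    have := isInt_mul (isInt_heckeRep i) h
    rwa [Matrix.mul_nonsing_inv_cancel_left _ _ hu] at this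

end Padic

end Fermat.Agent.LT.LiftHecke

end
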