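import Fermat.Agent.LT.Adele
import Fermat.Agent.LT.LiftHecke.Local
import Mathlib.RingTheory.Finiteness.Basic

/-!
# A split place of an imaginary quadratic field inside the finite adeles

For an embedding `ι : K → ℚ_p` and a trace zero element `d` with `2 ι d` a unit there is an
idempotent cutting out the place of `ι` in `K ⊗ ℤ̂`; it gives a homomorphism `GL₂ K → GL₂ (A_f)`
supported at that place, and the lattice identity becomes an identity for functions on adelic
Hermitian forms.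
-/

set_option autoImplicit false

noncomputable section

open Matrix
open scoped TensorProduct Classical

namespace Fermat.Agent.LT.LiftHecke

variable {K : Type*} [Field K]

/-- `g Y (σ g)ᵀ`, the action on Hermitian forms. -/
def hermAct {R : Type*} [CommRing R] (σ : R →+* R) (g Y : Matrix (Fin 2) (Fin 2) R) :
    Matrix (Fin 2) (Fin 2) R :=
  g * Y * (g.map σ)ᵀ

/-- `hermAct` is an action. -/
theorem hermAct_mul {R : Type*} [CommRing R] (σ : R →+* R) (g h Y : Matrix (Fin 2) (Fin 2) R) :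
    hermAct σ (g * h) Y = hermAct σ g (hermAct σ h Y) := by
  simp only [hermAct, Matrix.map_mul, Matrix.transpose_mul, mul_assoc]

/-- The determinant of `g Y (σ g)ᵀ`. -/
theorem det_hermAct {R : Type*} [CommRing R] (σ : R →+* R) (g Y : Matrix (Fin 2) (Fin 2) R) :
    (hermAct σ g Y).det = g.det * σ g.det * Y.det := by
  rw [hermAct, Matrix.det_mul, Matrix.det_mul, Matrix.det_transpose, ← RingHom.mapMatrix_apply,
    ← RingHom.map_det]
  ring

/-- The data of a split place: an embedding in `ℚ_p` and a separating element. -/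
structure SplitPlace (K : Type*) [Field K] where
  p : Nat.Primes
  ι : K →+* ℚ_[(p : ℕ)]
  σ : K →+* K
  d : K
  D : ℤ
  a : ℤ_[(p : ℕ)]
  d_sq : d * d = (D : K)
  σ_d : σ d = -d
  two_ne : (2 : K) ≠ 0
  a_spec : (a : ℚ_[(p : ℕ)]) * (2 * ι d) = 1

namespace SplitPlace

variable (v : SplitPlace K)

/-- The component at the place. -/
def comp : FinAdele K →+* ℚ_[(v.p : ℕ)] :=
  (Algebra.TensorProduct.lift v.ι.toIntAlgHom
    ((PadicInt.Coe.ringHom).comp (Pi.evalRingHom (fun p : Nat.Primes => ℤ_[(p : ℕ)]) v.p)).toIntAlgHom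
    (fun _ _ => mul_comm _ _)).toRingHom

/-- The component of a pure tensor. -/
theorem comp_tmul (x : K) (z : Zhat) : v.comp (x ⊗ₜ z) = v.ι x * (z v.p : ℚ_[(v.p : ℕ)]) := by
  rw [comp]
  exact Algebra.TensorProduct.lift_tmul _ _ _ x z

/-- The component of a principal adele is its image in `ℚ_p`. -/
theorem comp_finIncl (x : K) : v.comp (finIncl K x) = v.ι x := by
  rw [show finIncl K x = x ⊗ₜ[ℤ] (1 : Zhat) from rfl, comp_tmul]
  simp

/-- The idempotent of the place. -/
def idem : FinAdele K :=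
  v.d ⊗ₜ[ℤ] (Pi.single v.p v.a : Zhat) + (1 / 2 : K) ⊗ₜ[ℤ] (Pi.single v.p 1 : Zhat)

theorem comp_idem : v.comp v.idem = 1 := by
  rw [idem, map_add, comp_tmul, comp_tmul, Pi.single_eq_same, Pi.single_eq_same, map_div₀,
    map_one, map_ofNat, PadicInt.coe_one, mul_one]
  linear_combination ((1 : ℚ_[(v.p : ℕ)]) / 2) * v.a_spec

theorem comp_finMap_idem : v.comp (finMap v.σ v.idem) = 0 := by
  rw [idem, map_add, finMap_tmul, finMap_tmul, v.σ_d, map_div₀ v.σ, map_one, map_ofNat, map_add,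
    comp_tmul, comp_tmul, Pi.single_eq_same, Pi.single_eq_same, map_div₀, map_one, map_ofNat,
    PadicInt.coe_one, mul_one, map_neg]
  linear_combination (-(1 : ℚ_[(v.p : ℕ)]) / 2) * v.a_spec

theorem sq_eq : (v.D : ℤ_[(v.p : ℕ)]) * (4 * (v.a * v.a)) = 1 := by
  apply Subtype.ext
  have hD : v.ι v.d * v.ι v.d = (v.D : ℚ_[(v.p : ℕ)]) := by rw [← map_mul, v.d_sq, map_intCast]
  push_cast
  show (v.D : ℚ_[(v.p : ℕ)]) * (4 * ((v.a : ℚ_[(v.p : ℕ)]) * v.a)) = 1
  linear_combination (-4 * ((v.a : ℚ_[(v.p : ℕ)]) * v.a)) * hD +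
    ((v.a : ℚ_[(v.p : ℕ)]) * (2 * v.ι v.d) + 1) * v.a_spec

theorem cross_eq :
    (v.d * v.d) ⊗ₜ[ℤ] ((Pi.single v.p v.a : Zhat) * Pi.single v.p v.a) =
      ((1 / 2 : K) * (1 / 2)) ⊗ₜ[ℤ] ((Pi.single v.p 1 : Zhat) * Pi.single v.p 1) := by
  have h2 := v.two_ne
  rw [show v.d * v.d = (4 * v.D : ℤ) • ((1 / 2 : K) * (1 / 2)) by
    rw [v.d_sq, zsmul_eq_mul]; push_cast; field_simp; ring,
    TensorProduct.smul_tmul]
  congr 1
  rw [← Pi.single_mul, ← Pi.single_mul, ← Pi.single_smul]
  congr 1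
  rw [zsmul_eq_mul, mul_one]
  push_cast
  linear_combination v.sq_eq

theorem single_mul_single (x y : ℤ_[(v.p : ℕ)]) :
    (Pi.single v.p x : Zhat) * Pi.single v.p y = Pi.single v.p (x * y) := by
  rw [Pi.single_mul]

include v in
theorem halve (x : K) (z : Zhat) :
    x ⊗ₜ[ℤ] z = (x * (1 / 2)) ⊗ₜ[ℤ] z + (x * (1 / 2)) ⊗ₜ[ℤ] z := by
  have h2 := v.two_ne
  rw [← TensorProduct.add_tmul]
  congr 1
  field_simp; ring

/-- The idempotent of the place is idempotent. -/
theorem idem_mul_idem : v.idem * v.idem = v.idem := by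
  rw [idem, add_mul, mul_add, mul_add, Algebra.TensorProduct.tmul_mul_tmul,
    Algebra.TensorProduct.tmul_mul_tmul, Algebra.TensorProduct.tmul_mul_tmul,
    Algebra.TensorProduct.tmul_mul_tmul, v.cross_eq, v.single_mul_single, v.single_mul_single,
    v.single_mul_single, mul_one, mul_one, one_mul, mul_comm (1 / 2 : K) v.d,
    v.halve v.d (Pi.single v.p v.a), v.halve (1 / 2) (Pi.single v.p 1)]
  abel

/-- It is orthogonal to its conjugate. -/
theorem idem_mul_finMap_idem : v.idem * finMap v.σ v.idem = 0 := by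
  rw [idem, map_add, finMap_tmul, finMap_tmul, v.σ_d, map_div₀ v.σ, map_one, map_ofNat, add_mul,
    mul_add, mul_add, Algebra.TensorProduct.tmul_mul_tmul, Algebra.TensorProduct.tmul_mul_tmul,
    Algebra.TensorProduct.tmul_mul_tmul, Algebra.TensorProduct.tmul_mul_tmul,
    mul_neg, TensorProduct.neg_tmul, v.cross_eq, mul_neg, TensorProduct.neg_tmul,
    v.single_mul_single, v.single_mul_single, v.single_mul_single, mul_one, mul_one, one_mul,
    mul_comm (1 / 2 : K) v.d]
  abel

/-- Matrices over `K` placed at the component, `1` elsewhere. -/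
def atPlace : Matrix (Fin 2) (Fin 2) K →* Matrix (Fin 2) (Fin 2) (FinAdele K) where
  toFun M := 1 + v.idem • (M.map (finIncl K) - 1)
  map_one' := by simp
  map_mul' M M' := by
    rw [Matrix.map_mul]
    set P := M.map (finIncl K)
    set P' := M'.map (finIncl K)
    simp only [smul_sub, mul_add, add_mul, mul_one, one_mul, Matrix.smul_mul, Matrix.mul_smul,
      smul_smul, sub_mul, mul_sub, v.idem_mul_idem]
    abel

/-- `GL₂ K` placed at the component. -/
def glAtPlace : GL (Fin 2) K →* GLFin K := Units.map v.atPlace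

theorem map_comp_atPlace (M : Matrix (Fin 2) (Fin 2) K) :
    (v.atPlace M).map v.comp = M.map v.ι := by
  have h : ∀ i j, v.atPlace M i j = (1 : Matrix (Fin 2) (Fin 2) (FinAdele K)) i j +
      v.idem * (finIncl K (M i j) - (1 : Matrix (Fin 2) (Fin 2) (FinAdele K)) i j) := fun i j => rfl
  ext i j
  rw [Matrix.map_apply, h, map_add, map_mul, v.comp_idem, one_mul, map_sub, v.comp_finIncl]
  rw [add_sub_cancel]
  rfl

theorem map_comp_finMap_atPlace (M : Matrix (Fin 2) (Fin 2) K) :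
    ((v.atPlace M).map (finMap v.σ).toRingHom).map v.comp = 1 := by
  have h : ∀ i j, v.atPlace M i j = (1 : Matrix (Fin 2) (Fin 2) (FinAdele K)) i j +
      v.idem * (finIncl K (M i j) - (1 : Matrix (Fin 2) (Fin 2) (FinAdele K)) i j) := fun i j => rfl
  ext i j
  rw [Matrix.map_apply, Matrix.map_apply, h]
  show v.comp (finMap v.σ _) = _
  rw [map_add, map_mul, map_add, map_mul, v.comp_finMap_idem, zero_mul, add_zero]
  fin_cases i <;> fin_cases j <;> simp

/-- At the place, the Hermitian action of `atPlace M` is left multiplication by `M`. -/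
theorem map_comp_hermAct (M : Matrix (Fin 2) (Fin 2) K)
    (Y : Matrix (Fin 2) (Fin 2) (FinAdele K)) :
    (hermAct (finMap v.σ).toRingHom (v.atPlace M) Y).map v.comp = M.map v.ι * Y.map v.comp := by
  rw [hermAct, Matrix.map_mul, Matrix.map_mul, map_comp_atPlace,
    Matrix.transpose_map, map_comp_finMap_atPlace, Matrix.transpose_one, mul_one]

/-- The coset representatives, over `K`. -/
def repK : Option (ZMod (v.p : ℕ)) → Matrix (Fin 2) (Fin 2) K
  | some j => !![((v.p : ℕ) : K), (j.val : K); 0, 1]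
  | none => !![1, 0; 0, ((v.p : ℕ) : K)]

theorem map_repK (i : Option (ZMod (v.p : ℕ))) : (v.repK i).map v.ι = heckeRep (v.p : ℕ) i := by
  cases i <;> ext a b <;> fin_cases a <;> fin_cases b <;>
    simp [repK, heckeRep, -ZMod.natCast_val]

/-- The coset representatives have determinant `p`. -/
theorem det_repK (i : Option (ZMod (v.p : ℕ))) : (v.repK i).det = ((v.p : ℕ) : K) := by
  cases i <;> simp [repK, Matrix.det_fin_two]

/-- The Hecke sum of a function which is a lattice indicator at the place times a function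
unaffected by the place. `Φ'` is the part away from the place. -/
theorem sum_hecke [CharZero K] (Φ Φ' : Matrix (Fin 2) (Fin 2) (FinAdele K) → ℂ) (ε : ℂ)
    (hΦ : ∀ Y, Φ Y = if IsInt (Y.map v.comp) then Φ' Y else 0)
    (hΦ' : ∀ (i : Option (ZMod (v.p : ℕ))) Y,
      Φ' (hermAct (finMap v.σ).toRingHom (v.atPlace (v.repK i)⁻¹) Y) = Φ' Y)
    (hε : ∀ Y, Φ' Y = ε * Φ' (finIncl K ((v.p : ℕ) : K)⁻¹ • Y))
    (Y : Matrix (Fin 2) (Fin 2) (FinAdele K)) (hdet : ‖(Y.map v.comp).det‖ < 1) :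
    ∑ i, Φ (hermAct (finMap v.σ).toRingHom (v.atPlace (v.repK i)⁻¹) Y) =
      Φ Y + (v.p : ℕ) * ε * Φ (finIncl K ((v.p : ℕ) : K)⁻¹ • Y) := by
  have hp : ((v.p : ℕ) : K) ≠ 0 := Nat.cast_ne_zero.2 v.p.2.ne_zero
  have hinv : ∀ i, (v.repK i)⁻¹.map v.ι = (heckeRep (v.p : ℕ) i)⁻¹ := by
    intro i
    refine (Matrix.inv_eq_left_inv ?_).symm
    rw [← v.map_repK i, ← Matrix.map_mul, Matrix.nonsing_inv_mul _
      (by rw [det_repK]; exact isUnit_iff_ne_zero.2 hp), Matrix.map_one _ (map_zero _) (map_one _)]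
  have hterm : ∀ i, Φ (hermAct (finMap v.σ).toRingHom (v.atPlace (v.repK i)⁻¹) Y) =
      ((if IsInt ((heckeRep (v.p : ℕ) i)⁻¹ * Y.map v.comp) then 1 else 0 : ℕ) : ℂ) * Φ' Y := by
    intro i
    rw [hΦ, map_comp_hermAct, hinv, hΦ']
    split_ifs <;> simp
  simp only [hterm]
  rw [← Finset.sum_mul, ← Nat.cast_sum, sum_isInt_inv_heckeRep, Nat.cast_add, Nat.cast_mul,
    add_mul, hΦ Y, hΦ (finIncl K ((v.p : ℕ) : K)⁻¹ • Y)]
  have hs : (finIncl K ((v.p : ℕ) : K)⁻¹ • Y).map v.comp =
      ((v.p : ℕ) : ℚ_[(v.p : ℕ)])⁻¹ • Y.map v.comp := by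
    ext i j
    simp [Matrix.map_apply, comp_finIncl]
  rw [hs]
  simp only [hdet, and_true]
  split_ifs <;> push_cast
  · rw [mul_assoc ((v.p : ℕ) : ℂ) ε, ← hε]; ring
  · ring
  · rw [mul_assoc ((v.p : ℕ) : ℂ) ε, ← hε]; ring
  · ring

end SplitPlace

end Fermat.Agent.LT.LiftHecke

end
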