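import Fermat.Agent.LT.Space
import Fermat.Agent.LT.H3.Measure
import Fermat.Agent.LT.Lift.EigenLine
import Fermat.Agent.LT.LiftHecke.SplitPlace
import Mathlib.Analysis.Real.Sqrt
import Mathlib.Topology.Algebra.InfiniteSum.Module
import Mathlib.Topology.Algebra.InfiniteSum.Constructions

/-!
# The theta sums over Hermitian matrices and their Hecke relation at a split place

For `y = (P, g)` and a weight `Φ` on adelic Hermitian matrices the sum is over `X` Hermitian over
`K` with `nForm (X / √c(g)) = n`, of `f (m (X / √c(g), P)) Φ (g⁻¹ X g⁻ᴴ)`. It descends to `Y`,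
is invariant under `GL₂ K`, and at a split place the sum over the `p + 1` neighbours is
`S_{pn} + p ε S_{n/p}` with rescaled test functions.
-/

set_option autoImplicit false

noncomputable section

open Matrix
open scoped ComplexConjugate TensorProduct Classical

namespace Fermat.Agent.LT.LiftHecke

/-- A field with a conjugation compatible with a complex embedding. -/
structure HermFrame (K : Type*) [Field K] where
  /-- The conjugation. -/
  σ : K →+* K
  /-- The embedding. -/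
  e : K →+* ℂ
  conj_e : ∀ x, e (σ x) = conj (e x)

variable {K : Type*} [Field K]

namespace HermFrame

variable (Fr : HermFrame K)

/-- The Hermitian matrices over `K`. -/
def Herm : Type _ := {X : Matrix (Fin 2) (Fin 2) K // (X.map Fr.σ)ᵀ = X}

/-- The conjugation is an involution. -/
theorem σ_involutive (x : K) : Fr.σ (Fr.σ x) = x :=
  Fr.e.injective (by rw [Fr.conj_e, Fr.conj_e, Complex.conj_conj])

theorem herm_hermAct (γ : Matrix (Fin 2) (Fin 2) K) {X : Matrix (Fin 2) (Fin 2) K}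
    (hX : (X.map Fr.σ)ᵀ = X) : ((hermAct Fr.σ γ X).map Fr.σ)ᵀ = hermAct Fr.σ γ X := by
  rw [hermAct, Matrix.map_mul, Matrix.map_mul, Matrix.transpose_mul, Matrix.transpose_mul, hX,
    Matrix.transpose_map, Matrix.transpose_transpose, Matrix.mul_assoc]
  congr 2
  ext i j
  simp [Fr.σ_involutive]

/-- The action of `GL₂ K`. -/
def hermEquiv (γ : GL (Fin 2) K) : Fr.Herm ≃ Fr.Herm where
  toFun X := ⟨hermAct Fr.σ γ.val X.1, Fr.herm_hermAct _ X.2⟩
  invFun X := ⟨hermAct Fr.σ (γ⁻¹).val X.1, Fr.herm_hermAct _ X.2⟩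
  left_inv X := Subtype.ext (by
    show hermAct Fr.σ _ (hermAct Fr.σ _ X.1) = X.1
    rw [← hermAct_mul, ← Units.val_mul, inv_mul_cancel]
    simp [hermAct])
  right_inv X := Subtype.ext (by
    show hermAct Fr.σ _ (hermAct Fr.σ _ X.1) = X.1
    rw [← hermAct_mul, ← Units.val_mul, mul_inv_cancel]
    simp [hermAct])

/-- Multiplication by a nonzero rational number. -/
def ratEquiv [CharZero K] (r : ℚ) (hr : r ≠ 0) : Fr.Herm ≃ Fr.Herm where
  toFun X := ⟨(r : K) • X.1, by
    rw [show ((r : K) • X.1).map Fr.σ = (r : K) • X.1.map Fr.σ from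
      Matrix.ext fun i j => by simp, Matrix.transpose_smul, X.2]⟩
  invFun X := ⟨((r⁻¹ : ℚ) : K) • X.1, by
    rw [show (((r⁻¹ : ℚ) : K) • X.1).map Fr.σ = ((r⁻¹ : ℚ) : K) • X.1.map Fr.σ from
      Matrix.ext fun i j => by simp, Matrix.transpose_smul, X.2]⟩
  left_inv X := Subtype.ext (by
    show ((r⁻¹ : ℚ) : K) • ((r : K) • X.1) = X.1
    rw [smul_smul, ← Rat.cast_mul, inv_mul_cancel₀ hr, Rat.cast_one, one_smul])
  right_inv X := Subtype.ext (by
    show (r : K) • (((r⁻¹ : ℚ) : K) • X.1) = X.1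
    rw [smul_smul, ← Rat.cast_mul, mul_inv_cancel₀ hr, Rat.cast_one, one_smul])

/-- `X / √c` as a complex matrix. -/
def normVec (c : ℚ) (X : Fr.Herm) : Matrix (Fin 2) (Fin 2) ℂ :=
  (((√(c : ℝ))⁻¹ : ℝ) : ℂ) • X.1.map Fr.e

/-- `X / √c` is Hermitian. -/
theorem isHermitian_normVec (c : ℚ) (X : Fr.Herm) : (Fr.normVec c X).IsHermitian := by
  have h : ∀ i j, Fr.σ (X.1 j i) = X.1 i j := fun i j => congrFun (congrFun X.2 i) j
  refine Matrix.IsHermitian.ext fun i j => ?_
  simp only [normVec, Matrix.smul_apply, Matrix.map_apply, smul_eq_mul, star_mul',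
    Complex.star_def, Complex.conj_ofReal, ← Fr.conj_e, h]

theorem normVec_ratEquiv [CharZero K] (c r : ℚ) (hr : r ≠ 0) (X : Fr.Herm) :
    Fr.normVec c (Fr.ratEquiv r hr X) = ((r : ℝ) : ℂ) • Fr.normVec c X := by
  ext i j
  simp [normVec, ratEquiv]
  ring

/-- Multiplying the scale by `r²` is dividing `X` by `r`. -/
theorem normVec_mul_sq [CharZero K] (c r : ℚ) (hr : 0 < r) (X : Fr.Herm) :
    Fr.normVec (c * r ^ 2) X = Fr.normVec c (Fr.ratEquiv r⁻¹ (inv_ne_zero hr.ne') X) := by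
  rw [normVec_ratEquiv]
  have hr' : (0 : ℝ) < r := by exact_mod_cast hr
  have e : √((c * r ^ 2 : ℚ) : ℝ) = √(c : ℝ) * (r : ℝ) := by
    push_cast
    rw [Real.sqrt_mul' _ (sq_nonneg _), Real.sqrt_sq hr'.le]
  simp only [normVec, e, smul_smul]
  congr 1
  push_cast
  rw [mul_inv]
  ring

end HermFrame

open Lift (mTrace nForm)

section Series

variable [NumberField K] (Fr : HermFrame K)

/-- The rational generator of the norm of the determinant. -/
structure NormScale (U : Level K) where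
  /-- The function. -/
  c : GLFin K →* ℚ
  pos : ∀ g, 0 < c g
  incl : ∀ γ : GL (Fin 2) K, (c (glIncl K γ) : ℝ) = ‖Fr.e γ.val.det‖ ^ 2
  sq_rat : ∀ u ∈ U.toSubgroup, ∃ r : ℚ, 0 < r ∧ c u = r ^ 2

/-- A weight on adelic Hermitian matrices, invariant under the level up to the scale. -/
structure ThetaWeight {U : Level K} (C : NormScale Fr U) where
  /-- The function. -/
  Φ : Matrix (Fin 2) (Fin 2) (FinAdele K) → ℂ
  level : ∀ u ∈ U.toSubgroup, ∀ r : ℚ, 0 < r → C.c u = r ^ 2 → ∀ Y,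
    Φ (hermAct (finMap Fr.σ).toRingHom (u⁻¹).val Y) = Φ (finIncl K ((r⁻¹ : ℚ) : K) • Y)

variable {Fr} {U : Level K} {C : NormScale Fr U} (W : ThetaWeight Fr C)

namespace ThetaWeight

/-- `g⁻¹ X g⁻ᴴ` in the adelic matrices. -/
def arg (g : GLFin K) (X : Fr.Herm) : Matrix (Fin 2) (Fin 2) (FinAdele K) :=
  hermAct (finMap Fr.σ).toRingHom (g⁻¹).val (X.1.map (finIncl K))

omit [NumberField K] in
/-- The argument for `g u` is the one for `g` acted on by `u⁻¹`. -/
theorem arg_mul (g u : GLFin K) (X : Fr.Herm) :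
    (arg (Fr := Fr) (g * u) X) = hermAct (finMap Fr.σ).toRingHom (u⁻¹).val (arg g X) := by
  simp only [arg, _root_.mul_inv_rev, Units.val_mul, hermAct_mul]

/-- The argument is homogeneous in rational scalars. -/
theorem arg_ratEquiv (g : GLFin K) (r : ℚ) (hr : r ≠ 0) (X : Fr.Herm) :
    (arg (Fr := Fr) g (Fr.ratEquiv r hr X)) = finIncl K (r : K) • arg g X := by
  have h : (Fr.ratEquiv r hr X).1.map (finIncl K) = finIncl K (r : K) • X.1.map (finIncl K) :=
    Matrix.ext fun i j => map_mul (finIncl K) _ _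
  rw [arg, arg, hermAct, hermAct, h]
  refine Matrix.ext fun i j => ?_
  simp only [Matrix.mul_apply, Matrix.smul_apply, smul_eq_mul, Fin.sum_univ_two]
  ring

/-- The summand. -/
def term (f : ℝ → ℝ) (n : ℝ) (P : H3) (g : GLFin K) (X : Fr.Herm) : ℂ :=
  if nForm (Fr.normVec (C.c g) X) = n then
    (f (mTrace (Fr.normVec (C.c g) X) P) : ℂ) * W.Φ (arg g X)
  else 0

/-- The theta sum. -/
def series (f : ℝ → ℝ) (n : ℝ) (P : H3) (g : GLFin K) : ℂ := ∑' X : Fr.Herm, W.term f n P g X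

theorem term_mul_level (f : ℝ → ℝ) (n : ℝ) (P : H3) (g : GLFin K) {u : GLFin K}
    (hu : u ∈ U.toSubgroup) {r : ℚ} (hr : 0 < r) (hcu : C.c u = r ^ 2) (X : Fr.Herm) :
    W.term f n P (g * u) X = W.term f n P g (Fr.ratEquiv r⁻¹ (inv_ne_zero hr.ne') X) := by
  have h1 : Fr.normVec (C.c (g * u)) X =
      Fr.normVec (C.c g) (Fr.ratEquiv r⁻¹ (inv_ne_zero hr.ne') X) := by
    rw [map_mul, hcu, HermFrame.normVec_mul_sq _ _ _ hr]
  simp only [term, h1, arg_mul, arg_ratEquiv, W.level u hu r hr hcu]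

/-- The theta sum descends to the cosets of the level. -/
theorem series_mul_level (f : ℝ → ℝ) (n : ℝ) (P : H3) (g : GLFin K) {u : GLFin K}
    (hu : u ∈ U.toSubgroup) : W.series f n P (g * u) = W.series f n P g := by
  obtain ⟨r, hr, hcu⟩ := C.sq_rat u hu
  unfold series
  rw [tsum_congr (W.term_mul_level f n P g hu hr hcu)]
  exact (Fr.ratEquiv r⁻¹ (inv_ne_zero hr.ne')).tsum_eq (W.term f n P g)

/-- The theta sum as a function of a point and a coset. -/
def seriesAt (f : ℝ → ℝ) (n : ℝ) (P : H3) : GLFin K ⧸ U.toSubgroup → ℂ :=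
  Quotient.lift (fun g => W.series f n P g) fun a b h => by
    have hu : a⁻¹ * b ∈ U.toSubgroup := QuotientGroup.leftRel_apply.mp h
    rw [← W.series_mul_level f n P a hu, mul_inv_cancel_left]

/-- The sum at a coset is the sum at a representative. -/
theorem seriesAt_mk (f : ℝ → ℝ) (n : ℝ) (P : H3) (g : GLFin K) :
    W.seriesAt f n P (QuotientGroup.mk g) = W.series f n P g := rfl

/-- The normalised matrices are compatible with the action of `GL₂ K`. -/
theorem normVec_hermEquiv (γ : GL (Fin 2) K) (g : GLFin K) (X : Fr.Herm) :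
    Lift.pullMat (Matrix.GeneralLinearGroup.map Fr.e γ)
        (Fr.normVec (C.c (glIncl K γ * g)) (Fr.hermEquiv γ X)) = Fr.normVec (C.c g) X := by
  set G : GL (Fin 2) ℂ := Matrix.GeneralLinearGroup.map Fr.e γ with hG
  have hGval : (G : Matrix (Fin 2) (Fin 2) ℂ) = γ.val.map Fr.e := rfl
  have hdet : (G : Matrix (Fin 2) (Fin 2) ℂ).det = Fr.e γ.val.det := by
    rw [hGval, ← RingHom.mapMatrix_apply, ← RingHom.map_det]
  have hpos := H3.norm_det_pos G
  rw [hdet] at hpos
  have hs : √((C.c (glIncl K γ * g) : ℚ) : ℝ) =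
      ‖Fr.e γ.val.det‖ * √((C.c g : ℚ) : ℝ) := by
    rw [map_mul, Rat.cast_mul, C.incl, Real.sqrt_mul (sq_nonneg _), Real.sqrt_sq hpos.le]
  have hX : (Fr.hermEquiv γ X).1.map Fr.e =
      (G : Matrix (Fin 2) (Fin 2) ℂ) * X.1.map Fr.e * (G : Matrix (Fin 2) (Fin 2) ℂ)ᴴ := by
    show (hermAct Fr.σ γ.val X.1).map Fr.e = _
    rw [hermAct, Matrix.map_mul, Matrix.map_mul, hGval]
    congr 1
    ext i j
    simp [Fr.conj_e]
  have hu : IsUnit (G : Matrix (Fin 2) (Fin 2) ℂ).det :=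
    (Matrix.isUnit_iff_isUnit_det _).mp G.isUnit
  have hu' : IsUnit ((G : Matrix (Fin 2) (Fin 2) ℂ)ᴴ).det := by
    rw [Matrix.det_conjTranspose]; exact hu.star
  rw [Lift.pullMat, HermFrame.normVec, HermFrame.normVec, hX, hs, Matrix.mul_smul, Matrix.smul_mul,
    smul_smul, Matrix.mul_assoc, Matrix.mul_assoc, Matrix.mul_nonsing_inv _ hu', Matrix.mul_one,
    Matrix.nonsing_inv_mul_cancel_left _ _ hu, hdet]
  congr 1
  have h0 : ‖Fr.e γ.val.det‖ ≠ 0 := hpos.ne'
  rw [← Complex.ofReal_mul, mul_inv, mul_inv_cancel_left₀ h0]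

/-- The theta sum is invariant under the diagonal action of `GL₂ K`. -/
theorem series_smul (f : ℝ → ℝ) (n : ℝ) (γ : GL (Fin 2) K) (P : H3) (g : GLFin K) :
    W.series f n (Matrix.GeneralLinearGroup.map Fr.e γ • P) (glIncl K γ * g) =
      W.series f n P g := by
  unfold series
  rw [← (Fr.hermEquiv γ).tsum_eq]
  refine tsum_congr fun X => ?_
  have harg : arg (Fr := Fr) (glIncl K γ * g) (Fr.hermEquiv γ X) = arg g X := by
    have hm : (Fr.hermEquiv γ X).1.map (finIncl K) =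
        hermAct (finMap Fr.σ).toRingHom (glIncl K γ).val (X.1.map (finIncl K)) := by
      show (hermAct Fr.σ γ.val X.1).map (finIncl K) = _
      rw [hermAct, hermAct, Matrix.map_mul, Matrix.map_mul]
      rfl
    rw [arg, arg, hm, ← hermAct_mul, ← Units.val_mul]
    congr 2
    group
  simp only [term, harg, ← Lift.nForm_pullMat (Matrix.GeneralLinearGroup.map Fr.e γ)
    (Fr.normVec (C.c (glIncl K γ * g)) (Fr.hermEquiv γ X)),
    Lift.mTrace_smul (Matrix.GeneralLinearGroup.map Fr.e γ), normVec_hermEquiv (C := C) γ g X]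

/-- The sum on cosets is invariant under `GL₂ K`. -/
theorem seriesAt_smul (f : ℝ → ℝ) (n : ℝ) (γ : GL (Fin 2) K) (P : H3)
    (b : GLFin K ⧸ U.toSubgroup) :
    W.seriesAt f n (Matrix.GeneralLinearGroup.map Fr.e γ • P) (glIncl K γ • b) =
      W.seriesAt f n P b :=
  QuotientGroup.induction_on b fun g => W.series_smul f n γ P g

/-- What a split place must satisfy with respect to the scale and the weight. -/
structure IsSplitFor (v : SplitPlace K) (ε : ℂ) : Prop where
  σ_eq : v.σ = Fr.σ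
  norm_det : ∀ g : GLFin K,
    ‖v.comp (g.val.det * finMap Fr.σ g.val.det)‖ = ‖((C.c g : ℚ) : ℚ_[(v.p : ℕ)])‖
  exists_part : ∃ Φ' : Matrix (Fin 2) (Fin 2) (FinAdele K) → ℂ,
    (∀ Y, W.Φ Y = if IsInt (Y.map v.comp) then Φ' Y else 0) ∧
    (∀ (i : Option (ZMod (v.p : ℕ))) Y,
      Φ' (hermAct (finMap v.σ).toRingHom (v.atPlace (v.repK i)⁻¹) Y) = Φ' Y) ∧
    ∀ Y, Φ' Y = ε * Φ' (finIncl K ((v.p : ℕ) : K)⁻¹ • Y)

variable {v : SplitPlace K} {ε : ℂ}

/-- The coset representatives are invertible. -/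
theorem isUnit_repK (v : SplitPlace K) (i : Option (ZMod (v.p : ℕ))) : IsUnit (v.repK i) := by
  rw [Matrix.isUnit_iff_isUnit_det, v.det_repK]
  exact isUnit_iff_ne_zero.2 (Nat.cast_ne_zero.2 v.p.2.ne_zero)

/-- The neighbour `i`. -/
def nbr (v : SplitPlace K) (i : Option (ZMod (v.p : ℕ))) : GLFin K :=
  v.glAtPlace (isUnit_repK v i).unit

theorem nbr_inv_val (v : SplitPlace K) (i : Option (ZMod (v.p : ℕ))) :
    ((nbr v i)⁻¹).val = v.atPlace (v.repK i)⁻¹ := by
  rw [nbr, ← map_inv]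
  show v.atPlace ((isUnit_repK v i).unit⁻¹ : GL (Fin 2) K).val = _
  rw [Matrix.coe_units_inv, IsUnit.unit_spec]

/-- A matrix of normalised form `n` has determinant `-n c(g)`. -/
theorem e_det_real (g : GLFin K) (X : Fr.Herm) {n : ℚ}
    (h : nForm (Fr.normVec (C.c g) X) = (n : ℝ)) : X.1.det = ((-(n * C.c g) : ℚ) : K) := by
  have hc : (0 : ℝ) < (C.c g : ℚ) := by exact_mod_cast C.pos g
  have hreal : conj (Fr.e X.1.det) = Fr.e X.1.det := by
    rw [← Fr.conj_e, RingHom.map_det, RingHom.mapMatrix_apply, ← Matrix.det_transpose, X.2]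
  refine Fr.e.injective ?_
  rw [map_ratCast]
  have hdet : (Fr.normVec (C.c g) X).det =
      ((((C.c g : ℚ) : ℝ)⁻¹ : ℝ) : ℂ) * Fr.e X.1.det := by
    rw [HermFrame.normVec, Matrix.det_smul, Fintype.card_fin, ← RingHom.mapMatrix_apply,
      ← RingHom.map_det, ← Complex.ofReal_pow, inv_pow, Real.sq_sqrt hc.le]
  rw [nForm, hdet, Complex.re_ofReal_mul] at h
  obtain ⟨x, hx⟩ := Complex.conj_eq_iff_real.mp hreal
  rw [hx, Complex.ofReal_re] at h
  rw [hx]
  have : x = -((n : ℝ) * ((C.c g : ℚ) : ℝ)) := by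
    field_simp at h
    linarith
  rw [this]
  push_cast
  rfl

/-- At a split place the determinant of the argument has the size of the index. -/
theorem norm_det_arg (hv : W.IsSplitFor v ε) (g : GLFin K) (X : Fr.Herm) {n : ℚ}
    (h : nForm (Fr.normVec (C.c g) X) = (n : ℝ)) :
    ‖((arg (Fr := Fr) g X).map v.comp).det‖ = ‖(n : ℚ_[(v.p : ℕ)])‖ := by
  have hd : (arg (Fr := Fr) g X).det =
      (g⁻¹).val.det * finMap Fr.σ (g⁻¹).val.det * finIncl K X.1.det := by
    rw [arg, det_hermAct, ← RingHom.mapMatrix_apply, ← RingHom.map_det]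
    rfl
  rw [← RingHom.mapMatrix_apply, ← RingHom.map_det, hd, map_mul, v.comp_finIncl,
    e_det_real (C := C) g X h, map_ratCast, norm_mul, hv.norm_det, ← norm_mul, ← Rat.cast_mul]
  have : C.c g⁻¹ * -(n * C.c g) = -n := by
    have h1 : C.c g⁻¹ * C.c g = 1 := by rw [← map_mul, inv_mul_cancel, map_one]
    linear_combination (-n) * h1
  rw [this, Rat.cast_neg, norm_neg]

/-- **The relation at a split place.** The sum of the theta sums over the `p + 1` neighbours is
`S_{pn} + p ε S_{n/p}`, with rescaled test functions. -/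
theorem sum_series_nbr (hv : W.IsSplitFor v ε)
    (hc : ∀ i, C.c (nbr v i) = (v.p : ℕ)) (f : ℝ → ℝ) (n : ℤ) (P : H3) (g : GLFin K)
    (h1 : ∀ i, Summable (W.term f n P (g * nbr v i)))
    (h2 : Summable (W.term (fun x => f (x / √((v.p : ℕ) : ℝ))) ((v.p : ℕ) * n) P g))
    (h3 : Summable (W.term (fun x => f (√((v.p : ℕ) : ℝ) * x)) (n / (v.p : ℕ)) P g)) :
    ∑ i, W.series f n P (g * nbr v i) =
      W.series (fun x => f (x / √((v.p : ℕ) : ℝ))) ((v.p : ℕ) * n) P g +
        (v.p : ℕ) * ε * W.series (fun x => f (√((v.p : ℕ) : ℝ) * x)) (n / (v.p : ℕ)) P g := by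
  obtain ⟨Φ', hΦ, hΦ', hε⟩ := hv.exists_part
  set q : ℕ := (v.p : ℕ)
  have hq0 : (q : ℚ) ≠ 0 := Nat.cast_ne_zero.2 v.p.2.ne_zero
  have hqR : (0 : ℝ) < (q : ℝ) := Nat.cast_pos.2 v.p.2.pos
  have hcg : (0 : ℝ) < ((C.c g : ℚ) : ℝ) := by exact_mod_cast C.pos g
  have hsq : √(q : ℝ) * √(q : ℝ) = q := Real.mul_self_sqrt hqR.le
  -- the scaling by `p` on the index
  set E := Fr.ratEquiv ((q : ℚ)⁻¹) (inv_ne_zero hq0) with hE
  have key : ∀ X, ∑ i, W.term f n P (g * nbr v i) X =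
      W.term (fun x => f (x / √(q : ℝ))) (q * n) P g X +
        q * ε * W.term (fun x => f (√(q : ℝ) * x)) (n / q) P g (E X) := by
    intro X
    set Z := Fr.normVec (C.c g) X with hZ
    have hvec : ∀ i, Fr.normVec (C.c (g * nbr v i)) X = (((√(q : ℝ))⁻¹ : ℝ) : ℂ) • Z := by
      intro i
      rw [hZ, map_mul, hc i]
      simp only [HermFrame.normVec, Rat.cast_mul, Rat.cast_natCast]
      rw [Real.sqrt_mul hcg.le, smul_smul, ← Complex.ofReal_mul, mul_inv,
        mul_comm (√((C.c g : ℚ) : ℝ))⁻¹]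
    have hE' : Fr.normVec (C.c g) (E X) = (((q : ℝ)⁻¹ : ℝ) : ℂ) • Z := by
      rw [hE, HermFrame.normVec_ratEquiv, hZ]
      push_cast
      rfl
    have harg : arg (Fr := Fr) g (E X) = finIncl K ((q : K)⁻¹) • arg g X := by
      rw [hE, arg_ratEquiv]
      push_cast
      rfl
    have hm1 : mTrace ((((√(q : ℝ))⁻¹ : ℝ) : ℂ) • Z) P = mTrace Z P / √(q : ℝ) := by
      rw [Lift.mTrace_smul_mat, inv_mul_eq_div]
    have hm2 : √(q : ℝ) * mTrace ((((q : ℝ)⁻¹ : ℝ) : ℂ) • Z) P = mTrace Z P / √(q : ℝ) := by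
      rw [Lift.mTrace_smul_mat, eq_div_iff (Real.sqrt_pos.2 hqR).ne']
      field_simp
      linear_combination mTrace Z P * hsq
    have hn1 : nForm ((((√(q : ℝ))⁻¹ : ℝ) : ℂ) • Z) = nForm Z / q := by
      rw [Lift.nForm_smul_mat, inv_pow, Real.sq_sqrt hqR.le, inv_mul_eq_div]
    have hn2 : nForm ((((q : ℝ)⁻¹ : ℝ) : ℂ) • Z) = nForm Z / q ^ 2 := by
      rw [Lift.nForm_smul_mat, inv_pow, inv_mul_eq_div]
    have hiff1 : nForm Z / q = (n : ℝ) ↔ nForm Z = q * n := by
      rw [div_eq_iff hqR.ne', mul_comm]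
    have hiff2 : nForm Z / q ^ 2 = (n : ℝ) / q ↔ nForm Z = q * n := by
      rw [div_eq_div_iff (pow_ne_zero 2 hqR.ne') hqR.ne']
      constructor <;> intro h
      · exact mul_right_cancel₀ hqR.ne' (by linear_combination h)
      · rw [h]; ring
    simp only [term, hvec, hE', hn1, hn2, hm1, hm2, arg_mul, harg, nbr_inv_val, hiff1, hiff2,
      ← hZ]
    split_ifs with hX
    · rw [← Finset.mul_sum]
      have hlt : ‖((arg (Fr := Fr) g X).map v.comp).det‖ < 1 := by
        have hX' : nForm (Fr.normVec (C.c g) X) = (((q : ℤ) * n : ℤ) : ℚ) := by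
          rw [← hZ, hX]; push_cast; rfl
        rw [W.norm_det_arg hv g X hX', Rat.cast_intCast]
        exact (Padic.norm_intCast_lt_one_iff).2 (dvd_mul_right _ _)
      have hsum := v.sum_hecke W.Φ Φ' ε hΦ hΦ' hε (arg (Fr := Fr) g X) hlt
      rw [show (finMap Fr.σ).toRingHom = (finMap v.σ).toRingHom by rw [hv.σ_eq], hsum]
      ring
    · simp
  have h3' : Summable fun X => W.term (fun x => f (√(q : ℝ) * x)) (n / q) P g (E X) :=
    E.summable_iff.mpr h3
  unfold series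
  rw [← Summable.tsum_finsetSum fun i _ => h1 i, tsum_congr key, h2.tsum_add (h3'.mul_left _),
    tsum_mul_left, E.tsum_eq (W.term (fun x => f (√(q : ℝ) * x)) (n / q) P g)]

end ThetaWeight

end Series

end Fermat.Agent.LT.LiftHecke

end
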