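import Fermat.Agent.LT.Places.Basic
import Fermat.Agent.LT.Setup.Level
import Fermat.Agent.LT.LiftHecke.Theta
import Mathlib.NumberTheory.Padics.PadicNumbers
import Mathlib.RingTheory.Norm.Basic

/-!
# The rational generator of the norm of an idele of a quadratic field

`A_f → M₂(ℚ_p)`, the regular representation in an integral basis, has determinant the norm at
`p`; the product of the powers of `p` in it is the scale of the theta sums. This gives the
`NormScale` and the `ThetaWeight` at principal levels.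
-/

set_option autoImplicit false

noncomputable section

open Matrix NumberField
open scoped TensorProduct Classical

namespace Fermat.Agent.LT.LiftHecke

variable (K : Type*) [Field K] [NumberField K]

/-- A field with conjugation of degree two. -/
structure QuadFrame extends HermFrame K where
  finrank_eq : Module.finrank ℚ K = 2
  σ_ne : σ ≠ RingHom.id K

variable {K} (Q : QuadFrame K)

namespace QuadFrame

/-- An integral basis indexed by two elements. -/
def basis : Module.Basis (Fin 2) ℚ K :=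
  (integralBasis K).reindex (Fintype.equivFinOfCardEq (by
    rw [← Module.finrank_eq_card_basis (integralBasis K), Q.finrank_eq]))

theorem exists_integer_basis (i : Fin 2) : ∃ o : 𝓞 K, Q.basis i = (o : K) := by
  refine ⟨RingOfIntegers.basis K ((Fintype.equivFinOfCardEq (by
    rw [← Module.finrank_eq_card_basis (integralBasis K), Q.finrank_eq] :
      Fintype.card (Module.Free.ChooseBasisIndex ℤ (𝓞 K)) = 2)).symm i), ?_⟩
  simp [basis, integralBasis_apply]

theorem exists_int_repr (o : 𝓞 K) (i : Fin 2) :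
    ∃ k : ℤ, Q.basis.repr (o : K) i = (k : ℚ) := by
  simp only [basis, Module.Basis.repr_reindex_apply]
  have key : ∀ j, ∃ k : ℤ, (integralBasis K).repr (o : K) j = (k : ℚ) := fun j =>
    ⟨(RingOfIntegers.basis K).repr o j, integralBasis_repr_apply K o j⟩
  exact key _

/-- The matrix of multiplication. -/
def regular : K →+* Matrix (Fin 2) (Fin 2) ℚ := (Algebra.leftMulMatrix Q.basis).toRingHom

theorem regular_apply (a : K) (i j : Fin 2) :
    Q.regular a i j = Q.basis.repr (a * Q.basis j) i := Algebra.leftMulMatrix_eq_repr_mul _ a i j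

/-- The columns of the regular representation are the coordinates of `a * eⱼ`. -/
theorem sum_regular (a : K) (j : Fin 2) :
    a * Q.basis j = ∑ k, Q.regular a k j • Q.basis k := by
  simp only [regular_apply]
  exact (Q.basis.sum_repr _).symm

theorem exists_int_regular (o : 𝓞 K) (i j : Fin 2) :
    ∃ k : ℤ, Q.regular (o : K) i j = (k : ℚ) := by
  obtain ⟨b, hb⟩ := Q.exists_integer_basis j
  rw [regular_apply, hb]
  exact Q.exists_int_repr (o * b) i

/-- The basis and its conjugate are independent. -/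
theorem discr_ne_zero :
    Q.basis 0 * Q.σ (Q.basis 1) - Q.basis 1 * Q.σ (Q.basis 0) ≠ 0 := by
  intro h
  refine Q.σ_ne (RingHom.ext fun a => ?_)
  have h0 : Q.basis 0 ≠ 0 := Q.basis.ne_zero 0
  set x := Q.basis 1 / Q.basis 0 with hx
  have hσ0 : Q.σ (Q.basis 0) ≠ 0 := (map_ne_zero _).2 h0
  have hfix : Q.σ x = x := by
    rw [hx, map_div₀, div_eq_div_iff hσ0 h0]
    linear_combination h
  have hspan : ∀ z : K, ∃ q r : ℚ, z = Q.basis 0 * ((q : K) + (r : K) * x) := fun z => by
    refine ⟨Q.basis.repr z 0, Q.basis.repr z 1, ?_⟩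
    conv_lhs => rw [← Q.basis.sum_repr z, Fin.sum_univ_two, Rat.smul_def, Rat.smul_def]
    rw [hx]
    field_simp
  obtain ⟨q, r, he⟩ := hspan 1
  have hb : Q.σ (Q.basis 0) = Q.basis 0 := by
    have h1 := congrArg Q.σ he
    rw [map_one, map_mul, map_add, map_mul, map_ratCast, map_ratCast, hfix] at h1
    exact mul_right_cancel₀ (b := (q : K) + (r : K) * x)
      (fun hz => by rw [hz, mul_zero] at he; exact one_ne_zero he) (h1.symm.trans he)
  obtain ⟨q', r', ha⟩ := hspan a
  simp [ha, hb, hfix]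

/-- The determinant of the regular representation is `a * σ a`. -/
theorem det_regular {L : Type*} [Field L] [CharZero L] (χ : K →+* L) (a : K) :
    ((Q.regular a).map (Rat.castHom L)).det = χ a * χ (Q.σ a) := by
  set V : Matrix (Fin 2) (Fin 2) L :=
    !![χ (Q.basis 0), χ (Q.basis 1); χ (Q.σ (Q.basis 0)), χ (Q.σ (Q.basis 1))] with hV
  have hdet : V.det ≠ 0 := by
    rw [hV, Matrix.det_fin_two_of, ← map_mul, ← map_mul, ← map_sub]
    exact (map_ne_zero _).2 Q.discr_ne_zero
  have key : V * (Q.regular a).map (Rat.castHom L) = !![χ a, 0; 0, χ (Q.σ a)] * V := by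
    ext i j
    have h0 := congrArg χ (Q.sum_regular a j)
    have h1 := congrArg (fun z => χ (Q.σ z)) (Q.sum_regular a j)
    simp only [map_mul, Fin.sum_univ_two, map_add, Rat.smul_def, map_ratCast] at h0 h1
    fin_cases i <;> fin_cases j <;>
      simp [hV, Matrix.mul_apply, Fin.sum_univ_two] at h0 h1 ⊢ <;>
      first | linear_combination -h0 | linear_combination -h1
  have := congrArg Matrix.det key
  rw [Matrix.det_mul, Matrix.det_mul, mul_comm] at this
  rw [mul_right_cancel₀ hdet this, Matrix.det_fin_two_of, mul_zero, sub_zero]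

/-- The norm is the determinant of the regular representation. -/
theorem norm_eq (a : K) : (Algebra.norm ℚ a : ℚ) = (Q.regular a).det :=
  Algebra.norm_eq_matrix_det Q.basis a

/-- The norm is `a * σ a` under every embedding. -/
theorem cast_norm_eq {L : Type*} [Field L] [CharZero L] (χ : K →+* L) (a : K) :
    ((Algebra.norm ℚ a : ℚ) : L) = χ a * χ (Q.σ a) := by
  rw [← Q.det_regular χ, norm_eq, ← Rat.coe_castHom, RingHom.map_det]
  rfl

theorem norm_eq_sq (a : K) : ((Algebra.norm ℚ a : ℚ) : ℝ) = ‖Q.e a‖ ^ 2 := by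
  have h := Q.cast_norm_eq Q.e a
  rw [Q.conj_e, Complex.mul_conj', ← Complex.ofReal_pow, ← Complex.ofReal_ratCast] at h
  exact_mod_cast h

/-- The regular representation at `p`. -/
def qcomp (p : Nat.Primes) : FinAdele K →+* Matrix (Fin 2) (Fin 2) ℚ_[(p : ℕ)] :=
  (Algebra.TensorProduct.lift
    (((Rat.castHom ℚ_[(p : ℕ)]).mapMatrix).comp Q.regular).toIntAlgHom
    (((Matrix.scalar (Fin 2)).comp (PadicInt.Coe.ringHom.comp
      (Pi.evalRingHom (fun q : Nat.Primes => ℤ_[(q : ℕ)]) p)))).toIntAlgHom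
    (fun _ _ => (Matrix.scalar_commute _ (fun r => Commute.all _ r) _).symm)).toRingHom

/-- The regular representation at `p` on a pure tensor. -/
theorem qcomp_tmul (p : Nat.Primes) (a : K) (z : Zhat) :
    Q.qcomp p (a ⊗ₜ z) = ((z p : ℤ_[(p : ℕ)]) : ℚ_[(p : ℕ)]) •
      (Q.regular a).map (Rat.castHom ℚ_[(p : ℕ)]) := by
  rw [qcomp]
  refine (Algebra.TensorProduct.lift_tmul _ _ _ a z).trans ?_
  show (Q.regular a).map (Rat.castHom ℚ_[(p : ℕ)]) * Matrix.scalar (Fin 2) _ = _
  refine Matrix.ext fun i j => ?_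
  simp [Matrix.mul_apply, Matrix.smul_apply, Fin.sum_univ_two]
  fin_cases j <;> simp [mul_comm]

/-- The norm at `p`. -/
def normAt (p : Nat.Primes) : FinAdele K →* ℚ_[(p : ℕ)] :=
  (Matrix.detMonoidHom).comp (Q.qcomp p).toMonoidHom

/-- The norm at `p` is a determinant. -/
theorem normAt_apply (p : Nat.Primes) (x : FinAdele K) :
    Q.normAt p x = (Q.qcomp p x).det := rfl

/-- On principal adeles the norm at `p` is the norm. -/
theorem normAt_finIncl (p : Nat.Primes) (a : K) :
    Q.normAt p (finIncl K a) = ((Algebra.norm ℚ a : ℚ) : ℚ_[(p : ℕ)]) := by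
  rw [normAt_apply, show finIncl K a = a ⊗ₜ[ℤ] (1 : Zhat) from rfl, qcomp_tmul, Pi.one_apply,
    PadicInt.coe_one, one_smul, norm_eq, ← Rat.coe_castHom, RingHom.map_det]
  rfl

theorem norm_qcomp_le (p : Nat.Primes) {x : FinAdele K} (hx : x ∈ integralAdele K) (i j : Fin 2) :
    ‖Q.qcomp p x i j‖ ≤ 1 := by
  obtain ⟨y, rfl⟩ := hx
  induction y using TensorProduct.induction_on with
  | zero => simp
  | tmul o z =>
    show ‖Q.qcomp p ((o : K) ⊗ₜ z) i j‖ ≤ 1
    obtain ⟨k, hk⟩ := Q.exists_int_regular o i j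
    rw [qcomp_tmul, Matrix.smul_apply, smul_eq_mul, Matrix.map_apply, hk, map_intCast, norm_mul]
    exact mul_le_one₀ (PadicInt.norm_le_one _) (norm_nonneg _) (Padic.norm_int_le_one k)
  | add a b ha hb =>
    rw [map_add, map_add, Matrix.add_apply]
    exact (Padic.nonarchimedean _ _).trans (max_le ha hb)

/-- Integral adeles have integral norms. -/
theorem norm_normAt_le (p : Nat.Primes) {x : FinAdele K} (hx : x ∈ integralAdele K) :
    ‖Q.normAt p x‖ ≤ 1 := by
  rw [normAt_apply, Matrix.det_fin_two, sub_eq_add_neg]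
  refine (Padic.nonarchimedean _ _).trans (max_le ?_ ?_) <;>
    simp only [norm_neg, norm_mul] <;>
      exact mul_le_one₀ (Q.norm_qcomp_le p hx _ _) (norm_nonneg _) (Q.norm_qcomp_le p hx _ _)

/-- The norm at `p` of an idele is nonzero. -/
theorem normAt_units_ne_zero (p : Nat.Primes) (x : (FinAdele K)ˣ) :
    Q.normAt p (x : FinAdele K) ≠ 0 := (x.isUnit.map (Q.normAt p)).ne_zero

theorem norm_normAt_eq_one (p : Nat.Primes) {x : (FinAdele K)ˣ}
    (hx : (x : FinAdele K) ∈ integralAdele K)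
    (hx' : ((x⁻¹ : (FinAdele K)ˣ) : FinAdele K) ∈ integralAdele K) :
    ‖Q.normAt p (x : FinAdele K)‖ = 1 := by
  refine le_antisymm (Q.norm_normAt_le p hx) ?_
  have h : ‖Q.normAt p (x : FinAdele K)‖ *
      ‖Q.normAt p ((x⁻¹ : (FinAdele K)ˣ) : FinAdele K)‖ = 1 := by
    rw [← norm_mul, ← map_mul, ← Units.val_mul, mul_inv_cancel, Units.val_one, map_one, norm_one]
  rw [← h]
  exact mul_le_of_le_one_right (norm_nonneg _) (Q.norm_normAt_le p hx')

theorem valuation_eq_zero_of_norm_eq_one {q : ℕ} [Fact q.Prime] {z : ℚ_[q]} (h : ‖z‖ = 1) :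
    z.valuation = 0 := by
  have hz : z ≠ 0 := fun h0 => by simp [h0] at h
  rw [Padic.norm_eq_zpow_neg_valuation hz] at h
  have hq1 : (1 : ℝ) < (q : ℝ) := by exact_mod_cast (Fact.out : q.Prime).one_lt
  have := (zpow_eq_one_iff_right₀ (zero_le_one.trans hq1.le) hq1.ne').1 h
  omega

theorem finite_normAt (x : (FinAdele K)ˣ) :
    {p : Nat.Primes | (Q.normAt p (x : FinAdele K)).valuation ≠ 0}.Finite := by
  obtain ⟨N, hN, hNx⟩ := Reduction.exists_natCast_mul_mem (x : FinAdele K)
  obtain ⟨N', hN', hNx'⟩ := Reduction.exists_natCast_mul_mem ((x⁻¹ : (FinAdele K)ˣ) : FinAdele K)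
  refine ((N * N').primeFactors.finite_toSet.preimage
    (f := fun p : Nat.Primes => (p : ℕ)) Subtype.val_injective.injOn).subset fun p hp => ?_
  by_contra hn
  refine hp (valuation_eq_zero_of_norm_eq_one ?_)
  have hnd : ¬ (p : ℕ) ∣ N * N' := fun h =>
    hn (Nat.mem_primeFactors.2 ⟨p.2, h, (Nat.mul_pos hN hN').ne'⟩)
  have hone : ∀ M : ℕ, ¬ (p : ℕ) ∣ M → ‖Q.normAt p (M : FinAdele K)‖ = 1 := fun M hM => by
    rw [← map_natCast (finIncl K), Q.normAt_finIncl, ← map_natCast (algebraMap ℚ K),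
      Algebra.norm_algebraMap, Q.finrank_eq]
    push_cast
    rw [norm_pow, Padic.norm_natCast_eq_one_iff.2 (p.2.coprime_iff_not_dvd.2 hM), one_pow]
  have h1 := Q.norm_normAt_le p hNx
  have h2 := Q.norm_normAt_le p hNx'
  rw [map_mul, norm_mul, hone N (fun h => hnd (h.mul_right _)), one_mul] at h1
  rw [map_mul, norm_mul, hone N' (fun h => hnd (h.mul_left _)), one_mul] at h2
  refine le_antisymm h1 ?_
  have h : ‖Q.normAt p (x : FinAdele K)‖ *
      ‖Q.normAt p ((x⁻¹ : (FinAdele K)ˣ) : FinAdele K)‖ = 1 := by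
    rw [← norm_mul, ← map_mul, ← Units.val_mul, mul_inv_cancel, Units.val_one, map_one, norm_one]
  rw [← h]
  exact mul_le_of_le_one_right (norm_nonneg _) h2

theorem mulSupport_pow_subset (x : (FinAdele K)ˣ) :
    (Function.mulSupport fun p : Nat.Primes =>
      ((p : ℕ) : ℚ) ^ (Q.normAt p (x : FinAdele K)).valuation) ⊆
      {p : Nat.Primes | (Q.normAt p (x : FinAdele K)).valuation ≠ 0} := fun p hp h => by
  simp [h] at hp

/-- The rational generator of the norm. -/
def idNorm : (FinAdele K)ˣ →* ℚ where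
  toFun x := ∏ᶠ p : Nat.Primes, ((p : ℕ) : ℚ) ^ (Q.normAt p (x : FinAdele K)).valuation
  map_one' := by simp
  map_mul' x y := by
    rw [← finprod_mul_distrib ((Q.finite_normAt x).subset (Q.mulSupport_pow_subset x))
      ((Q.finite_normAt y).subset (Q.mulSupport_pow_subset y))]
    refine finprod_congr fun p => ?_
    rw [Units.val_mul, map_mul, Padic.valuation_mul (Q.normAt_units_ne_zero p x)
      (Q.normAt_units_ne_zero p y), zpow_add₀ (Nat.cast_ne_zero.2 p.2.ne_zero)]

theorem idNorm_pos (x : (FinAdele K)ˣ) : 0 < Q.idNorm x :=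
  finprod_induction (fun r : ℚ => 0 < r) one_pos (fun _ _ => mul_pos)
    fun p => zpow_pos (Nat.cast_pos.2 p.2.pos) _

/-- At every prime the scale has the absolute value of the norm. -/
theorem norm_idNorm (q : Nat.Primes) (x : (FinAdele K)ˣ) :
    ‖((Q.idNorm x : ℚ) : ℚ_[(q : ℕ)])‖ = ‖Q.normAt q (x : FinAdele K)‖ := by
  let ν : ℚ →* ℝ := (normHom (α := ℚ_[(q : ℕ)])).toMonoidHom.comp
    (Rat.castHom ℚ_[(q : ℕ)]).toMonoidHom
  have h := MonoidHom.map_finprod ν ((Q.finite_normAt x).subset (Q.mulSupport_pow_subset x))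
  have hν : ∀ r : ℚ, ν r = ‖(r : ℚ_[(q : ℕ)])‖ := fun r => rfl
  rw [hν] at h
  refine h.trans ?_
  rw [finprod_eq_single _ q fun p hp => ?_]
  · rw [hν]
    push_cast
    rw [norm_zpow, Padic.norm_p, Padic.norm_eq_zpow_neg_valuation (Q.normAt_units_ne_zero q x),
      _root_.inv_zpow']
  · rw [hν]
    push_cast
    rw [norm_zpow, Padic.norm_natCast_eq_one_iff.2
      ((Nat.coprime_primes q.2 p.2).2 fun h => hp (Subtype.ext h.symm)), _root_.one_zpow]

theorem finite_padicValNat {n : ℕ} (hn : n ≠ 0) :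
    (Function.mulSupport fun p : Nat.Primes => ((p : ℕ) : ℚ) ^ (padicValNat p n : ℤ)).Finite :=
  (n.primeFactors.finite_toSet.preimage (f := fun p : Nat.Primes => (p : ℕ))
    Subtype.val_injective.injOn).subset fun p hp => by
    by_contra h
    have hnd : ¬ (p : ℕ) ∣ n := fun hd => h (Nat.mem_primeFactors.2 ⟨p.2, hd, hn⟩)
    simp [padicValNat.eq_zero_of_not_dvd hnd] at hp

/-- A positive integer is the product of its prime powers. -/
theorem finprod_padicValNat : ∀ n : ℕ, n ≠ 0 →
    ∏ᶠ p : Nat.Primes, ((p : ℕ) : ℚ) ^ (padicValNat p n : ℤ) = (n : ℚ) := by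
  refine Nat.recOnMul (fun h => absurd rfl h) (fun _ => ?_) (fun q hq _ => ?_) fun a b ha hb hab => ?_
  · simp
  · refine (finprod_eq_single _ (⟨q, hq⟩ : Nat.Primes) fun p hp => ?_).trans ?_
    · have hnd : ¬ (p : ℕ) ∣ q := fun hd =>
        hp (Subtype.ext ((Nat.prime_dvd_prime_iff_eq p.2 hq).1 hd))
      simp [padicValNat.eq_zero_of_not_dvd hnd]
    · have : Fact q.Prime := ⟨hq⟩
      simp
  · have ha0 := left_ne_zero_of_mul hab
    have hb0 := right_ne_zero_of_mul hab
    rw [Nat.cast_mul, ← ha ha0, ← hb hb0,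
      ← finprod_mul_distrib (finite_padicValNat ha0) (finite_padicValNat hb0)]
    refine finprod_congr fun p => ?_
    rw [padicValNat.mul ha0 hb0, Nat.cast_add, zpow_add₀ (Nat.cast_ne_zero.2 p.2.ne_zero)]

/-- On principal ideles the scale is the norm. -/
theorem idNorm_finIncl (a : Kˣ) :
    Q.idNorm (Units.map (finIncl K).toMonoidHom a) = Algebra.norm ℚ (a : K) := by
  set r : ℚ := Algebra.norm ℚ (a : K)
  have hr : 0 < r := by
    have h : (0 : ℝ) < (r : ℝ) := by
      rw [Q.norm_eq_sq]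
      exact pow_pos (norm_pos_iff.2 ((map_ne_zero _).2 a.ne_zero)) 2
    exact_mod_cast h
  have hnum : r.num.natAbs ≠ 0 := Int.natAbs_ne_zero.2 (Rat.num_ne_zero.2 hr.ne')
  show ∏ᶠ p : Nat.Primes, ((p : ℕ) : ℚ) ^ (Q.normAt p (finIncl K (a : K))).valuation = r
  have hterm : ∀ p : Nat.Primes, ((p : ℕ) : ℚ) ^ (Q.normAt p (finIncl K (a : K))).valuation =
      ((p : ℕ) : ℚ) ^ (padicValNat p r.num.natAbs : ℤ) *
        (((p : ℕ) : ℚ) ^ (padicValNat p r.den : ℤ))⁻¹ := fun p => by
    rw [Q.normAt_finIncl, Padic.valuation_ratCast, ← _root_.zpow_neg,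
      ← zpow_add₀ (Nat.cast_ne_zero.2 p.2.ne_zero)]
    congr 1
  rw [finprod_congr hterm, finprod_mul_distrib (finite_padicValNat hnum) ?_, finprod_inv_distrib,
    finprod_padicValNat _ hnum, finprod_padicValNat _ r.den_nz]
  · rw [Nat.cast_natAbs, abs_of_pos (Rat.num_pos.2 hr), ← div_eq_mul_inv]
    exact Rat.num_div_den r
  · refine (finite_padicValNat r.den_nz).subset fun p hp h => hp ?_
    show (_ : ℚ)⁻¹ = 1
    simp only at h
    rw [h, inv_one]

/-- The determinant of an adelic matrix as an idele. -/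
def detUnit : GLFin K →* (FinAdele K)ˣ := Units.map (Matrix.detMonoidHom)

/-- An idele integral with its inverse has scale one. -/
theorem idNorm_eq_one {x : (FinAdele K)ˣ} (hx : (x : FinAdele K) ∈ integralAdele K)
    (hx' : ((x⁻¹ : (FinAdele K)ˣ) : FinAdele K) ∈ integralAdele K) : Q.idNorm x = 1 :=
  finprod_eq_one_of_forall_eq_one fun p => by
    rw [valuation_eq_zero_of_norm_eq_one (Q.norm_normAt_eq_one p hx hx'), zpow_zero]

/-- An integral matrix has integral determinant. -/
theorem det_mem_integralAdele {g : Matrix (Fin 2) (Fin 2) (FinAdele K)}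
    (h : ∀ i j, g i j ∈ integralAdele K) : g.det ∈ integralAdele K := by
  rw [Matrix.det_fin_two]
  exact sub_mem (mul_mem (h _ _) (h _ _)) (mul_mem (h _ _) (h _ _))

/-- Elements of a principal congruence subgroup have scale one. -/
theorem idNorm_det_principal {N : ℕ} {k : GLFin K} (hk : IsPrincipal K N k) :
    Q.idNorm (detUnit k) = 1 := by
  have h : ∀ g : GLFin K, IsPrincipal K N g → ∀ i j, g.val i j ∈ integralAdele K := fun g hg i j => by
    obtain ⟨a, ha, e⟩ := hg.left i j
    rw [e]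
    refine add_mem ?_ (mul_mem (natCast_mem _ _) ha)
    rw [Matrix.one_apply]
    split
    exacts [one_mem _, zero_mem _]
  refine Q.idNorm_eq_one (det_mem_integralAdele (h k hk)) ?_
  rw [← map_inv]
  exact det_mem_integralAdele (h k⁻¹ hk.inv)

omit [NumberField K] in
theorem detUnit_scalarFin (a : (FinAdele K)ˣ) : detUnit (scalarFin K a) = a ^ 2 := by
  apply Units.ext
  show (Matrix.scalar (Fin 2) (a : FinAdele K)).det = ((a ^ 2 : (FinAdele K)ˣ) : FinAdele K)
  simp [sq]

/-- The scale at a principal level. -/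
def principalScale (N : ℕ) (hN : 0 < N) :
    NormScale Q.toHermFrame (Level.principal K N hN) where
  c := Q.idNorm.comp detUnit
  pos g := Q.idNorm_pos _
  incl γ := by
    show ((Q.idNorm (detUnit (glIncl K γ)) : ℚ) : ℝ) = _
    have hu : IsUnit γ.val.det := (Matrix.isUnit_iff_isUnit_det _).mp γ.isUnit
    have h : detUnit (glIncl K γ) = Units.map (finIncl K).toMonoidHom hu.unit := Units.ext (by
      show (γ.val.map (finIncl K)).det = finIncl K (hu.unit : K)
      rw [← RingHom.mapMatrix_apply, ← RingHom.map_det, IsUnit.unit_spec])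
    rw [h, Q.idNorm_finIncl, IsUnit.unit_spec, Q.norm_eq_sq]
  sq_rat u hu := by
    obtain ⟨a, k, hk, rfl⟩ := hu
    refine ⟨Q.idNorm a, Q.idNorm_pos a, ?_⟩
    show Q.idNorm (detUnit (scalarFin K a * k)) = _
    rw [map_mul, map_mul, Q.idNorm_det_principal hk, mul_one, detUnit_scalarFin, map_pow]

/-- The scale at a principal level is the scale of the determinant. -/
theorem scale_apply (N : ℕ) (hN : 0 < N) (g : GLFin K) :
    (Q.principalScale N hN).c g = Q.idNorm (detUnit g) := rfl

/-- `ℤ̂` inside the adeles. -/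
def zhatIncl : Zhat →+* FinAdele K :=
  (Algebra.TensorProduct.includeRight : Zhat →ₐ[ℤ] FinAdele K).toRingHom

theorem exists_add_finMap (x : FinAdele K) :
    ∃ (M : ℕ) (w : Zhat), 0 < M ∧
      x + finMap Q.σ x = finIncl K ((M : K)⁻¹) * zhatIncl w := by
  induction x using TensorProduct.induction_on with
  | zero => exact ⟨1, 0, one_pos, by simp [zhatIncl]⟩
  | tmul a z =>
    obtain ⟨t, ht⟩ : ∃ t : ℚ, a + Q.σ a = (t : K) := by
      refine ⟨Algebra.norm ℚ (a + 1) - Algebra.norm ℚ a - 1, ?_⟩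
      have h1 := Q.cast_norm_eq (RingHom.id K) (a + 1)
      have h2 := Q.cast_norm_eq (RingHom.id K) a
      simp only [RingHom.id_apply, map_add, map_one] at h1 h2
      push_cast
      linear_combination h2 - h1
    refine ⟨t.den, (t.num : Zhat) * z, t.den_pos, ?_⟩
    show a ⊗ₜ z + Q.σ a ⊗ₜ z = (((t.den : K)⁻¹) ⊗ₜ[ℤ] (1 : Zhat)) * ((1 : K) ⊗ₜ ((t.num : Zhat) * z))
    rw [← TensorProduct.add_tmul, ht, Algebra.TensorProduct.tmul_mul_tmul, mul_one, one_mul,
      show ((t.num : Zhat) * z) = t.num • z from (zsmul_eq_mul z t.num).symm,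
      TensorProduct.tmul_smul, TensorProduct.smul_tmul', zsmul_eq_mul, Rat.cast_def, div_eq_mul_inv]
  | add x y hx hy =>
    obtain ⟨M, w, hM, h⟩ := hx
    obtain ⟨M', w', hM', h'⟩ := hy
    refine ⟨M * M', (M' : Zhat) * w + (M : Zhat) * w', Nat.mul_pos hM hM', ?_⟩
    rw [map_add, add_add_add_comm, h, h', map_add, map_mul zhatIncl, map_mul zhatIncl, map_natCast,
      map_natCast, ← map_natCast (finIncl K) M, ← map_natCast (finIncl K) M', mul_add, ← mul_assoc,
      ← mul_assoc, ← map_mul, ← map_mul, Nat.cast_mul]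
    have hMK : (M : K) ≠ 0 := Nat.cast_ne_zero.2 hM.ne'
    have hMK' : (M' : K) ≠ 0 := Nat.cast_ne_zero.2 hM'.ne'
    congr 3 <;> field_simp

/-- A fixed idele of norm one at every prime is a unit of `ℤ̂`. -/
theorem exists_zhat_unit {x : FinAdele K} (hfix : finMap Q.σ x = x)
    (hn : ∀ p, ‖Q.normAt p x‖ = 1) : ∃ w : Zhat, IsUnit w ∧ x = zhatIncl w := by
  obtain ⟨M, w, hM, h⟩ := Q.exists_add_finMap x
  rw [hfix] at h
  have hM2 : (2 * M : ℕ) ≠ 0 := by omega
  have hx : ((2 * M : ℕ) : FinAdele K) * x = zhatIncl w := by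
    calc ((2 * M : ℕ) : FinAdele K) * x = (M : FinAdele K) * (x + x) := by push_cast; ring
      _ = _ := by
        rw [h, ← map_natCast (finIncl K) M, ← mul_assoc, ← map_mul,
          mul_inv_cancel₀ (Nat.cast_ne_zero.2 hM.ne'), map_one, one_mul]
  have hval : ∀ p : Nat.Primes, ‖(w p : ℚ_[(p : ℕ)])‖ = ‖((2 * M : ℕ) : ℚ_[(p : ℕ)])‖ := fun p => by
    have e := congrArg (fun y => ‖Q.normAt p y‖) hx
    have hz : Q.normAt p (zhatIncl w) = (w p : ℚ_[(p : ℕ)]) ^ 2 := by
      rw [normAt_apply, show zhatIncl (K := K) w = (1 : K) ⊗ₜ[ℤ] w from rfl, qcomp_tmul, map_one]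
      simp [sq]
    have hNM : Q.normAt p ((2 * M : ℕ) : FinAdele K) = ((2 * M : ℕ) : ℚ_[(p : ℕ)]) ^ 2 := by
      rw [← map_natCast (finIncl K), Q.normAt_finIncl, ← map_natCast (algebraMap ℚ K),
        Algebra.norm_algebraMap, Q.finrank_eq]
      push_cast; rfl
    simp only [map_mul, norm_mul, hn p, mul_one, hz, hNM, norm_pow] at e
    exact ((pow_left_inj₀ (norm_nonneg _) (norm_nonneg _) two_ne_zero).1 e).symm
  have hne : ∀ p : Nat.Primes, ((2 * M : ℕ) : ℚ_[(p : ℕ)]) ≠ 0 := fun p => Nat.cast_ne_zero.2 hM2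
  let u : Zhat := fun p => ⟨(w p : ℚ_[(p : ℕ)]) / ((2 * M : ℕ) : ℚ_[(p : ℕ)]), by
    rw [norm_div, hval p, div_self (norm_ne_zero_iff.2 (hne p))]⟩
  refine ⟨u, Pi.isUnit_iff.2 fun p => PadicInt.isUnit_iff.2 ?_, ?_⟩
  · show ‖(w p : ℚ_[(p : ℕ)]) / ((2 * M : ℕ) : ℚ_[(p : ℕ)])‖ = 1
    rw [norm_div, hval p, div_self (norm_ne_zero_iff.2 (hne p))]
  · refine (Places.isUnit_natCast (2 * M) (Nat.pos_of_ne_zero hM2)).mul_left_cancel (hx.trans ?_)
    rw [← map_natCast (zhatIncl (K := K)) (2 * M), ← map_mul]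
    congr 1
    funext p
    apply Subtype.ext
    show (w p : ℚ_[(p : ℕ)]) = (((2 * M : ℕ) : ℤ_[(p : ℕ)]) : ℚ_[(p : ℕ)]) *
      ((w p : ℚ_[(p : ℕ)]) / ((2 * M : ℕ) : ℚ_[(p : ℕ)]))
    rw [PadicInt.coe_natCast, mul_div_cancel₀ _ (hne p)]

/-- The norm at `p` is invariant under the conjugation. -/
theorem normAt_finMap (p : Nat.Primes) (x : FinAdele K) :
    Q.normAt p (finMap Q.σ x) = Q.normAt p x := by
  -- both are the determinant, and `σ` conjugates the regular representation
  set S : Matrix (Fin 2) (Fin 2) ℚ := Matrix.of fun i j => Q.basis.repr (Q.σ (Q.basis j)) i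
  have hS : ∀ a : K, S * Q.regular a = Q.regular (Q.σ a) * S := fun a => by
    ext i j
    have h1 := congrArg (fun z => Q.basis.repr (Q.σ z) i) (Q.sum_regular a j)
    simp only [map_mul, map_sum, Rat.smul_def, map_ratCast] at h1
    simp only [← Rat.smul_def, map_smul, Finsupp.smul_apply, smul_eq_mul, Fin.sum_univ_two,
      Finsupp.add_apply] at h1
    have h2 : ∀ (z : K), Q.basis.repr (Q.σ a * z) i =
        ∑ k, Q.regular (Q.σ a) i k * Q.basis.repr z k := fun z => by
      conv_lhs => rw [← Q.basis.sum_repr z]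
      simp only [Fin.sum_univ_two, mul_add, mul_smul_comm, map_add, map_smul, Finsupp.add_apply,
        Finsupp.smul_apply, smul_eq_mul, regular_apply]
      ring
    simp only [Matrix.mul_apply, S, Matrix.of_apply, Fin.sum_univ_two]
    rw [h2, Fin.sum_univ_two] at h1
    linear_combination -h1
  have hdet : S.det ≠ 0 := by
    intro h0
    obtain ⟨v, hv0, hv⟩ := Matrix.exists_mulVec_eq_zero_iff.2 h0
    refine hv0 ?_
    have hz : Q.σ (∑ j, v j • Q.basis j) = 0 := by
      refine Q.basis.repr.injective (Finsupp.ext fun i => ?_)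
      have := congrFun hv i
      simp [Matrix.mulVec, dotProduct, S, Fin.sum_univ_two] at this
      simp [Fin.sum_univ_two, Rat.smul_def, map_add, map_mul]
      simp only [← Rat.smul_def, map_smul, Finsupp.smul_apply, smul_eq_mul]
      linear_combination this
    have hz' := (map_eq_zero_iff Q.σ Q.σ.injective).1 hz
    exact funext fun j => Fintype.linearIndependent_iff.1 Q.basis.linearIndependent v hz' j
  set S' := S.map (Rat.castHom ℚ_[(p : ℕ)])
  have key : ∀ y, S' * Q.qcomp p y = Q.qcomp p (finMap Q.σ y) * S' := fun y => by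
    induction y using TensorProduct.induction_on with
    | zero => simp
    | tmul a z =>
      rw [finMap_tmul, qcomp_tmul, qcomp_tmul, Matrix.mul_smul, Matrix.smul_mul, ← Matrix.map_mul,
        ← Matrix.map_mul, hS]
    | add a b ha hb => rw [map_add, map_add, map_add, mul_add, add_mul, ha, hb]
  have := congrArg Matrix.det (key x)
  rw [Matrix.det_mul, Matrix.det_mul, mul_comm] at this
  refine (mul_right_cancel₀ ?_ this).symm
  rw [show S' = (Rat.castHom ℚ_[(p : ℕ)]).mapMatrix S from rfl, ← RingHom.map_det]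
  exact (map_ne_zero _).2 hdet

theorem hermAct_scalar {R : Type*} [CommRing R] (σ : R →+* R) (t : R)
    (Y : Matrix (Fin 2) (Fin 2) R) :
    hermAct σ (Matrix.scalar (Fin 2) t) Y = (t * σ t) • Y := by
  refine Matrix.ext fun i j => ?_
  fin_cases i <;> fin_cases j <;>
    simp [hermAct, Matrix.mul_apply, Fin.sum_univ_two, Matrix.smul_apply] <;> ring

/-- The weight at a principal level from a function invariant under the congruence subgroup and
under units of `ℤ̂`. -/
def principalWeight {N : ℕ} (hN : 0 < N) (Φ : Matrix (Fin 2) (Fin 2) (FinAdele K) → ℂ)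
    (hk : ∀ k : GLFin K, IsPrincipal K N k → ∀ Y,
      Φ (hermAct (finMap Q.σ).toRingHom k.val Y) = Φ Y)
    (hz : ∀ w : Zhat, IsUnit w → ∀ Y, Φ (zhatIncl (K := K) w • Y) = Φ Y) :
    ThetaWeight Q.toHermFrame (Q.principalScale N hN) where
  Φ := Φ
  level u hu r hr hcu Y := by
    obtain ⟨a, k, hkp, rfl⟩ := hu
    have hr' : r = Q.idNorm a := by
      rw [scale_apply, map_mul, map_mul, Q.idNorm_det_principal hkp, mul_one, detUnit_scalarFin,
        map_pow] at hcu
      exact ((pow_left_inj₀ (Q.idNorm_pos a).le hr.le two_ne_zero).1 hcu).symm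
    set b : FinAdele K := ((a⁻¹ : (FinAdele K)ˣ) : FinAdele K)
    have hfixr : finMap Q.σ (finIncl K (r : K)) = finIncl K (r : K) := by
      rw [finMap_finIncl, map_ratCast]
    have hσσ : ∀ y, finMap Q.σ (finMap Q.σ y) = y := fun y => by
      induction y using TensorProduct.induction_on with
      | zero => simp
      | tmul a z => rw [finMap_tmul, finMap_tmul, HermFrame.σ_involutive]
      | add a b ha hb => rw [map_add, map_add, ha, hb]
    set x : FinAdele K := b * finMap Q.σ b * finIncl K (r : K) with hx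
    have hfix : finMap Q.σ x = x := by
      rw [hx, map_mul, map_mul, hσσ, hfixr]; ring
    have hn : ∀ p, ‖Q.normAt p x‖ = 1 := fun p => by
      rw [hx, map_mul, map_mul, Q.normAt_finMap, Q.normAt_finIncl,
        show (r : K) = algebraMap ℚ K r from (eq_ratCast _ r).symm,
        Algebra.norm_algebraMap, Q.finrank_eq]
      push_cast
      rw [norm_mul, norm_mul, norm_pow, hr', Q.norm_idNorm]
      have h1 : ‖Q.normAt p b‖ * ‖Q.normAt p (a : FinAdele K)‖ = 1 := by
        rw [← norm_mul, ← map_mul, ← Units.val_mul, inv_mul_cancel, Units.val_one, map_one,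
          norm_one]
      linear_combination (‖Q.normAt p b‖ * ‖Q.normAt p (a : FinAdele K)‖ + 1) * h1
    obtain ⟨w, hw, hxw⟩ := Q.exists_zhat_unit hfix hn
    have hval : ((scalarFin K a * k)⁻¹).val = k⁻¹.val * Matrix.scalar (Fin 2) b := by
      rw [_root_.mul_inv_rev, Units.val_mul, ← map_inv (scalarFin K)]
      rfl
    rw [hval, hermAct_mul, hk _ hkp.inv, hermAct_scalar]
    have he : (b * (finMap Q.σ).toRingHom b) • Y = zhatIncl (K := K) w • (finIncl K ((r⁻¹ : ℚ) : K) • Y) := by
      rw [smul_smul, ← hxw, hx]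
      congr 1
      show b * finMap Q.σ b = _
      rw [mul_assoc, ← map_mul (finIncl K), ← Rat.cast_mul, mul_inv_cancel₀ hr.ne', Rat.cast_one,
        map_one, mul_one]
    rw [he, hz w hw]

end QuadFrame

end Fermat.Agent.LT.LiftHecke

end
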