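import Fermat.Agent.LT.Asai.Restrict.Field
import Fermat.Agent.LT.LiftHecke.QuadNorm
import Mathlib.NumberTheory.NumberField.Cyclotomic.Basic

/-!
# The frame of `ℚ(ζ₃)`

Homomorphisms out of `EisField` from roots of `X² + X + 1`, the conjugation, integral and rational
coordinates in `1, ζ`, and the frame of the theta sums.
-/

set_option autoImplicit false

noncomputable section

open NumberField Polynomial
open scoped ComplexConjugate

namespace Fermat.Agent.LT.LiftHecke

open Asai (eisZeta eisZeta_spec eisZeta_sq eisSqrt eisSqrt_sq)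

theorem minpoly_eisZeta : minpoly ℚ eisZeta = X ^ 2 + X + 1 := by
  rw [← cyclotomic_eq_minpoly_rat eisZeta_spec (by norm_num), cyclotomic_three]

/-- The basis `1, ζ`. -/
def eisPowerBasis : PowerBasis ℚ EisField := eisZeta_spec.powerBasis ℚ

theorem eisPowerBasis_gen : eisPowerBasis.gen = eisZeta := eisZeta_spec.powerBasis_gen ℚ

/-- The homomorphism sending `ζ` to a root of `X² + X + 1`. -/
def eisLift {L : Type*} [Field L] [CharZero L] (y : L) (hy : y ^ 2 + y + 1 = 0) : EisField →+* L :=
  (eisPowerBasis.lift y (by rw [eisPowerBasis_gen, minpoly_eisZeta]; simpa using hy)).toRingHom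

/-- The homomorphism attached to a root `y` of `X² + X + 1` sends `ζ` to `y`. -/
@[simp] theorem eisLift_zeta {L : Type*} [Field L] [CharZero L] (y : L)
    (hy : y ^ 2 + y + 1 = 0) : eisLift y hy eisZeta = y := by
  have h := eisPowerBasis.lift_gen (S' := L) y
    (by rw [eisPowerBasis_gen, minpoly_eisZeta]; simpa using hy)
  simp only [eisPowerBasis_gen] at h
  exact h

theorem eis_hom_ext {L : Type*} [Field L] [CharZero L] {f g : EisField →+* L}
    (h : f eisZeta = g eisZeta) : f = g := by
  have := eisPowerBasis.algHom_ext (f := f.toRatAlgHom) (g := g.toRatAlgHom)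
    (by rw [eisPowerBasis_gen]; exact h)
  exact congrArg AlgHom.toRingHom this

/-- The conjugation `ζ ↦ ζ²`. -/
def eisConj : EisField →+* EisField :=
  eisLift (eisZeta ^ 2) (by linear_combination (eisZeta ^ 2 - eisZeta + 1) * eisZeta_sq)

/-- The conjugation sends `ζ` to `ζ²`. -/
@[simp] theorem eisConj_zeta : eisConj eisZeta = eisZeta ^ 2 := eisLift_zeta _ _

/-- The conjugation negates `√-3`. -/
theorem eisConj_sqrt : eisConj eisSqrt = -eisSqrt := by
  simp only [eisSqrt, map_add, map_mul, map_ofNat, map_one, eisConj_zeta]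
  linear_combination 2 * eisZeta_sq

/-- The distinguished embedding. -/
def eisEmb : EisField →+* ℂ := (default : InfinitePlace EisField).embedding

/-- The complex embedding intertwines the conjugation with complex conjugation. -/
theorem eisEmb_conj (x : EisField) : eisEmb (eisConj x) = conj (eisEmb x) := by
  refine RingHom.congr_fun (eis_hom_ext (f := eisEmb.comp eisConj)
    (g := (starRingEnd ℂ).comp eisEmb) ?_) x
  show eisEmb (eisConj eisZeta) = conj (eisEmb eisZeta)
  rw [eisConj_zeta, map_pow]
  have h3 : eisEmb eisZeta ^ 3 = 1 := by rw [← map_pow, eisZeta_spec.pow_eq_one, map_one]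
  have hn : ‖eisEmb eisZeta‖ = 1 := Complex.norm_eq_one_of_pow_eq_one h3 (by norm_num)
  rw [← Complex.inv_eq_conj hn]
  refine eq_inv_of_mul_eq_one_left ?_
  linear_combination h3

theorem eisConj_ne : eisConj ≠ RingHom.id EisField := fun h => by
  have h1 := eisConj_sqrt
  rw [h, RingHom.id_apply] at h1
  exact Asai.eisSqrt_ne_zero (by linear_combination h1 / 2)

/-- The frame of `ℚ(ζ₃)`. -/
def eisFrame : QuadFrame EisField where
  σ := eisConj
  e := eisEmb
  conj_e := eisEmb_conj
  finrank_eq := Asai.finrank_eisField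
  σ_ne := eisConj_ne

/-- `ℚ(ζ₃)` has one infinite place, that of the chosen embedding. -/
theorem eisEmb_eq (w : InfinitePlace EisField) : w.embedding = eisEmb := by
  rw [Subsingleton.elim w default]; rfl

/-- Integral coordinates. -/
theorem exists_eq_add_mul_zeta (o : 𝓞 EisField) :
    ∃ a b : ℤ, (o : EisField) = (a : EisField) + (b : EisField) * eisZeta := by
  have : Fact (Nat.Prime 3) := ⟨Nat.prime_three⟩
  obtain ⟨P, hdeg, hP⟩ := eisZeta_spec.integralPowerBasis.exists_eq_aeval o
  rw [IsPrimitiveRoot.integralPowerBasis_dim, Nat.totient_prime Nat.prime_three] at hdeg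
  refine ⟨P.coeff 0, P.coeff 1, ?_⟩
  rw [hP, IsPrimitiveRoot.integralPowerBasis_gen, aeval_eq_sum_range' hdeg]
  simp [Finset.sum_range_succ, zsmul_eq_mul]

/-- Twice an integer in the coordinates `1, √-3`. -/
theorem exists_two_mul_eq (o : 𝓞 EisField) :
    ∃ a b : ℤ, 2 * (o : EisField) = (a : EisField) + (b : EisField) * eisSqrt := by
  obtain ⟨a, b, h⟩ := exists_eq_add_mul_zeta o
  refine ⟨2 * a - b, b, ?_⟩
  rw [h, eisSqrt]; push_cast; ring

/-- `√-3` as an integer. -/
def eisSqrtInt : 𝓞 EisField := ⟨eisSqrt, by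
  show IsIntegral ℤ eisSqrt
  rw [eisSqrt, two_mul]
  exact (Asai.isIntegral_eisZeta.add Asai.isIntegral_eisZeta).add isIntegral_one⟩

/-- The integer `√-3` coerces to the field element. -/
@[simp] theorem coe_eisSqrtInt : (eisSqrtInt : EisField) = eisSqrt := rfl

end Fermat.Agent.LT.LiftHecke

end
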