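import Fermat.Agent.LT.LiftHecke.SplitEis
import Fermat.Agent.LT.Lift.FormPackage

/-!
# The weight of the theta lift on `ℚ(ζ₃)`

`stdPhi L` is the indicator of `Ẑˣ J + L Herm(Ô)` with `J = (0 1; 1 0)`. It gives a weight at the
principal level `L`, supported on integral arguments, so with integral norms, and at a split prime
`p ∤ L` it is the indicator of `M₂(ℤ_p)` times a function unaffected by the place.
-/

set_option autoImplicit false

noncomputable section

open Matrix NumberField
open scoped TensorProduct Classical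

namespace Fermat.Agent.LT.LiftHecke

/-- `(0 1; 1 0)`. -/
def stdForm (R : Type*) [CommRing R] : Matrix (Fin 2) (Fin 2) R := !![0, 1; 1, 0]

/-- The form is preserved by ring homomorphisms. -/
theorem stdForm_map {R S : Type*} [CommRing R] [CommRing S] (f : R →+* S) :
    (stdForm R).map f = stdForm S := by
  ext i j; fin_cases i <;> fin_cases j <;> simp [stdForm]

/-- The form is symmetric. -/
theorem stdForm_transpose {R : Type*} [CommRing R] : (stdForm R)ᵀ = stdForm R := by
  ext i j; fin_cases i <;> fin_cases j <;> simp [stdForm]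

theorem smul_mul_mul_eq {R : Type*} [CommRing R] {u : R} {g h : Matrix (Fin 2) (Fin 2) R}
    (hg : u • g = u • (1 : Matrix (Fin 2) (Fin 2) R))
    (hh : u • h = u • (1 : Matrix (Fin 2) (Fin 2) R)) (Y : Matrix (Fin 2) (Fin 2) R) :
    u • (g * Y * h) = u • Y := by
  calc u • (g * Y * h) = (u • g) * Y * h := by rw [Matrix.smul_mul, Matrix.smul_mul]
    _ = Y * (u • h) := by rw [hg, Matrix.smul_mul, Matrix.smul_mul, one_mul, Matrix.mul_smul]
    _ = u • Y := by rw [hh, Matrix.mul_smul, mul_one]

section Adjoint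

variable {R : Type*} [CommRing R] (σ : R →+* R)

/-- The conjugate transpose. -/
def adjMat (Y : Matrix (Fin 2) (Fin 2) R) : Matrix (Fin 2) (Fin 2) R := (Y.map σ)ᵀ

/-- Entries of the conjugate transpose. -/
theorem adjMat_apply (Y : Matrix (Fin 2) (Fin 2) R) (i j : Fin 2) :
    adjMat σ Y i j = σ (Y j i) := rfl

theorem adjMat_add (X Y : Matrix (Fin 2) (Fin 2) R) :
    adjMat σ (X + Y) = adjMat σ X + adjMat σ Y := by
  ext i j; simp [adjMat_apply]

theorem adjMat_smul (c : R) (Y : Matrix (Fin 2) (Fin 2) R) :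
    adjMat σ (c • Y) = σ c • adjMat σ Y := by
  ext i j; simp [adjMat_apply]

theorem adjMat_mul (X Y : Matrix (Fin 2) (Fin 2) R) :
    adjMat σ (X * Y) = adjMat σ Y * adjMat σ X := by
  simp only [adjMat, Matrix.map_mul, Matrix.transpose_mul]

theorem adjMat_one : adjMat σ (1 : Matrix (Fin 2) (Fin 2) R) = 1 := by
  ext i j; fin_cases i <;> fin_cases j <;> simp [adjMat_apply]

theorem adjMat_adjMat (hσ : ∀ x, σ (σ x) = x) (Y : Matrix (Fin 2) (Fin 2) R) :
    adjMat σ (adjMat σ Y) = Y := by
  ext i j; simp [adjMat_apply, hσ]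

theorem adjMat_stdForm : adjMat σ (stdForm R) = stdForm R := by
  rw [adjMat, stdForm_map, stdForm_transpose]

theorem hermAct_eq (g Y : Matrix (Fin 2) (Fin 2) R) : hermAct σ g Y = g * Y * adjMat σ g := rfl

/-- The identity acts trivially. -/
theorem hermAct_one (Y : Matrix (Fin 2) (Fin 2) R) : hermAct σ 1 Y = Y := by
  rw [hermAct_eq, adjMat_one, one_mul, mul_one]

/-- The action commutes with the conjugate transpose. -/
theorem adjMat_hermAct (hσ : ∀ x, σ (σ x) = x) (g Y : Matrix (Fin 2) (Fin 2) R) :
    adjMat σ (hermAct σ g Y) = hermAct σ g (adjMat σ Y) := by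
  rw [hermAct_eq, hermAct_eq, adjMat_mul, adjMat_mul, adjMat_adjMat σ hσ, Matrix.mul_assoc]

/-- The action is additive. -/
theorem hermAct_add (g X Y : Matrix (Fin 2) (Fin 2) R) :
    hermAct σ g (X + Y) = hermAct σ g X + hermAct σ g Y := by
  simp only [hermAct, mul_add, add_mul]

/-- The action commutes with scalars. -/
theorem hermAct_smul (c : R) (g Y : Matrix (Fin 2) (Fin 2) R) :
    hermAct σ g (c • Y) = c • hermAct σ g Y := by
  simp only [hermAct, Matrix.mul_smul, Matrix.smul_mul]

end Adjoint

/-- The conjugation on the adeles of `EisField`. -/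
abbrev adConj : FinAdele EisField →+* FinAdele EisField := (finMap eisFrame.σ).toRingHom

/-- The conjugation on adeles is an involution. -/
theorem adConj_adConj (x : FinAdele EisField) : adConj (adConj x) = x := by
  show finMap eisFrame.σ (finMap eisFrame.σ x) = x
  induction x using TensorProduct.induction_on with
  | zero => simp
  | tmul a z => rw [finMap_tmul, finMap_tmul, HermFrame.σ_involutive]
  | add a b ha hb => rw [map_add, map_add, ha, hb]

/-- On principal adeles it is the conjugation of the field. -/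
theorem adConj_finIncl (a : EisField) : adConj (finIncl EisField a) = finIncl EisField (eisConj a) :=
  rfl

/-- It fixes `ℤ̂`. -/
theorem adConj_zhatIncl (w : Zhat) :
    adConj (QuadFrame.zhatIncl (K := EisField) w) = QuadFrame.zhatIncl (K := EisField) w := by
  show finMap eisFrame.σ ((1 : EisField) ⊗ₜ[ℤ] w) = _
  rw [finMap_tmul, map_one]
  rfl

/-- `ℤ̂` consists of integral adeles. -/
theorem zhatIncl_mem (w : Zhat) :
    QuadFrame.zhatIncl (K := EisField) w ∈ integralAdele EisField := by
  have h := tmul_mem_integralAdele (1 : 𝓞 EisField) w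
  rw [show ((1 : 𝓞 EisField) : EisField) = 1 from rfl] at h
  exact h

/-- The conjugation preserves integrality. -/
theorem adConj_mem {x : FinAdele EisField} (hx : x ∈ integralAdele EisField) :
    adConj x ∈ integralAdele EisField := by
  obtain ⟨y, rfl⟩ := hx
  induction y using TensorProduct.induction_on with
  | zero => simp
  | tmul o z =>
    exact tmul_mem_integralAdele
      (⟨eisConj (o : EisField), map_isIntegral_int eisConj o.isIntegral_coe⟩ : 𝓞 EisField) z
  | add a b ha hb => rw [map_add, map_add]; exact add_mem ha hb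

/-- Products of integral matrices are integral. -/
theorem mul_entries_mem {g h : Matrix (Fin 2) (Fin 2) (FinAdele EisField)}
    (hg : ∀ i j, g i j ∈ integralAdele EisField) (hh : ∀ i j, h i j ∈ integralAdele EisField)
    (i j : Fin 2) : (g * h) i j ∈ integralAdele EisField := by
  rw [Matrix.mul_apply]
  exact sum_mem fun k _ => mul_mem (hg i k) (hh k j)

/-- An integral Hermitian matrix. -/
structure IsHermInt (Z : Matrix (Fin 2) (Fin 2) (FinAdele EisField)) : Prop where
  herm : adjMat adConj Z = Z
  integral : ∀ i j, Z i j ∈ integralAdele EisField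

theorem isHermInt_stdForm : IsHermInt (stdForm (FinAdele EisField)) :=
  ⟨adjMat_stdForm _, fun i j => by
    fin_cases i <;> fin_cases j <;> simp [stdForm, zero_mem, one_mem]⟩

/-- Zero is integral Hermitian. -/
theorem isHermInt_zero : IsHermInt 0 :=
  ⟨by ext i j; simp [adjMat_apply], fun i j => by simp [zero_mem]⟩

/-- Sums of integral Hermitian matrices are integral Hermitian. -/
theorem IsHermInt.add {X Y : Matrix (Fin 2) (Fin 2) (FinAdele EisField)} (hX : IsHermInt X)
    (hY : IsHermInt Y) : IsHermInt (X + Y) :=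
  ⟨by rw [adjMat_add, hX.herm, hY.herm], fun i j => add_mem (hX.integral i j) (hY.integral i j)⟩

/-- So are multiples by fixed integral adeles. -/
theorem IsHermInt.smul {c : FinAdele EisField} {X : Matrix (Fin 2) (Fin 2) (FinAdele EisField)}
    (hX : IsHermInt X) (hc : adConj c = c) (hc' : c ∈ integralAdele EisField) :
    IsHermInt (c • X) :=
  ⟨by rw [adjMat_smul, hX.herm, hc], fun i j => by
    simpa using mul_mem hc' (hX.integral i j)⟩

/-- So are multiples by `ℤ̂`. -/
theorem IsHermInt.zsmul {X : Matrix (Fin 2) (Fin 2) (FinAdele EisField)} (hX : IsHermInt X)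
    (w : Zhat) : IsHermInt (QuadFrame.zhatIncl (K := EisField) w • X) :=
  hX.smul (adConj_zhatIncl w) (zhatIncl_mem w)

theorem IsHermInt.natSmul {X : Matrix (Fin 2) (Fin 2) (FinAdele EisField)} (hX : IsHermInt X)
    (n : ℕ) : IsHermInt ((n : FinAdele EisField) • X) :=
  hX.smul (map_natCast _ _) (natCast_mem _ _)

/-- The conjugate transpose of an integral matrix is integral. -/
theorem adjMat_entries_mem {g : Matrix (Fin 2) (Fin 2) (FinAdele EisField)}
    (hg : ∀ i j, g i j ∈ integralAdele EisField) (i j : Fin 2) :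
    adjMat adConj g i j ∈ integralAdele EisField := adConj_mem (hg j i)

/-- Integral matrices act on integral Hermitian matrices. -/
theorem IsHermInt.hermAct {g X : Matrix (Fin 2) (Fin 2) (FinAdele EisField)}
    (hg : ∀ i j, g i j ∈ integralAdele EisField) (hX : IsHermInt X) :
    IsHermInt (LiftHecke.hermAct adConj g X) :=
  ⟨by rw [adjMat_hermAct _ adConj_adConj, hX.herm],
    mul_entries_mem (mul_entries_mem hg hX.integral) (adjMat_entries_mem hg)⟩

theorem isHermInt_add_adjMat {g : Matrix (Fin 2) (Fin 2) (FinAdele EisField)}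
    (hg : ∀ i j, g i j ∈ integralAdele EisField) : IsHermInt (g + adjMat adConj g) :=
  ⟨by rw [adjMat_add, adjMat_adjMat _ adConj_adConj, add_comm],
    fun i j => add_mem (hg i j) (adjMat_entries_mem hg i j)⟩

/-- The class `Ẑˣ J + L Herm(Ô)`. -/
def InClass (L : ℕ) (Y : Matrix (Fin 2) (Fin 2) (FinAdele EisField)) : Prop :=
  ∃ w : Zhat, IsUnit w ∧ ∃ Z, IsHermInt Z ∧
    Y = QuadFrame.zhatIncl (K := EisField) w • stdForm (FinAdele EisField) +
      (L : FinAdele EisField) • Z

variable {L : ℕ}

/-- The class consists of integral Hermitian matrices. -/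
theorem InClass.isHermInt {Y : Matrix (Fin 2) (Fin 2) (FinAdele EisField)} (h : InClass L Y) :
    IsHermInt Y := by
  obtain ⟨w, -, Z, hZ, rfl⟩ := h
  exact (isHermInt_stdForm.zsmul w).add (hZ.natSmul L)

theorem InClass.add_period {Y Z : Matrix (Fin 2) (Fin 2) (FinAdele EisField)} (h : InClass L Y)
    (hZ : IsHermInt Z) : InClass L (Y + (L : FinAdele EisField) • Z) := by
  obtain ⟨w, hw, Z', hZ', rfl⟩ := h
  exact ⟨w, hw, Z' + Z, hZ'.add hZ, by rw [smul_add, add_assoc]⟩

/-- The class is stable under `ℤ̂ˣ`. -/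
theorem InClass.zsmul {Y : Matrix (Fin 2) (Fin 2) (FinAdele EisField)} (h : InClass L Y) {u : Zhat}
    (hu : IsUnit u) : InClass L (QuadFrame.zhatIncl (K := EisField) u • Y) := by
  obtain ⟨w, hw, Z, hZ, rfl⟩ := h
  exact ⟨u * w, hu.mul hw, _, hZ.zsmul u, by
    rw [smul_add, smul_smul, ← map_mul, smul_comm]⟩

/-- Units of `ℤ̂` do not change membership in the class. -/
theorem inClass_zsmul_iff {Y : Matrix (Fin 2) (Fin 2) (FinAdele EisField)} {u : Zhat}
    (hu : IsUnit u) :
    InClass L (QuadFrame.zhatIncl (K := EisField) u • Y) ↔ InClass L Y := by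
  refine ⟨fun h => ?_, fun h => h.zsmul hu⟩
  obtain ⟨v, rfl⟩ := hu
  have := h.zsmul (u := ↑v⁻¹) (Units.isUnit _)
  rwa [smul_smul, ← map_mul, Units.inv_mul, map_one, one_smul] at this

/-- The class is stable under the principal congruence subgroup. -/
theorem InClass.hermAct {k : GLFin EisField} (hk : IsPrincipal EisField L k)
    {Y : Matrix (Fin 2) (Fin 2) (FinAdele EisField)} (h : InClass L Y) :
    InClass L (LiftHecke.hermAct adConj k.val Y) := by
  obtain ⟨w, hw, Z, hZ, rfl⟩ := h
  choose a ha hka using hk.left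
  set A : Matrix (Fin 2) (Fin 2) (FinAdele EisField) := Matrix.of a with hA
  have hkA : k.val = 1 + (L : FinAdele EisField) • A := by
    ext i j; simp [hA, hka]
  have hkint : ∀ i j, k.val i j ∈ integralAdele EisField := fun i j => by
    rw [hka]
    refine add_mem ?_ (mul_mem (natCast_mem _ _) (ha i j))
    rw [Matrix.one_apply]
    split
    exacts [one_mem _, zero_mem _]
  set J := stdForm (FinAdele EisField) with hJ
  have hAJ : ∀ i j, (A * J) i j ∈ integralAdele EisField :=
    mul_entries_mem ha isHermInt_stdForm.integral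
  set Z₁ := (A * J + adjMat adConj (A * J)) +
    (L : FinAdele EisField) • LiftHecke.hermAct adConj A J
  have hZ₁ : IsHermInt Z₁ :=
    (isHermInt_add_adjMat hAJ).add ((isHermInt_stdForm.hermAct ha).natSmul L)
  have e : LiftHecke.hermAct adConj k.val J = J + (L : FinAdele EisField) • Z₁ := by
    rw [hkA, hermAct_eq, adjMat_add, adjMat_one, adjMat_smul, map_natCast]
    simp only [Z₁, adjMat_mul, hJ, adjMat_stdForm, hermAct_eq]
    ext i j
    simp only [add_mul, mul_add, one_mul, Matrix.add_apply, Matrix.mul_apply,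
      Matrix.smul_apply, smul_eq_mul, Fin.sum_univ_two]
    fin_cases i <;> fin_cases j <;> simp [stdForm, Matrix.one_apply] <;> ring
  refine ⟨w, hw, QuadFrame.zhatIncl (K := EisField) w • Z₁ + LiftHecke.hermAct adConj k.val Z,
    (hZ₁.zsmul w).add (hZ.hermAct hkint), ?_⟩
  rw [hermAct_add, hermAct_smul, hermAct_smul, e]
  ext i j
  simp only [Matrix.add_apply, Matrix.smul_apply, smul_eq_mul, hJ]
  ring

theorem inClass_hermAct_iff {k : GLFin EisField} (hk : IsPrincipal EisField L k)
    (Y : Matrix (Fin 2) (Fin 2) (FinAdele EisField)) :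
    InClass L (hermAct adConj k.val Y) ↔ InClass L Y := by
  refine ⟨fun h => ?_, fun h => h.hermAct hk⟩
  have := h.hermAct hk.inv
  rwa [← hermAct_mul, ← Units.val_mul, inv_mul_cancel, Units.val_one, hermAct_one] at this

/-- The indicator of the class. -/
def stdPhi (L : ℕ) (Y : Matrix (Fin 2) (Fin 2) (FinAdele EisField)) : ℂ :=
  if InClass L Y then 1 else 0

/-- The indicator is bounded by one. -/
theorem norm_stdPhi_le (Y : Matrix (Fin 2) (Fin 2) (FinAdele EisField)) : ‖stdPhi L Y‖ ≤ 1 := by
  unfold stdPhi; split_ifs <;> simp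

/-- The support of the indicator is the class. -/
theorem inClass_of_stdPhi_ne_zero {Y : Matrix (Fin 2) (Fin 2) (FinAdele EisField)}
    (h : stdPhi L Y ≠ 0) : InClass L Y := by
  by_contra hY
  exact h (if_neg hY)

/-- The indicator is periodic modulo `L` times the integral Hermitian matrices. -/
theorem stdPhi_add_period (Y : Matrix (Fin 2) (Fin 2) (FinAdele EisField))
    {Z : Matrix (Fin 2) (Fin 2) (FinAdele EisField)} (hZ : IsHermInt Z) :
    stdPhi L (Y + (L : FinAdele EisField) • Z) = stdPhi L Y := by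
  refine if_congr ⟨fun h => ?_, fun h => h.add_period hZ⟩ rfl rfl
  have := h.add_period (hZ.smul (c := (-1 : FinAdele EisField)) (by simp) (by simp [one_mem]))
  simpa [smul_smul] using this

/-- **The weight at the principal level `L`.** -/
def stdWeight (L : ℕ) (hL : 0 < L) :
    ThetaWeight eisFrame.toHermFrame (eisFrame.principalScale L hL) :=
  eisFrame.principalWeight hL (stdPhi L)
    (fun _ hk Y => if_congr (inClass_hermAct_iff hk Y) rfl rfl)
    (fun _ hw _ => if_congr (inClass_zsmul_iff hw) rfl rfl)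

/-- The function of the standard weight is the indicator. -/
theorem stdWeight_Φ (hL : 0 < L) (Y : Matrix (Fin 2) (Fin 2) (FinAdele EisField)) :
    (stdWeight L hL).Φ Y = stdPhi L Y := rfl

/-- A weight supported on integral arguments has integral norms. -/
theorem hasSupportDenominator_of_integral {K : Type*} [Field K] [NumberField K] (Q : QuadFrame K)
    [Unique (InfinitePlace K)] {N : ℕ} {hN : 0 < N}
    (W : ThetaWeight Q.toHermFrame (Q.principalScale N hN))
    (hint : ∀ Y, W.Φ Y ≠ 0 → ∀ i j, Y i j ∈ integralAdele K) :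
    Lift.HasSupportDenominator W 1 := by
  refine ⟨one_pos, fun g X hgX => ?_⟩
  set C := Q.principalScale N hN
  -- the determinant is rational
  have hfix : Q.σ X.1.det = X.1.det := by
    rw [RingHom.map_det, RingHom.mapMatrix_apply, ← Matrix.det_transpose, X.2]
  obtain ⟨r, hr⟩ : ∃ r : ℚ, X.1.det = (r : K) := by
    set a := X.1.det
    refine ⟨(Algebra.norm ℚ (a + 1) - Algebra.norm ℚ a - 1) / 2, ?_⟩
    have h1 := Q.cast_norm_eq (RingHom.id K) (a + 1)
    have h2 := Q.cast_norm_eq (RingHom.id K) a
    simp only [RingHom.id_apply, map_add, map_one, hfix] at h1 h2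
    push_cast
    linear_combination (1 / 2 : K) * h2 - (1 / 2 : K) * h1
  set n : ℚ := -r / C.c g with hn
  have hc : C.c g ≠ 0 := (C.pos g).ne'
  have hnorm : ∀ q : Nat.Primes, ‖(n : ℚ_[(q : ℕ)])‖ ≤ 1 := fun q => by
    have hY := Q.norm_normAt_le q (QuadFrame.det_mem_integralAdele (hint _ hgX))
    have hd : (ThetaWeight.arg (Fr := Q.toHermFrame) g X).det =
        (g⁻¹).val.det * finMap Q.σ (g⁻¹).val.det * finIncl K (r : K) := by
      rw [ThetaWeight.arg, det_hermAct, ← RingHom.mapMatrix_apply, ← RingHom.map_det, ← hr]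
      rfl
    rw [hd, map_mul, map_mul, Q.normAt_finMap, norm_mul, norm_mul, Q.normAt_finIncl,
      show (r : K) = algebraMap ℚ K r from (eq_ratCast _ r).symm, Algebra.norm_algebraMap,
      Q.finrank_eq,
      show Q.normAt q (g⁻¹).val.det = Q.normAt q ((QuadFrame.detUnit g⁻¹ : (FinAdele K)ˣ) :
        FinAdele K) from rfl,
      ← Q.norm_idNorm, show Q.idNorm (QuadFrame.detUnit g⁻¹) = (C.c g)⁻¹ from
        eq_inv_of_mul_eq_one_left (show C.c g⁻¹ * C.c g = 1 by
          rw [← map_mul, inv_mul_cancel, map_one])] at hY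
    push_cast at hY
    rw [norm_pow] at hY
    rw [hn]
    push_cast
    rw [norm_div, norm_neg]
    rw [norm_inv] at hY
    rw [← sq_le_one_iff₀ (by positivity), div_pow]
    calc _ = ‖((C.c g : ℚ) : ℚ_[(q : ℕ)])‖⁻¹ * ‖((C.c g : ℚ) : ℚ_[(q : ℕ)])‖⁻¹ *
          ‖((r : ℚ) : ℚ_[(q : ℕ)])‖ ^ 2 := by field_simp
      _ ≤ 1 := hY
  refine ⟨n.num, ?_⟩
  have hden : n.den = 1 := by
    by_contra h
    obtain ⟨q, hq, hqd⟩ := Nat.exists_prime_and_dvd h
    have : Fact q.Prime := ⟨hq⟩
    have hle := hnorm ⟨q, hq⟩
    have hnum : ‖((n.num : ℤ) : ℚ_[q])‖ = 1 := by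
      exact Padic.norm_intCast_eq_one_iff.2 (by
        have hco : Nat.Coprime n.num.natAbs q := n.reduced.coprime_dvd_right hqd
        exact Int.isCoprime_iff_nat_coprime.2 (by simpa using hco))
    have hd' : ‖((n.den : ℕ) : ℚ_[q])‖ < 1 := (Padic.norm_natCast_lt_one_iff).2 hqd
    have hpos : 0 < ‖((n.den : ℕ) : ℚ_[q])‖ := norm_pos_iff.2 (Nat.cast_ne_zero.2 n.den_nz)
    rw [Rat.cast_def, norm_div, hnum, div_le_one hpos] at hle
    linarith
  have hcpos : (0 : ℝ) < ((C.c g : ℚ) : ℝ) := by exact_mod_cast C.pos g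
  have hdet : (Q.normVec (C.c g) X).det =
      ((((((C.c g : ℚ) : ℝ)⁻¹ * (r : ℝ)) : ℝ)) : ℂ) := by
    rw [HermFrame.normVec, Matrix.det_smul, Fintype.card_fin, ← RingHom.mapMatrix_apply,
      ← RingHom.map_det, ← Complex.ofReal_pow, inv_pow, Real.sq_sqrt hcpos.le, hr, map_ratCast]
    push_cast
    rfl
  have hnR : (n : ℝ) = (n.num : ℝ) := by rw [Rat.cast_def, hden]; simp
  rw [Lift.nForm, hdet, Complex.ofReal_re, Nat.cast_one, div_one, ← hnR, hn]
  push_cast
  field_simp

/-- The weight is supported on integral norms. -/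
theorem hasSupportDenominator_stdWeight (hL : 0 < L) :
    Lift.HasSupportDenominator (stdWeight L hL) 1 :=
  hasSupportDenominator_of_integral eisFrame _ fun _ h =>
    (inClass_of_stdPhi_ne_zero h).isHermInt.integral

/-! ### At a split prime -/

namespace SplitRoot

variable {p : Nat.Primes} (R : SplitRoot p)

theorem norm_comp_le {x : FinAdele EisField} (hx : x ∈ integralAdele EisField) :
    ‖R.split.comp x‖ ≤ 1 := by
  obtain ⟨y, rfl⟩ := hx
  induction y using TensorProduct.induction_on with
  | zero => simp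
  | tmul o z =>
    show ‖R.split.comp ((o : EisField) ⊗ₜ z)‖ ≤ 1
    rw [SplitPlace.comp_tmul, norm_mul]
    exact mul_le_one₀ (R.norm_ι_le o) (norm_nonneg _) (PadicInt.norm_le_one _)
  | add a b ha hb =>
    rw [map_add, map_add]
    exact (Padic.nonarchimedean _ _).trans (max_le ha hb)

/-- The idempotent of the prime `p`. -/
def primeIdem (p : Nat.Primes) : FinAdele EisField :=
  QuadFrame.zhatIncl (K := EisField) (Pi.single p 1 : Zhat)

theorem primeIdem_mul_self : primeIdem p * primeIdem p = primeIdem p := by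
  rw [primeIdem, ← map_mul, ← Pi.single_mul, mul_one]

theorem idem_add_conj : R.split.idem + adConj R.split.idem = primeIdem p := by
  show R.split.idem + finMap eisConj R.split.idem = (1 : EisField) ⊗ₜ[ℤ] (Pi.single p 1 : Zhat)
  rw [SplitPlace.idem, map_add, finMap_tmul, finMap_tmul]
  simp only [split, eisConj_sqrt, map_div₀ eisConj, map_one, map_ofNat, TensorProduct.neg_tmul]
  rw [add_add_add_comm, add_neg_cancel, zero_add, ← TensorProduct.add_tmul]
  norm_num
  rfl

theorem idem_mul_conj : R.split.idem * adConj R.split.idem = 0 := R.split.idem_mul_finMap_idem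

theorem primeIdem_mul_idem : primeIdem p * R.split.idem = R.split.idem := by
  rw [← R.idem_add_conj, add_mul, R.split.idem_mul_idem, mul_comm (adConj R.split.idem),
    idem_mul_conj, add_zero]

/-- At the place an integral adele is its component. -/
theorem idem_mul_integral {x : FinAdele EisField} (hx : x ∈ integralAdele EisField) :
    R.split.idem * x = R.split.idem * QuadFrame.zhatIncl (K := EisField)
      (Pi.single p ⟨R.split.comp x, R.norm_comp_le hx⟩ : Zhat) := by
  set e := R.split.idem with he
  have hee : e * e = e := R.split.idem_mul_idem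
  have hE : e * primeIdem p = e := by rw [mul_comm]; exact R.primeIdem_mul_idem
  -- the square root at the place
  have hd : e * finIncl EisField Asai.eisSqrt =
      e * QuadFrame.zhatIncl (K := EisField) (Pi.single p R.s : Zhat) := by
    show e * (Asai.eisSqrt ⊗ₜ[ℤ] (1 : Zhat)) = e * ((1 : EisField) ⊗ₜ[ℤ] (Pi.single p R.s : Zhat))
    rw [he, SplitPlace.idem, add_mul, add_mul, Algebra.TensorProduct.tmul_mul_tmul,
      Algebra.TensorProduct.tmul_mul_tmul, Algebra.TensorProduct.tmul_mul_tmul,
      Algebra.TensorProduct.tmul_mul_tmul, mul_one, mul_one, mul_one, mul_one]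
    have h1 : (R.split.d * Asai.eisSqrt) ⊗ₜ[ℤ] (Pi.single p R.a : Zhat) =
        (1 / 2 : EisField) ⊗ₜ[ℤ] (Pi.single p R.s : Zhat) := by
      show (Asai.eisSqrt * Asai.eisSqrt) ⊗ₜ[ℤ] (Pi.single p R.a : Zhat) = _
      rw [← pow_two, Asai.eisSqrt_sq, show (-3 : EisField) = (-6 : ℤ) • (1 / 2 : EisField) by
        rw [zsmul_eq_mul]; norm_num, TensorProduct.smul_tmul]
      congr 1
      rw [← Pi.single_smul]
      congr 1
      rw [zsmul_eq_mul]
      push_cast
      linear_combination R.s * R.a_mul - 2 * R.a * R.sq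
    have h2 : R.split.d ⊗ₜ[ℤ] ((Pi.single p R.a : Zhat) * Pi.single p R.s) =
        ((1 / 2 : EisField) * Asai.eisSqrt) ⊗ₜ[ℤ] (Pi.single p 1 : Zhat) := by
      show Asai.eisSqrt ⊗ₜ[ℤ] _ = _
      rw [← Pi.single_mul, show Asai.eisSqrt = (2 : ℤ) • ((1 / 2 : EisField) * Asai.eisSqrt) by
        rw [zsmul_eq_mul]; push_cast; ring, TensorProduct.smul_tmul]
      congr 1
      · ring
      rw [← Pi.single_smul]
      congr 1
      rw [zsmul_eq_mul]
      push_cast
      linear_combination R.a_mul
    rw [show (Pi.single R.split.p R.split.a : Zhat) = Pi.single p R.a from rfl,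
      show (Pi.single R.split.p 1 : Zhat) = Pi.single p 1 from rfl, h1, h2]
    rw [show (Pi.single p 1 : Zhat) * Pi.single p R.s = Pi.single p R.s by
      rw [← Pi.single_mul, one_mul]]
    exact add_comm _ _
  have key : ∀ y ∈ integralAdele EisField, ∃ c : ℤ_[(p : ℕ)],
      (c : ℚ_[(p : ℕ)]) = R.split.comp y ∧
      e * y = e * QuadFrame.zhatIncl (K := EisField) (Pi.single p c : Zhat) := by
    rintro _ ⟨y, rfl⟩
    induction y using TensorProduct.induction_on with
    | zero => exact ⟨0, by rw [map_zero, map_zero]; rfl, by rw [map_zero, Pi.single_zero, map_zero]⟩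
    | tmul o z =>
      obtain ⟨a, b, hab⟩ := exists_two_mul_eq o
      obtain ⟨h, hh⟩ : ∃ h : ℤ_[(p : ℕ)], (2 : ℤ_[(p : ℕ)]) * h = 1 := by
        refine ⟨(PadicInt.isUnit_iff.2 ?_).unit⁻¹.val,
          IsUnit.mul_val_inv (a := (2 : ℤ_[(p : ℕ)])) _⟩
        exact_mod_cast R.norm_two
      refine ⟨((a : ℤ_[(p : ℕ)]) + (b : ℤ_[(p : ℕ)]) * R.s) * h * z p, ?_, ?_⟩
      · show _ = R.split.comp ((o : EisField) ⊗ₜ z)
        rw [SplitPlace.comp_tmul]
        have e1 := congrArg R.ι hab
        simp only [map_mul, map_add, map_intCast, map_ofNat, ι_sqrt] at e1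
        have e2 := congrArg (fun t : ℤ_[(p : ℕ)] => (t : ℚ_[(p : ℕ)])) hh
        simp only [PadicInt.coe_mul, PadicInt.coe_one] at e2
        rw [show ((2 : ℤ_[(p : ℕ)]) : ℚ_[(p : ℕ)]) = 2 from rfl] at e2
        push_cast
        show _ = R.ι (o : EisField) * (z p : ℚ_[(p : ℕ)])
        linear_combination (-(h : ℚ_[(p : ℕ)]) * (z p : ℚ_[(p : ℕ)])) * e1 +
          (R.ι (o : EisField) * (z p : ℚ_[(p : ℕ)])) * e2
      · show e * ((o : EisField) ⊗ₜ z) = _
        have hz : ((o : EisField) ⊗ₜ[ℤ] z : FinAdele EisField) =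
            finIncl EisField (o : EisField) * QuadFrame.zhatIncl (K := EisField) z := by
          show _ = ((o : EisField) ⊗ₜ[ℤ] (1 : Zhat)) * ((1 : EisField) ⊗ₜ[ℤ] z)
          rw [Algebra.TensorProduct.tmul_mul_tmul, mul_one, one_mul]
        have h2o : (2 : FinAdele EisField) * finIncl EisField (o : EisField) =
            (a : FinAdele EisField) + (b : FinAdele EisField) * finIncl EisField Asai.eisSqrt := by
          have := congrArg (finIncl EisField) hab
          simpa [map_ofNat] using this
        have hh' : (2 : FinAdele EisField) *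
            QuadFrame.zhatIncl (K := EisField) (Pi.single p h : Zhat) = primeIdem p := by
          rw [primeIdem, ← map_ofNat (QuadFrame.zhatIncl (K := EisField)) 2, ← map_mul]
          congr 1
          funext q
          rcases eq_or_ne q p with rfl | hq
          · simp only [Pi.mul_apply, Pi.single_eq_same]
            exact hh
          · simp [Pi.single_eq_of_ne hq]
        have hsplit : (Pi.single p (((a : ℤ_[(p : ℕ)]) + (b : ℤ_[(p : ℕ)]) * R.s) * h * z p) : Zhat) =
            ((a : Zhat) + (b : Zhat) * Pi.single p R.s) * Pi.single p h * z := by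
          funext q
          rcases eq_or_ne q p with rfl | hq
          · simp
          · simp [Pi.single_eq_of_ne hq]
        rw [hz, hsplit, map_mul, map_mul, map_add, map_mul, map_intCast, map_intCast]
        linear_combination
          (-(e * finIncl EisField (o : EisField) * QuadFrame.zhatIncl (K := EisField) z)) * hE +
          (-(e * finIncl EisField (o : EisField) * QuadFrame.zhatIncl (K := EisField) z)) * hh' +
          (e * QuadFrame.zhatIncl (K := EisField) (Pi.single p h : Zhat) *
            QuadFrame.zhatIncl (K := EisField) z) * h2o +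
          ((b : FinAdele EisField) * QuadFrame.zhatIncl (K := EisField) (Pi.single p h : Zhat) *
            QuadFrame.zhatIncl (K := EisField) z) * hd -
          (finIncl EisField (o : EisField) * QuadFrame.zhatIncl (K := EisField) z *
            (1 - primeIdem p)) * hee
    | add u v hu hv =>
      obtain ⟨c, hc, hcu⟩ := hu
      obtain ⟨c', hc', hcv⟩ := hv
      refine ⟨c + c', by
        rw [PadicInt.coe_add, hc, hc']
        exact ((congrArg R.split.comp (map_add _ u v)).trans (map_add R.split.comp _ _)).symm, ?_⟩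
      rw [map_add, mul_add, hcu, hcv, Pi.single_add, map_add, mul_add]
  obtain ⟨c, hc, hcy⟩ := key x hx
  rw [hcy]
  congr 3
  exact Subtype.ext hc

theorem idem_mul_mem {x : FinAdele EisField} (hx : ‖R.split.comp x‖ ≤ 1) :
    R.split.idem * x ∈ integralAdele EisField := by
  obtain ⟨N, hN, hNx⟩ := Reduction.exists_natCast_mul_mem x
  set c : ℤ_[(p : ℕ)] := ⟨R.split.comp x, hx⟩
  have h := R.idem_mul_integral hNx
  have hc : (⟨R.split.comp ((N : FinAdele EisField) * x), R.norm_comp_le hNx⟩ : ℤ_[(p : ℕ)]) =
      (N : ℤ_[(p : ℕ)]) * c := Subtype.ext (by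
    show R.split.comp _ = _
    rw [map_mul, map_natCast]
    push_cast
    rfl)
  have hs : (Pi.single p ((N : ℤ_[(p : ℕ)]) * c) : Zhat) = (N : Zhat) * Pi.single p c := by
    funext q
    rcases eq_or_ne q p with rfl | hq
    · simp
    · simp [Pi.single_eq_of_ne hq]
  rw [hc, hs, map_mul, map_natCast] at h
  have heq : R.split.idem * x =
      R.split.idem * QuadFrame.zhatIncl (K := EisField) (Pi.single p c : Zhat) :=
    (Places.isUnit_natCast N hN).mul_left_cancel (by linear_combination h)
  rw [heq]
  refine mul_mem ?_ (zhatIncl_mem _)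
  rw [SplitPlace.idem]
  refine add_mem (tmul_mem_integralAdele eisSqrtInt _) ?_
  obtain ⟨hf, hhf⟩ : ∃ h : ℤ_[(p : ℕ)], (2 : ℤ_[(p : ℕ)]) * h = 1 := by
    refine ⟨(PadicInt.isUnit_iff.2 ?_).unit⁻¹.val,
      IsUnit.mul_val_inv (a := (2 : ℤ_[(p : ℕ)])) _⟩
    exact_mod_cast R.norm_two
  rw [show ((1 / 2 : EisField) ⊗ₜ[ℤ] (Pi.single R.split.p 1 : Zhat) : FinAdele EisField) =
    (1 : EisField) ⊗ₜ[ℤ] (Pi.single p hf : Zhat) from by
      show (1 / 2 : EisField) ⊗ₜ[ℤ] (Pi.single p 1 : Zhat) = _
      rw [show (1 : EisField) = (2 : ℤ) • (1 / 2 : EisField) by norm_num,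
        TensorProduct.smul_tmul, ← Pi.single_smul, zsmul_eq_mul]
      congr 2
      · norm_num
      · exact hhf.symm]
  exact zhatIncl_mem _

theorem primeIdem_mul_mem {x : FinAdele EisField} (hx : ‖R.split.comp x‖ ≤ 1)
    (hx' : ‖R.split.comp (adConj x)‖ ≤ 1) : primeIdem p * x ∈ integralAdele EisField := by
  have h := adConj_mem (R.idem_mul_mem hx')
  rw [map_mul, adConj_adConj] at h
  rw [← R.idem_add_conj, add_mul]
  exact add_mem (R.idem_mul_mem hx) h

/-- The part away from `p`. -/
def awayPart (p : Nat.Primes) (Y : Matrix (Fin 2) (Fin 2) (FinAdele EisField)) :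
    Matrix (Fin 2) (Fin 2) (FinAdele EisField) :=
  (1 - primeIdem p) • Y + primeIdem p • stdForm (FinAdele EisField)

theorem adConj_primeIdem : adConj (primeIdem p) = primeIdem p := adConj_zhatIncl _

/-- For `p ∤ L` the class is integrality at the place times a condition on the rest. -/
theorem inClass_iff (hpL : ¬ (p : ℕ) ∣ L) (Y : Matrix (Fin 2) (Fin 2) (FinAdele EisField)) :
    InClass L Y ↔ IsInt (Y.map R.split.comp) ∧
      (adjMat adConj Y = Y ∧ InClass L (awayPart p Y)) := by
  set s : Zhat := Pi.single p 1 with hs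
  have hss : s * s = s := by rw [hs, ← Pi.single_mul, mul_one]
  have hE : primeIdem p = QuadFrame.zhatIncl (K := EisField) s := rfl
  constructor
  · intro h
    refine ⟨fun i j => R.norm_comp_le (h.isHermInt.integral i j), h.isHermInt.herm, ?_⟩
    obtain ⟨w, hw, Z, hZ, rfl⟩ := h
    refine ⟨(1 - s) * w + s, Pi.isUnit_iff.2 fun q => ?_,
      QuadFrame.zhatIncl (K := EisField) (1 - s) • Z, hZ.zsmul _, ?_⟩
    · rcases eq_or_ne q p with rfl | hq
      · simp [hs]
      · simpa [hs, Pi.single_eq_of_ne hq] using Pi.isUnit_iff.1 hw q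
    · rw [awayPart, hE, map_add, map_mul, map_sub, map_one]
      ext i j
      simp only [Matrix.add_apply, Matrix.smul_apply, smul_eq_mul]
      ring
  · rintro ⟨hint, hherm, w, hw, Z, hZ, hY⟩
    obtain ⟨l, hl⟩ : ∃ l : ℤ_[(p : ℕ)], (L : ℤ_[(p : ℕ)]) * l = 1 := by
      refine ⟨(PadicInt.isUnit_iff.2 ?_).unit⁻¹.val,
        IsUnit.mul_val_inv (a := (L : ℤ_[(p : ℕ)])) _⟩
      rw [PadicInt.norm_def, PadicInt.coe_natCast, Padic.norm_natCast_eq_one_iff]
      exact p.2.coprime_iff_not_dvd.2 hpL
    set J := stdForm (FinAdele EisField)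
    have hlz : QuadFrame.zhatIncl (K := EisField) (Pi.single p l : Zhat) *
        (L : FinAdele EisField) = primeIdem p := by
      rw [hE, ← map_natCast (QuadFrame.zhatIncl (K := EisField)) L, ← map_mul]
      congr 1
      funext q
      rcases eq_or_ne q p with rfl | hq
      · simp only [Pi.mul_apply, hs, Pi.single_eq_same]
        rw [mul_comm]
        exact hl
      · simp [hs, Pi.single_eq_of_ne hq]
    have hEY : IsHermInt (primeIdem p • Y) := ⟨by
      rw [adjMat_smul, hherm, adConj_primeIdem], fun i j => by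
      refine R.primeIdem_mul_mem (hint i j) ?_
      rw [show adConj (Y i j) = Y j i from congrFun (congrFun hherm j) i]
      exact hint j i⟩
    have hEJ : IsHermInt (primeIdem p • J) := isHermInt_stdForm.zsmul s
    refine ⟨(1 - s) * w + s, Pi.isUnit_iff.2 fun q => ?_,
      QuadFrame.zhatIncl (K := EisField) (1 - s) • Z +
        QuadFrame.zhatIncl (K := EisField) (Pi.single p l : Zhat) •
          (primeIdem p • Y + (-1 : FinAdele EisField) • (primeIdem p • J)),
      (hZ.zsmul _).add ((hEY.add (hEJ.smul (by simp) (by simp [one_mem]))).zsmul _), ?_⟩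
    · rcases eq_or_ne q p with rfl | hq
      · simp [hs]
      · simpa [hs, Pi.single_eq_of_ne hq] using Pi.isUnit_iff.1 hw q
    · rw [awayPart] at hY
      rw [map_add, map_mul, map_sub, map_one, ← hE]
      ext i j
      have h := congrFun (congrFun hY i) j
      have hEE := primeIdem_mul_self (p := p)
      simp only [Matrix.add_apply, Matrix.smul_apply, smul_eq_mul] at h ⊢
      linear_combination (1 - primeIdem p) * h - primeIdem p * (Y i j - J i j) * hlz
        + (J i j - Y i j) * hEE - (Y i j - J i j) * hEE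

theorem inClass_awayPart_atPlace (M : Matrix (Fin 2) (Fin 2) EisField)
    (Y : Matrix (Fin 2) (Fin 2) (FinAdele EisField)) :
    awayPart p (hermAct adConj (R.split.atPlace M) Y) = awayPart p Y := by
  set g := R.split.atPlace M
  have h0 : (1 - primeIdem p) * R.split.idem = 0 := by
    rw [sub_mul, one_mul, R.primeIdem_mul_idem, sub_self]
  have h1 : (1 - primeIdem p) • g = (1 - primeIdem p) • (1 : Matrix (Fin 2) (Fin 2) _) := by
    show (1 - primeIdem p) • (1 + R.split.idem • (M.map (finIncl EisField) - 1)) = _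
    ext i j
    simp only [Matrix.add_apply, Matrix.smul_apply, Matrix.sub_apply, smul_eq_mul]
    linear_combination (M.map (finIncl EisField) i j -
      (1 : Matrix (Fin 2) (Fin 2) (FinAdele EisField)) i j) * h0
  have hc : adConj (1 - primeIdem p) = 1 - primeIdem p := by
    rw [map_sub, map_one, adConj_primeIdem]
  have h2 : (1 - primeIdem p) • adjMat adConj g =
      (1 - primeIdem p) • (1 : Matrix (Fin 2) (Fin 2) _) := by
    have := congrArg (adjMat adConj) h1
    rwa [adjMat_smul, adjMat_smul, adjMat_one, hc] at this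
  rw [awayPart, awayPart, hermAct_eq]
  congr 1
  exact smul_mul_mul_eq h1 h2 Y

theorem adjMat_hermAct_iff (i : Option (ZMod (p : ℕ)))
    (Y : Matrix (Fin 2) (Fin 2) (FinAdele EisField)) :
    adjMat adConj (hermAct adConj (R.split.atPlace (R.split.repK i)⁻¹) Y) =
        hermAct adConj (R.split.atPlace (R.split.repK i)⁻¹) Y ↔ adjMat adConj Y = Y := by
  rw [adjMat_hermAct _ adConj_adConj]
  refine ⟨fun h => ?_, fun h => by rw [h]⟩
  have h' := congrArg (hermAct adConj (R.split.atPlace (R.split.repK i))) h
  have hu : IsUnit (R.split.repK i).det :=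
    (Matrix.isUnit_iff_isUnit_det _).mp (ThetaWeight.isUnit_repK R.split i)
  rwa [← hermAct_mul, ← hermAct_mul, ← map_mul, Matrix.mul_nonsing_inv _ hu, map_one, hermAct_one,
    hermAct_one] at h'

/-- **The weight at a split prime.** -/
theorem isSplitFor_stdWeight (hL : 0 < L) (hpL : ¬ (p : ℕ) ∣ L) :
    (stdWeight L hL).IsSplitFor R.split 1 where
  σ_eq := rfl
  norm_det := eisFrame.norm_det_eq R.split L hL
  exists_part := by
    refine ⟨fun Y => if adjMat adConj Y = Y ∧ InClass L (awayPart p Y) then 1 else 0,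
      fun Y => ?_, fun i Y => ?_, fun Y => ?_⟩
    · rw [stdWeight_Φ, stdPhi]
      by_cases h : IsInt (Y.map R.split.comp)
      · rw [if_pos h]
        exact if_congr (by rw [R.inClass_iff hpL, and_iff_right h]) rfl rfl
      · rw [if_neg h, if_neg fun h' => h ((R.inClass_iff hpL Y).1 h').1]
    · refine if_congr (and_congr (R.adjMat_hermAct_iff i Y) ?_) rfl rfl
      show InClass L (awayPart p (hermAct adConj (R.split.atPlace (R.split.repK i)⁻¹) Y)) ↔ _
      rw [R.inClass_awayPart_atPlace]
    · rw [one_mul]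
      set c := finIncl EisField (((p : ℕ) : EisField))⁻¹ with hc
      have hpc : (((p : ℕ)) : FinAdele EisField) * c = 1 := by
        rw [hc, ← map_natCast (finIncl EisField), ← map_mul,
          mul_inv_cancel₀ (Nat.cast_ne_zero.2 p.2.ne_zero), map_one]
      have hcc : adConj c = c := by rw [hc, adConj_finIncl, map_inv₀, map_natCast]
      refine if_congr (and_congr ?_ ?_) rfl rfl
      · show adjMat adConj Y = Y ↔ adjMat adConj (c • Y) = c • Y
        rw [adjMat_smul, hcc]
        refine ⟨fun h => by rw [h], fun h => ?_⟩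
        have := congrArg (fun Z => (((p : ℕ)) : FinAdele EisField) • Z) h
        simpa [smul_smul, hpc] using this
      · have hu : ∀ q : Nat.Primes, ∃ u : ℤ_[(q : ℕ)], IsUnit u ∧
            (q ≠ p → (((p : ℕ)) : ℤ_[(q : ℕ)]) * u = 1) ∧ (q = p → u = 1) := fun q => by
          rcases eq_or_ne q p with rfl | hq
          · exact ⟨1, isUnit_one, fun h => absurd rfl h, fun _ => rfl⟩
          · have hq' : IsUnit (((p : ℕ)) : ℤ_[(q : ℕ)]) := by
              rw [PadicInt.isUnit_iff, PadicInt.norm_def, PadicInt.coe_natCast,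
                Padic.norm_natCast_eq_one_iff]
              exact (Nat.coprime_primes q.2 p.2).2 fun hh => hq (Subtype.ext hh)
            exact ⟨hq'.unit⁻¹.val, Units.isUnit _,
              fun _ => IsUnit.mul_val_inv hq', fun h => absurd h hq⟩
        choose u hu1 hu2 hu3 using hu
        set U : Zhat := u
        have hU : IsUnit U := Pi.isUnit_iff.2 hu1
        have hsU : (Pi.single p 1 : Zhat) * U = Pi.single p 1 := by
          funext q
          rcases eq_or_ne q p with rfl | hq
          · simp [U, hu3 _ rfl]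
          · simp [Pi.single_eq_of_ne hq]
        have hpU : (1 - (Pi.single p 1 : Zhat)) * ((((p : ℕ)) : Zhat) * U) =
            1 - (Pi.single p 1 : Zhat) := by
          funext q
          rcases eq_or_ne q p with rfl | hq
          · simp
          · simp [Pi.single_eq_of_ne hq, U, hu2 q hq]
        have hpU' := congrArg (QuadFrame.zhatIncl (K := EisField)) hpU
        have hsU' := congrArg (QuadFrame.zhatIncl (K := EisField)) hsU
        simp only [map_mul, map_sub, map_one, map_natCast] at hpU' hsU'
        show InClass L (awayPart p Y) ↔ InClass L (awayPart p (c • Y))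
        rw [show awayPart p (c • Y) = QuadFrame.zhatIncl (K := EisField) U • awayPart p Y by
          ext i j
          simp only [awayPart, primeIdem, Matrix.add_apply, Matrix.smul_apply, smul_eq_mul]
          linear_combination (-(c * Y i j)) * hpU' - stdForm (FinAdele EisField) i j * hsU' +
            ((1 - QuadFrame.zhatIncl (K := EisField) (Pi.single p 1 : Zhat)) *
              QuadFrame.zhatIncl (K := EisField) U * Y i j) * hpc]
        exact (inClass_zsmul_iff hU).symm

end SplitRoot

end Fermat.Agent.LT.LiftHecke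

end
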