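import Fermat.Agent.LT.LiftHecke.Adjoint
import Fermat.Agent.LT.LiftHecke.Theta
import Mathlib.Analysis.SpecialFunctions.Gaussian.GaussianIntegral
import Mathlib.MeasureTheory.Constructions.BorelSpace.Complex
import Mathlib.MeasureTheory.Measure.Haar.NormedSpace

/-!
# The Hecke relation of the coefficients of the lift

`period f n` is the pairing of an automorphic `φ` with the theta sum over the vectors of norm `n`.
When `period (exp (-a x²)) n = A n ∫ exp (-a x²)`, an eigenfunction `φ` of `T_v` with eigenvalue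
`λ` at a split place over `p` gives `A (p n) + ε A (n / p) = (λ / √p) A n`.
-/

set_option autoImplicit false

noncomputable section

open MeasureTheory Matrix Filter
open scoped Classical
open NumberField (InfinitePlace)

namespace Fermat.Agent.LT.LiftHecke

variable {K : Type*} [Field K] [NumberField K] {Fr : HermFrame K} {U : Level K}
  {C : NormScale Fr U}

/-- The Gaussian test function. -/
def gaussFn (a x : ℝ) : ℝ := Real.exp (-(a * x ^ 2))

theorem gaussFn_div_sqrt (a : ℝ) {p : ℝ} (hp : 0 < p) :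
    (fun x => gaussFn a (x / √p)) = gaussFn (a / p) := by
  funext x
  rw [gaussFn, gaussFn, div_pow, Real.sq_sqrt hp.le]
  ring_nf

theorem gaussFn_sqrt_mul (a : ℝ) {p : ℝ} (hp : 0 < p) :
    (fun x => gaussFn a (√p * x)) = gaussFn (a * p) := by
  funext x
  rw [gaussFn, gaussFn, mul_pow, Real.sq_sqrt hp.le]
  ring_nf

/-- The Gaussian is measurable. -/
theorem measurable_gaussFn (a : ℝ) : Measurable (gaussFn a) := by
  unfold gaussFn; fun_prop

namespace ThetaWeight

variable (W : ThetaWeight Fr C) (w0 : InfinitePlace K)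

/-- The theta sum on `Y`. -/
def seriesY (f : ℝ → ℝ) (n : ℝ) (y : Y U) : ℂ := W.seriesAt f n (y.1 w0) y.2

/-- The theta sum is invariant under `GL₂ K` when `w0` is the place of `Fr.e`. -/
theorem seriesY_isAutomorphic (he : w0.embedding = Fr.e) (f : ℝ → ℝ) (n : ℝ) :
    IsAutomorphic (W.seriesY w0 f n) := by
  intro γ y
  show W.seriesAt f n (glEmb K w0 γ • y.1 w0) (glIncl K γ • y.2) = _
  rw [show glEmb K w0 γ = Matrix.GeneralLinearGroup.map Fr.e γ by rw [glEmb, he]]
  exact W.seriesAt_smul f n γ (y.1 w0) y.2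

/-- There are countably many Hermitian matrices over `K`. -/
theorem countable_herm (Fr : HermFrame K) : Countable Fr.Herm := by
  have : Countable K := (Module.finBasis ℚ K).equivFun.injective.countable
  have : Countable (Matrix (Fin 2) (Fin 2) K) := inferInstanceAs (Countable (Fin 2 → Fin 2 → K))
  exact inferInstanceAs (Countable {X : Matrix (Fin 2) (Fin 2) K // (X.map Fr.σ)ᵀ = X})

/-- The theta sum is a measurable function on `Y`. -/
theorem measurable_seriesY {f : ℝ → ℝ} (hf : Measurable f) (n : ℝ)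
    (_hs : ∀ P g, Summable (W.term f n P g)) : Measurable (W.seriesY w0 f n) := by
  have := countable_herm Fr
  refine measurable_from_prod_countable_left fun b => ?_
  refine QuotientGroup.induction_on b fun g => ?_
  show Measurable fun P : InfinitePlace K → H3 => W.series f n (P w0) g
  refine (Measurable.tsum fun X => ?_ : Measurable fun P => ∑' X, W.term f n P g X).comp
    (measurable_pi_apply w0)
  unfold term
  by_cases hX : Lift.nForm (Fr.normVec (C.c g) X) = n
  · simp only [if_pos hX]
    exact (Complex.measurable_ofReal.comp (hf.comp (Lift.continuous_mTrace _).measurable)).mul_const _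
  · simp only [if_neg hX]
    exact measurable_const

/-- The pairing of `φ` with the theta sum. -/
def period (π : PartitionOfUnity U) (φ : Y U → ℂ) (f : ℝ → ℝ) (n : ℝ) : ℂ :=
  quotIntegral π fun y => φ y * W.seriesY w0 f n y

/-- The analytic input at a norm `n`, for all Gaussian tests. -/
structure IsCoefficient (π : PartitionOfUnity U) (φ : Y U → ℂ) (n : ℝ) (A : ℂ) : Prop where
  summable : ∀ a, 0 < a → ∀ P g, Summable (W.term (gaussFn a) n P g)
  integrable : ∀ a, 0 < a →
    Integrable (fun y => π.weight y • W.seriesY w0 (gaussFn a) n y) (yVol U)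
  eq : ∀ a, 0 < a → W.period w0 π φ (gaussFn a) n = A * (√(Real.pi / a) : ℝ)

variable {w0}

/-- **The Hecke relation of the coefficients.** -/
theorem coefficient_relation (he : w0.embedding = Fr.e) {v : SplitPlace K} {ε : ℂ}
    (hv : W.IsSplitFor v ε) (hc : ∀ i, C.c (nbr v i) = (v.p : ℕ)) {h : HeckeFn U}
    (hsymm : ∀ a b, h.kernel a b = h.kernel b a)
    (hop : ∀ (u : Y U → ℂ) (P : InfinitePlace K → H3) (g : GLFin K),
      h.op u (P, QuotientGroup.mk g) = ∑ i, u (P, QuotientGroup.mk (g * nbr v i)))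
    {π : PartitionOfUnity U} (hπ : Measurable π.weight) {φ : Y U → ℂ} (hφm : Measurable φ)
    (hφ : IsAutomorphic φ) (hb : ∃ B, ∀ y, ‖φ y‖ ≤ B) {lam : ℂ} (heig : h.IsEigen φ lam)
    {A : ℕ → ℂ} (hA : ∀ m : ℕ, 0 < m → W.IsCoefficient w0 π φ m (A m)) {n : ℕ} (hn : 0 < n) :
    A ((v.p : ℕ) * n) + ε * (if (v.p : ℕ) ∣ n then A (n / (v.p : ℕ)) else 0) =
      lam / (√((v.p : ℕ) : ℝ) : ℝ) * A n := by
  obtain ⟨B, hB⟩ := hb
  set q : ℕ := (v.p : ℕ) with hq
  have hqpos : 0 < q := v.p.2.pos
  have hqR : (0 : ℝ) < (q : ℝ) := Nat.cast_pos.2 hqpos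
  have h1 := hA n hn
  have h2 := hA (q * n) (Nat.mul_pos hqpos hn)
  set f := gaussFn 1
  set f₁ := gaussFn (1 / (q : ℝ)) with hf₁
  set f₂ := gaussFn (1 * (q : ℝ)) with hf₂
  have ha₁ : (0 : ℝ) < 1 / q := div_pos one_pos hqR
  have ha₂ : (0 : ℝ) < 1 * q := mul_pos one_pos hqR
  -- the part at `n / p`
  set A' : ℂ := if q ∣ n then A (n / q) else 0
  have h3 : (∀ P g, Summable (W.term f₂ ((n : ℝ) / q) P g)) ∧
      Integrable (fun y => π.weight y • W.seriesY w0 f₂ ((n : ℝ) / q) y) (yVol U) ∧
      W.period w0 π φ f₂ ((n : ℝ) / q) = A' * (√(Real.pi / (1 * q)) : ℝ) := by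
    by_cases hd : q ∣ n
    · obtain ⟨m, rfl⟩ := hd
      have hm : 0 < m := Nat.pos_of_mul_pos_left hn
      have hmr : (((q * m : ℕ)) : ℝ) / q = (m : ℝ) := by
        push_cast; field_simp
      rw [hmr]
      have hA' : A' = A m := by simp [A', Nat.mul_div_cancel_left _ hqpos]
      rw [hA']
      exact ⟨(hA m hm).summable _ ha₂, (hA m hm).integrable _ ha₂, (hA m hm).eq _ ha₂⟩
    · have hnorm : 1 < ‖((((n : ℚ) / q : ℚ)) : ℚ_[q])‖ := by
        rw [Rat.cast_div, Rat.cast_natCast, Rat.cast_natCast, norm_div, Padic.norm_p,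
          show ‖(n : ℚ_[q])‖ = 1 from Padic.norm_natCast_eq_one_iff.2
            (v.p.2.coprime_iff_not_dvd.2 hd), one_div, inv_inv]
        exact_mod_cast v.p.2.one_lt
      have hcast : ((n : ℝ) / q) = (((n : ℚ) / q : ℚ) : ℝ) := by push_cast; rfl
      have hterm : ∀ P g X, W.term f₂ ((n : ℝ) / q) P g X = 0 := by
        intro P g X
        rw [term]
        split_ifs with hX
        · obtain ⟨Φ', hΦ, -, -⟩ := hv.exists_part
          rw [hΦ, if_neg, mul_zero]
          intro hint
          refine (not_le.mpr hnorm) ?_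
          rw [← W.norm_det_arg hv g X (hX.trans hcast), Matrix.det_fin_two, sub_eq_add_neg]
          refine (Padic.nonarchimedean _ _).trans (max_le ?_ ?_) <;>
            simp only [norm_neg, norm_mul] <;>
              exact mul_le_one₀ (hint _ _) (norm_nonneg _) (hint _ _)
        · rfl
      have hz : ∀ y, W.seriesY w0 f₂ ((n : ℝ) / q) y = 0 := fun y => by
        rw [seriesY]
        refine QuotientGroup.induction_on y.2 fun g => ?_
        rw [seriesAt_mk, series]
        simp [hterm]
      refine ⟨fun P g => ?_, ?_, ?_⟩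
      · rw [show W.term f₂ ((n : ℝ) / q) P g = fun _ => 0 from funext (hterm P g)]
        exact summable_zero
      · simp [hz]
      · simp [period, quotIntegral, hz, A', hd]
  obtain ⟨hs3, hi3, he3⟩ := h3
  have hs1 := h1.summable 1 one_pos
  have hs2 : ∀ P g, Summable (W.term f₁ ((q : ℝ) * n) P g) := fun P g => by
    simpa only [Nat.cast_mul] using h2.summable _ ha₁ P g
  have hi2 : Integrable (fun y => π.weight y • W.seriesY w0 f₁ ((q : ℝ) * n) y) (yVol U) := by
    simpa only [Nat.cast_mul] using h2.integrable _ ha₁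
  have he2 : W.period w0 π φ f₁ ((q : ℝ) * n) = A (q * n) * (√(Real.pi / (1 / q)) : ℝ) := by
    simpa only [Nat.cast_mul] using h2.eq _ ha₁
  have he1 := h1.eq 1 one_pos
  -- the pointwise relation
  have hpt : ∀ y : Y U, h.op (W.seriesY w0 f (n : ℝ)) y =
      W.seriesY w0 f₁ ((q : ℝ) * n) y + (q : ℂ) * ε * W.seriesY w0 f₂ ((n : ℝ) / q) y := by
    rintro ⟨P, b⟩
    refine QuotientGroup.induction_on b fun g => ?_
    rw [hop]
    simp only [seriesY, seriesAt_mk]
    have key := W.sum_series_nbr hv hc f (n : ℤ) (P w0) g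
    simp only [f, Int.cast_natCast, gaussFn_div_sqrt 1 hqR, gaussFn_sqrt_mul 1 hqR, ← hq] at key
    exact key (fun i => hs1 _ _) (hs2 _ _) (hs3 _ _)
  have hadj := quotIntegral_op_symm π hπ h hsymm hφm
    (W.measurable_seriesY w0 (measurable_gaussFn 1) (n : ℝ) hs1) hφ
    (W.seriesY_isAutomorphic w0 he _ _) hB (h1.integrable 1 one_pos)
  have hmul : ∀ {u : Y U → ℂ}, Integrable (fun y => π.weight y • u y) (yVol U) →
      Integrable (fun y => φ y * (π.weight y • u y)) (yVol U) := fun hu =>
    hu.bdd_mul hφm.aestronglyMeasurable (Eventually.of_forall hB)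
  have hrhs : quotIntegral π (fun y => h.op φ y * W.seriesY w0 f (n : ℝ) y) =
      lam * W.period w0 π φ f (n : ℝ) := by
    rw [period, quotIntegral, quotIntegral, ← integral_const_mul]
    refine integral_congr_ae (Eventually.of_forall fun y => ?_)
    simp only [heig y, Complex.real_smul]
    ring
  have hlhs : quotIntegral π (fun y => φ y * h.op (W.seriesY w0 f (n : ℝ)) y) =
      W.period w0 π φ f₁ ((q : ℝ) * n) + (q : ℂ) * ε * W.period w0 π φ f₂ ((n : ℝ) / q) := by
    simp only [period, quotIntegral, hpt]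
    rw [← integral_const_mul, ← integral_add]
    · refine integral_congr_ae (Eventually.of_forall fun y => ?_)
      simp only [Complex.real_smul]
      ring
    · refine (hmul hi2).congr (Eventually.of_forall fun y => ?_)
      simp only [Complex.real_smul]; ring
    · refine ((hmul hi3).const_mul ((q : ℂ) * ε)).congr (Eventually.of_forall fun y => ?_)
      simp only [Complex.real_smul]; ring
  rw [hlhs, hrhs, he2, he3, he1] at hadj
  -- the rescalings
  have hs : √(Real.pi / (1 / q)) = √Real.pi * √(q : ℝ) := by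
    rw [one_div, div_inv_eq_mul, Real.sqrt_mul Real.pi_pos.le]
  have hs' : √(Real.pi / (1 * q)) = √Real.pi / √(q : ℝ) := by
    rw [one_mul, Real.sqrt_div Real.pi_pos.le]
  rw [hs, hs', div_one] at hadj
  have hπ0 : ((√Real.pi : ℝ) : ℂ) ≠ 0 := by
    exact_mod_cast (Real.sqrt_pos.2 Real.pi_pos).ne'
  have hq0 : ((√(q : ℝ) : ℝ) : ℂ) ≠ 0 := by
    exact_mod_cast (Real.sqrt_pos.2 hqR).ne'
  have hsq : ((√(q : ℝ) : ℝ) : ℂ) * ((√(q : ℝ) : ℝ) : ℂ) = (q : ℂ) := by
    rw [← Complex.ofReal_mul, Real.mul_self_sqrt hqR.le]; norm_num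
  push_cast at hadj
  field_simp at hadj
  rw [eq_comm, div_mul_eq_mul_div, div_eq_iff hq0]
  refine mul_right_cancel₀ hq0 ?_
  linear_combination -hadj - ε * A' * hsq

end ThetaWeight

end Fermat.Agent.LT.LiftHecke

end
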