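import Fermat.Agent.LT.LiftHecke.EisInt
import Fermat.Agent.LT.Places.HeckeSetup
import Mathlib.GroupTheory.Perm.Cycle.Type
import Mathlib.NumberTheory.Padics.Hensel

/-!
# The split places of `ℚ(ζ₃)` and the Hecke operator there

A prime `p ≡ 1 mod 3` with a root `s` of `s² = -3` in `ℤ_p` gives a place of norm `p`. Its idempotent
is the one of `SplitPlace`, the matrices `repK` are coset representatives of the Hecke operator, and
the scale of a neighbour is `p`.
-/

set_option autoImplicit false

noncomputable section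

open Matrix NumberField WithZero IsDedekindDomain Fermat.Agent.LT.Places
open scoped TensorProduct Classical

namespace Fermat.Agent.LT.LiftHecke

open Asai (eisZeta eisZeta_sq eisSqrt eisSqrt_sq)

namespace QuadFrame

variable {K : Type*} [Field K] [NumberField K] (Q : QuadFrame K)

/-- At a split place the norm at `p` is the product of the two embeddings. -/
theorem normAt_eq_comp (v : SplitPlace K) (x : FinAdele K) :
    Q.normAt v.p x = v.comp x * v.comp (finMap Q.σ x) := by
  set V : Matrix (Fin 2) (Fin 2) ℚ_[(v.p : ℕ)] :=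
    !![v.ι (Q.basis 0), v.ι (Q.basis 1); v.ι (Q.σ (Q.basis 0)), v.ι (Q.σ (Q.basis 1))] with hV
  have hdet : V.det ≠ 0 := by
    rw [hV, Matrix.det_fin_two_of, ← map_mul, ← map_mul, ← map_sub]
    exact (map_ne_zero _).2 Q.discr_ne_zero
  have key : ∀ y, V * Q.qcomp v.p y = !![v.comp y, 0; 0, v.comp (finMap Q.σ y)] * V := fun y => by
    induction y using TensorProduct.induction_on with
    | zero =>
      ext i j
      fin_cases i <;> fin_cases j <;> simp [Matrix.mul_apply, Fin.sum_univ_two]
    | tmul a z =>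
      rw [qcomp_tmul, finMap_tmul, v.comp_tmul, v.comp_tmul]
      ext i j
      have h0 := congrArg v.ι (Q.sum_regular a j)
      have h1 := congrArg (fun t => v.ι (Q.σ t)) (Q.sum_regular a j)
      simp only [map_mul, Fin.sum_univ_two, map_add, Rat.smul_def, map_ratCast] at h0 h1
      fin_cases i <;> fin_cases j <;>
        simp [hV, Matrix.mul_apply, Fin.sum_univ_two] at h0 h1 ⊢ <;>
        first
          | linear_combination -((z v.p : ℤ_[(v.p : ℕ)]) : ℚ_[(v.p : ℕ)]) * h0
          | linear_combination -((z v.p : ℤ_[(v.p : ℕ)]) : ℚ_[(v.p : ℕ)]) * h1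
    | add a b ha hb =>
      rw [map_add, map_add, map_add, map_add, mul_add, ha, hb, ← add_mul]
      congr 1
      ext i j
      fin_cases i <;> fin_cases j <;> simp
  have h := congrArg Matrix.det (key x)
  rw [Matrix.det_mul, Matrix.det_mul, mul_comm] at h
  rw [normAt_apply, mul_right_cancel₀ hdet h, Matrix.det_fin_two_of, mul_zero, sub_zero]

/-- At a split place the scale has the absolute value of `det g * σ (det g)`. -/
theorem norm_det_eq (v : SplitPlace K) (N : ℕ) (hN : 0 < N) (g : GLFin K) :
    ‖v.comp (g.val.det * finMap Q.σ g.val.det)‖ =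
      ‖(((Q.principalScale N hN).c g : ℚ) : ℚ_[(v.p : ℕ)])‖ := by
  rw [scale_apply, Q.norm_idNorm, Q.normAt_eq_comp v, map_mul]
  rfl

/-- An idele with the norms of a positive integer at every prime has it as scale. -/
theorem idNorm_eq_natCast {x : (FinAdele K)ˣ} {n : ℕ} (hn : n ≠ 0)
    (h : ∀ q : Nat.Primes, ‖Q.normAt q (x : FinAdele K)‖ = ‖(n : ℚ_[(q : ℕ)])‖) :
    Q.idNorm x = n := by
  rw [← finprod_padicValNat n hn]
  refine finprod_congr fun q => ?_
  congr 1
  have h1 := h q
  rw [Padic.norm_eq_zpow_neg_valuation (Q.normAt_units_ne_zero q x),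
    Padic.norm_eq_zpow_neg_valuation (Nat.cast_ne_zero.2 hn), Padic.valuation_natCast] at h1
  have h2 := zpow_right_injective₀ (Nat.cast_pos.2 q.2.pos)
    (Nat.cast_ne_one.2 q.2.ne_one) h1
  omega

end QuadFrame

/-- A square root of `-3` in `ℤ_p`, `p ≠ 2, 3`. -/
structure SplitRoot (p : Nat.Primes) where
  /-- The root. -/
  s : ℤ_[(p : ℕ)]
  sq : s * s = -3
  ne_two : (p : ℕ) ≠ 2
  ne_three : (p : ℕ) ≠ 3

/-- Hensel's lemma gives a square root of `-3` in `ℤ_p` for `p ≡ 1 mod 3`. -/
theorem exists_splitRoot (p : Nat.Primes) (hp : (p : ℕ) % 3 = 1) : Nonempty (SplitRoot p) := by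
  have h2 : (p : ℕ) ≠ 2 := fun h => by omega
  have h3 : (p : ℕ) ≠ 3 := fun h => by omega
  have : Fact (Nat.Prime 3) := ⟨Nat.prime_three⟩
  obtain ⟨z, hz⟩ := exists_prime_orderOf_dvd_card (G := (ZMod (p : ℕ))ˣ) 3
    (by rw [ZMod.card_units]; have := p.2.two_le; omega)
  have hz3 : (z : ZMod (p : ℕ)) ^ 3 = 1 := by
    rw [← Units.val_pow_eq_pow_val, ← hz, pow_orderOf_eq_one, Units.val_one]
  have hz1 : (z : ZMod (p : ℕ)) - 1 ≠ 0 := sub_ne_zero.2 fun h => by
    rw [Units.val_eq_one] at h
    rw [h, orderOf_one] at hz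
    omega
  have hq : (z : ZMod (p : ℕ)) ^ 2 + z + 1 = 0 :=
    (mul_eq_zero.1 (show ((z : ZMod (p : ℕ)) - 1) * (z ^ 2 + z + 1) = 0 by
      linear_combination hz3)).resolve_left hz1
  set r : ZMod (p : ℕ) := 2 * (z : ZMod (p : ℕ)) + 1 with hr
  have hr2 : r * r = -3 := by rw [hr]; linear_combination 4 * hq
  set a : ℤ_[(p : ℕ)] := (r.val : ℤ_[(p : ℕ)]) with ha
  have hta : PadicInt.toZMod a = r := by rw [ha, map_natCast, ZMod.natCast_zmod_val]
  have h1 : ‖a * a + 3‖ < 1 := by
    rw [PadicInt.norm_def, norm_lt_one_iff, map_add, map_mul, hta, map_ofNat, hr2]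
    ring
  have h2' : ‖2 * a‖ = 1 := by
    refine le_antisymm (PadicInt.norm_le_one _) (not_lt.1 ?_)
    rw [PadicInt.norm_def, norm_lt_one_iff, map_mul, hta, map_ofNat]
    intro h0
    have h6 : (((12 : ℕ)) : ZMod (p : ℕ)) = 0 := by
      push_cast
      linear_combination 4 * hr2 - 2 * r * h0
    rw [ZMod.natCast_eq_zero_iff] at h6
    rcases p.2.dvd_mul.1 (show (p : ℕ) ∣ 3 * (2 * 2) from h6) with h | h
    · exact h3 ((Nat.prime_dvd_prime_iff_eq p.2 Nat.prime_three).1 h)
    · rcases p.2.dvd_mul.1 h with h | h <;>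
        exact h2 ((Nat.prime_dvd_prime_iff_eq p.2 Nat.prime_two).1 h)
  obtain ⟨s, hs, -⟩ := hensels_lemma (p := (p : ℕ))
    (F := (Polynomial.X ^ 2 + 3 : Polynomial ℤ_[(p : ℕ)])) (a := a) (by
      simp only [Polynomial.derivative_X_pow, Polynomial.derivative_ofNat, add_zero, map_add,
        map_pow, Polynomial.aeval_X, map_ofNat, map_mul, Polynomial.aeval_C]
      norm_num
      rw [← norm_mul, h2', one_pow, pow_two]
      exact h1)
  refine ⟨⟨s, ?_, h2, h3⟩⟩
  simp only [map_add, map_pow, Polynomial.aeval_X, map_ofNat] at hs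
  linear_combination hs

namespace SplitRoot

variable {p : Nat.Primes} (R : SplitRoot p)

include R in
/-- `2` is a unit at `p`. -/
theorem norm_two : ‖((2 : ℕ) : ℤ_[(p : ℕ)])‖ = 1 := by
  have := R.ne_two
  rw [PadicInt.norm_def, PadicInt.coe_natCast, Padic.norm_natCast_eq_one_iff]
  exact (Nat.coprime_primes p.2 Nat.prime_two).2 R.ne_two

theorem norm_s : ‖R.s‖ = 1 := by
  have h3 : ‖((3 : ℕ) : ℤ_[(p : ℕ)])‖ = 1 := by
    rw [PadicInt.norm_def, PadicInt.coe_natCast, Padic.norm_natCast_eq_one_iff]
    exact (Nat.coprime_primes p.2 Nat.prime_three).2 R.ne_three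
  have h := congrArg norm R.sq
  rw [norm_mul, norm_neg] at h
  push_cast at h3
  rw [h3] at h
  nlinarith [norm_nonneg R.s]

/-- `(2 s)⁻¹`. -/
def a : ℤ_[(p : ℕ)] := ↑(PadicInt.mkUnits (u := ((2 * R.s : ℤ_[(p : ℕ)]) : ℚ_[(p : ℕ)])) (by
  rw [← PadicInt.norm_def, norm_mul, R.norm_s, mul_one]
  exact_mod_cast R.norm_two))⁻¹

/-- `a` is the inverse of `2 s`. -/
theorem a_mul : R.a * (2 * R.s) = 1 := by
  unfold a
  convert Units.inv_mul _ using 2
  exact Subtype.ext rfl

theorem root_eq : (((R.s : ℚ_[(p : ℕ)]) - 1) / 2) ^ 2 + (((R.s : ℚ_[(p : ℕ)]) - 1) / 2) + 1 = 0 := by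
  have h : (R.s : ℚ_[(p : ℕ)]) * R.s = -3 := by
    rw [← PadicInt.coe_mul, R.sq, PadicInt.coe_neg]; rfl
  linear_combination h / 4

/-- The embedding of `EisField`. -/
def ι : EisField →+* ℚ_[(p : ℕ)] := eisLift (((R.s : ℚ_[(p : ℕ)]) - 1) / 2) R.root_eq

/-- The embedding sends `√-3` to `s`. -/
theorem ι_sqrt : R.ι eisSqrt = (R.s : ℚ_[(p : ℕ)]) := by
  rw [ι, eisSqrt, map_add, map_mul, map_ofNat, map_one, eisLift_zeta]
  ring

/-- The embedding sends integers to `ℤ_p`. -/
theorem norm_ι_le (o : 𝓞 EisField) : ‖R.ι (o : EisField)‖ ≤ 1 := by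
  obtain ⟨a, b, h⟩ := exists_two_mul_eq o
  have h2 : ‖(2 : ℚ_[(p : ℕ)])‖ = 1 := by
    have := R.norm_two
    rw [PadicInt.norm_def, PadicInt.coe_natCast] at this
    exact_mod_cast this
  have e := congrArg (fun x => ‖R.ι x‖) h
  simp only [map_add, map_mul, map_ofNat, map_intCast, ι_sqrt, norm_mul, h2, one_mul] at e
  rw [e]
  refine (Padic.nonarchimedean _ _).trans (max_le (Padic.norm_int_le_one a) ?_)
  rw [norm_mul]
  exact mul_le_one₀ (Padic.norm_int_le_one b) (norm_nonneg _) (PadicInt.norm_le_one _)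

/-- The reduction. -/
def red : 𝓞 EisField →+* ZMod (p : ℕ) :=
  PadicInt.toZMod.comp ((R.ι.comp (algebraMap (𝓞 EisField) EisField)).codRestrict
    (PadicInt.subring (p : ℕ)) fun o => R.norm_ι_le o)

theorem red_sqrt : R.red eisSqrtInt = PadicInt.toZMod R.s :=
  congrArg PadicInt.toZMod (Subtype.ext R.ι_sqrt)

theorem red_eq_zero_iff (o : 𝓞 EisField) : R.red o = 0 ↔ ‖R.ι (o : EisField)‖ < 1 :=
  (norm_lt_one_iff _).symm

theorem red_surjective : Function.Surjective R.red := fun x =>
  ⟨(x.val : 𝓞 EisField), by rw [map_natCast, ZMod.natCast_zmod_val]⟩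

/-- The place. -/
def place : FinPlace EisField where
  asIdeal := RingHom.ker R.red
  isPrime := RingHom.ker_isPrime _
  ne_bot h := Nat.cast_ne_zero.2 p.2.ne_zero
    ((Submodule.eq_bot_iff _).1 h ((p : ℕ) : 𝓞 EisField) (by simp [RingHom.mem_ker]))

theorem natCast_mem_place : ((p : ℕ) : 𝓞 EisField) ∈ R.place.asIdeal := by
  simp [place, RingHom.mem_ker]

theorem resPrime_place : resPrime R.place = p := (eq_resPrime R.natCast_mem_place).symm

/-- The place has norm `p`. -/
theorem absNorm_place : Ideal.absNorm R.place.asIdeal = (p : ℕ) := by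
  rw [Ideal.absNorm_apply, Submodule.cardQuot_apply]
  exact (Nat.card_congr (RingHom.quotientKerEquivOfSurjective R.red_surjective).toEquiv).trans
    (Nat.card_zmod _)

/-- Integers prime to `p` are units at the place. -/
theorem notMem_place {n : ℕ} (hn : ¬ (p : ℕ) ∣ n) : (n : 𝓞 EisField) ∉ R.place.asIdeal := by
  simpa [place, RingHom.mem_ker, ZMod.natCast_eq_zero_iff] using hn

/-- The natural lift of the residue of `√-3`. -/
def t : ℕ := (PadicInt.toZMod R.s).val

theorem sub_t_mem_place : eisSqrtInt - (R.t : 𝓞 EisField) ∈ R.place.asIdeal := by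
  show R.red _ = 0
  rw [map_sub, red_sqrt, map_natCast, t, ZMod.natCast_zmod_val, sub_self]

theorem place_le {w : FinPlace EisField} (hw : ((p : ℕ) : 𝓞 EisField) ∈ w.asIdeal)
    (ht : eisSqrtInt - (R.t : 𝓞 EisField) ∈ w.asIdeal) : R.place = w := by
  refine HeightOneSpectrum.ext (R.place.isMaximal.eq_of_le w.isPrime.ne_top fun o ho => ?_)
  obtain ⟨a, b, hab⟩ := exists_two_mul_eq o
  have hab' : 2 * o = (a : 𝓞 EisField) + (b : 𝓞 EisField) * eisSqrtInt := by
    apply RingOfIntegers.ext
    simp only [map_mul, map_add, map_intCast, map_ofNat, coe_eisSqrtInt]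
    exact hab
  have h0 : (((a + b * (R.t : ℤ)) : ℤ) : ZMod (p : ℕ)) = 0 := by
    have := congrArg R.red hab'
    rw [map_mul, show R.red o = 0 from ho, mul_zero] at this
    rw [this]
    rw [map_add, map_mul, map_intCast, map_intCast, red_sqrt, t]
    push_cast
    rw [ZMod.natCast_zmod_val]
  rw [ZMod.intCast_zmod_eq_zero_iff_dvd] at h0
  obtain ⟨k, hk⟩ := h0
  have h1 : 2 * o ∈ w.asIdeal := by
    rw [hab', show (a : 𝓞 EisField) + (b : 𝓞 EisField) * eisSqrtInt =
      ((a + b * (R.t : ℤ) : ℤ) : 𝓞 EisField) + (b : 𝓞 EisField) * (eisSqrtInt - (R.t : 𝓞 EisField))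
      by push_cast; ring, hk]
    push_cast
    exact add_mem (Ideal.mul_mem_right _ _ hw) (Ideal.mul_mem_left _ _ ht)
  refine (w.isPrime.mem_or_mem h1).resolve_left fun h2 => R.ne_two ?_
  have h2' : (((⟨2, Nat.prime_two⟩ : Nat.Primes) : ℕ) : 𝓞 EisField) ∈ w.asIdeal := by
    simpa using h2
  exact congrArg Subtype.val ((eq_resPrime hw).trans (eq_resPrime h2').symm)

/-- The split place. -/
def split : SplitPlace EisField where
  p := p
  ι := R.ι
  σ := eisConj
  d := eisSqrt
  D := -3
  a := R.a
  d_sq := by rw [← pow_two, eisSqrt_sq]; norm_num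
  σ_d := eisConj_sqrt
  two_ne := two_ne_zero
  a_spec := by
    rw [R.ι_sqrt]
    have := congrArg (fun x : ℤ_[(p : ℕ)] => (x : ℚ_[(p : ℕ)])) R.a_mul
    rw [PadicInt.coe_mul, PadicInt.coe_mul, PadicInt.coe_one] at this
    exact this

theorem valued_padic_lt_one {w : FinPlace EisField} (z : ℤ_[(resPrime w : ℕ)])
    (hz : ‖z‖ < 1) : Valued.v (padicToPlace w (z : ℚ_[(resPrime w : ℕ)])) < 1 := by
  rw [← PadicInt.mem_nonunits, ← IsLocalRing.mem_maximalIdeal, PadicInt.maximalIdeal_eq_span_p,
    Ideal.mem_span_singleton] at hz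
  obtain ⟨y, rfl⟩ := hz
  rw [PadicInt.coe_mul, map_mul, PadicInt.coe_natCast, map_natCast, map_mul, valued_natCast]
  refine mul_lt_one_of_nonneg_of_lt_one_left zero_le ?_ (valued_padicToPlace_le_one w y)
  rw [← map_natCast (algebraMap (𝓞 EisField) EisField), HeightOneSpectrum.valuation_lt_one_iff_mem]
  exact natCast_mem w

theorem toPlace_idem_split (w : FinPlace EisField) :
    toPlace w R.split.idem = if w = R.place then 1 else 0 := by
  have hval : toPlace w R.split.idem =
      algebraMap EisField (w.adicCompletion EisField) eisSqrt *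
        padicToPlace w (((Pi.single p R.a : Zhat) (resPrime w) : ℤ_[(resPrime w : ℕ)]) :
          ℚ_[(resPrime w : ℕ)]) +
      algebraMap EisField (w.adicCompletion EisField) (1 / 2) *
        padicToPlace w (((Pi.single p 1 : Zhat) (resPrime w) : ℤ_[(resPrime w : ℕ)]) :
          ℚ_[(resPrime w : ℕ)]) := by
    rw [SplitPlace.idem, map_add]
    rfl
  by_cases hp : resPrime w = p
  swap
  · rw [hval, if_neg fun h => hp (by rw [h, R.resPrime_place]), Pi.single_eq_of_ne hp,
      Pi.single_eq_of_ne hp]
    simp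
  subst hp
  rw [hval, Pi.single_eq_same, Pi.single_eq_same, PadicInt.coe_one, map_one, mul_one]
  set d := algebraMap EisField (w.adicCompletion EisField) eisSqrt
  set A := padicToPlace w (R.a : ℚ_[(resPrime w : ℕ)])
  have : CharZero (w.adicCompletion EisField) :=
    charZero_of_injective_algebraMap (algebraMap EisField _).injective
  have hd : d * d = -3 := by
    rw [← map_mul, ← pow_two, eisSqrt_sq, map_neg, map_ofNat]
  have hsq : (2 * d * A) * (2 * d * A) = 1 := by
    have e1 := congrArg (fun x : ℤ_[(resPrime w : ℕ)] => (x : ℚ_[(resPrime w : ℕ)])) R.a_mul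
    have e2 := congrArg (fun x : ℤ_[(resPrime w : ℕ)] => (x : ℚ_[(resPrime w : ℕ)])) R.sq
    simp only [PadicInt.coe_mul, PadicInt.coe_one, PadicInt.coe_neg] at e1 e2
    have e : (-3 : ℚ_[(resPrime w : ℕ)]) *
        (4 * ((R.a : ℚ_[(resPrime w : ℕ)]) * (R.a : ℚ_[(resPrime w : ℕ)]))) = 1 := by
      rw [show ((2 : ℤ_[(resPrime w : ℕ)]) : ℚ_[(resPrime w : ℕ)]) = 2 from rfl] at e1
      rw [show ((3 : ℤ_[(resPrime w : ℕ)]) : ℚ_[(resPrime w : ℕ)]) = 3 from rfl] at e2
      linear_combination (-(4 * ((R.a : ℚ_[(resPrime w : ℕ)]) * (R.a : ℚ_[(resPrime w : ℕ)])))) * e2 +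
        ((R.a : ℚ_[(resPrime w : ℕ)]) * (2 * (R.s : ℚ_[(resPrime w : ℕ)])) + 1) * e1
    have h := congrArg (padicToPlace w) e
    rw [map_mul, map_mul, map_mul, map_neg, map_ofNat, map_ofNat, map_one] at h
    linear_combination h + 4 * A * A * hd
  -- `2 A t` is one modulo the place
  have ht : Valued.v (2 * (R.t : w.adicCompletion EisField) * A - 1) < 1 := by
    have h := valued_padic_lt_one (w := w) (2 * (R.t : ℤ_[(resPrime w : ℕ)]) * R.a - 1) (by
      rw [PadicInt.norm_def, norm_lt_one_iff, map_sub, map_mul, map_mul, map_natCast, map_one,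
        map_ofNat, t, ZMod.natCast_zmod_val, ← map_ofNat PadicInt.toZMod, ← map_mul, ← map_mul,
        show 2 * R.s * R.a = 1 by rw [mul_comm, R.a_mul], map_one, sub_self])
    rwa [PadicInt.coe_sub, PadicInt.coe_mul, PadicInt.coe_mul, PadicInt.coe_natCast,
      PadicInt.coe_one, map_sub, map_mul, map_mul, map_natCast, map_one,
      show ((2 : ℤ_[(resPrime w : ℕ)]) : ℚ_[(resPrime w : ℕ)]) = 2 from rfl, map_ofNat] at h
  have hA : Valued.v A ≤ 1 := valued_padicToPlace_le_one w _
  have hA2 : Valued.v (2 * A) ≤ 1 := by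
    rw [map_mul]
    refine mul_le_one₀ ?_ zero_le hA
    rw [show (2 : w.adicCompletion EisField) = ((2 : ℕ) : w.adicCompletion EisField) by norm_num,
      valued_natCast]
    exact valuation_natCast_le_one w 2
  have hdt : Valued.v (d - (R.t : w.adicCompletion EisField)) < 1 ↔
      eisSqrtInt - (R.t : 𝓞 EisField) ∈ w.asIdeal := by
    have e : algebraMap EisField (w.adicCompletion EisField)
        (((eisSqrtInt - (R.t : 𝓞 EisField) : 𝓞 EisField)) : EisField) =
        d - (R.t : w.adicCompletion EisField) := by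
      simp [d]
    rw [← valued_algebraMap_lt_one, e]
  rcases mul_self_eq_one_iff.1 hsq with h1 | h1
  · -- the place itself
    have hdtm : Valued.v (d - (R.t : w.adicCompletion EisField)) < 1 := by
      have e : 2 * (R.t : w.adicCompletion EisField) * A *
          (d - (R.t : w.adicCompletion EisField)) = (R.t : w.adicCompletion EisField) *
            (-(2 * (R.t : w.adicCompletion EisField) * A - 1)) := by
        linear_combination (R.t : w.adicCompletion EisField) * h1
      have hu : Valued.v (2 * (R.t : w.adicCompletion EisField) * A) = 1 := by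
        simpa using Valuation.map_one_add_of_lt (v := (Valued.v : Valuation (w.adicCompletion EisField) _)) ht
      have := congrArg Valued.v e
      rw [map_mul, hu, one_mul, map_mul, Valuation.map_neg] at this
      rw [this]
      refine mul_lt_one_of_nonneg_of_lt_one_right ?_ zero_le ht
      rw [valued_natCast]
      exact valuation_natCast_le_one w _
    rw [if_pos (R.place_le (natCast_mem w) (hdt.1 hdtm)).symm, map_div₀, map_one, map_ofNat]
    field_simp
    linear_combination h1
  · rw [if_neg, map_div₀, map_one, map_ofNat]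
    · field_simp
      linear_combination h1
    intro hw
    have hm : eisSqrtInt - (R.t : 𝓞 EisField) ∈ w.asIdeal :=
      (le_of_eq (congrArg HeightOneSpectrum.asIdeal hw).symm) R.sub_t_mem_place
    have h2 : Valued.v ((2 : ℕ) : w.adicCompletion EisField) < 1 := by
      have e : ((2 : ℕ) : w.adicCompletion EisField) =
          -(2 * A * (d - (R.t : w.adicCompletion EisField)) +
            (2 * (R.t : w.adicCompletion EisField) * A - 1)) := by
        push_cast
        linear_combination h1
      rw [e, Valuation.map_neg]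
      refine lt_of_le_of_lt (Valued.v.map_add _ _) (max_lt ?_ ht)
      rw [map_mul]
      exact mul_lt_one_of_nonneg_of_lt_one_right hA2 zero_le (hdt.2 hm)
    rw [valued_natCast, ← map_natCast (algebraMap (𝓞 EisField) EisField),
      HeightOneSpectrum.valuation_lt_one_iff_mem] at h2
    exact R.ne_two (congrArg Subtype.val (eq_resPrime (p := ⟨2, Nat.prime_two⟩) h2).symm)

theorem idem_split : R.split.idem = Places.idem R.place := ext_toPlace fun w => by
  rw [toPlace_idem_split]
  split_ifs with h
  · rw [h, toPlace_idem_same]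
  · rw [toPlace_idem_ne h]

theorem valued_p : Valued.v (((p : ℕ)) : R.place.adicCompletion EisField) = exp (-1 : ℤ) := by
  rw [valued_natCast]
  have hlt : R.place.valuation EisField (((p : ℕ)) : EisField) < 1 := by
    rw [← map_natCast (algebraMap (𝓞 EisField) EisField), HeightOneSpectrum.valuation_lt_one_iff_mem]
    exact R.natCast_mem_place
  have hne := valuation_natCast_ne_zero R.place p.2.pos
  have hnot : ¬ R.place.valuation EisField (((p : ℕ)) : EisField) ≤ exp (-((2 : ℕ) : ℤ)) := by
    rw [← map_natCast (algebraMap (𝓞 EisField) EisField), HeightOneSpectrum.valuation_of_algebraMap,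
      HeightOneSpectrum.intValuation_le_pow_iff_mem]
    intro h
    have key : ∀ x ∈ R.place.asIdeal ^ 2, ‖R.ι (x : EisField)‖ ≤ ((p : ℕ) : ℝ)⁻¹ ^ 2 := by
      have h1 : ∀ y ∈ R.place.asIdeal, ‖R.ι (y : EisField)‖ ≤ ((p : ℕ) : ℝ)⁻¹ := fun y hy => by
        have hy' : ‖R.ι (y : EisField)‖ < 1 := (R.red_eq_zero_iff y).1 hy
        have := (Padic.norm_lt_pow_iff_norm_le_pow_sub_one (p := (p : ℕ)) (R.ι (y : EisField)) 0).1
          (by simpa using hy')
        simpa using this
      intro x hx
      rw [pow_two] at hx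
      refine Submodule.mul_induction_on hx (fun y hy z hz => ?_) fun y z hy hz => ?_
      · show ‖R.ι ((y : EisField) * z)‖ ≤ _
        rw [map_mul, norm_mul, pow_two]
        exact mul_le_mul (h1 y hy) (h1 z hz) (norm_nonneg _) (by positivity)
      · show ‖R.ι ((y : EisField) + z)‖ ≤ _
        rw [map_add]
        exact (Padic.nonarchimedean _ _).trans (max_le hy hz)
    have := key _ h
    replace this : (((p : ℕ) : ℝ))⁻¹ ≤ ((p : ℕ) : ℝ)⁻¹ ^ 2 := by simpa using this
    have h1 : (1 : ℝ) < ((p : ℕ) : ℝ) := by exact_mod_cast p.2.one_lt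
    have h0 : (0 : ℝ) < ((p : ℕ) : ℝ)⁻¹ := by positivity
    nlinarith [inv_lt_one_of_one_lt₀ h1]
  rw [← exp_log hne] at hlt hnot ⊢
  rw [exp_le_exp] at hnot
  rw [← exp_zero, exp_lt_exp] at hlt
  congr 1
  omega

/-- The matrix in the completion. -/
def repV (i : Option (ZMod (p : ℕ))) : GL (Fin 2) (R.place.adicCompletion EisField) :=
  Matrix.GeneralLinearGroup.map (algebraMap EisField (R.place.adicCompletion EisField))
    (ThetaWeight.isUnit_repK R.split i).unit

theorem nbr_eq (i : Option (ZMod (p : ℕ))) :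
    ThetaWeight.nbr R.split i = localGL R.place (R.repV i) := by
  set M := R.split.repK i
  have hM : ∀ a b, (ThetaWeight.nbr R.split i).val a b =
      (1 : Matrix (Fin 2) (Fin 2) (FinAdele EisField)) a b +
      Places.idem R.place * (finIncl EisField (M a b) -
        (1 : Matrix (Fin 2) (Fin 2) (FinAdele EisField)) a b) := fun a b => by
    rw [← R.idem_split]; rfl
  refine gl_ext fun w => Units.ext (Matrix.ext fun a b => ?_)
  rw [glPlace_apply, hM, map_add, map_mul, map_sub, toPlace_finIncl]
  have h1 : toPlace w ((1 : Matrix (Fin 2) (Fin 2) (FinAdele EisField)) a b) =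
      (1 : Matrix (Fin 2) (Fin 2) (w.adicCompletion EisField)) a b := by
    rw [Matrix.one_apply, Matrix.one_apply]
    split_ifs <;> simp
  rw [h1]
  rcases eq_or_ne w R.place with rfl | hw
  · rw [glPlace_localGL_same, toPlace_idem_same, one_mul, add_sub_cancel]
    rfl
  · rw [glPlace_localGL_ne hw, toPlace_idem_ne hw, zero_mul, add_zero]
    rfl

/-- The indices of the cosets. -/
def idxEquiv : Option (ZMod (p : ℕ)) ≃ Option (Residue R.place) :=
  (RingHom.quotientKerEquivOfSurjective R.red_surjective).toEquiv.symm.optionCongr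

theorem rep_inv_mul_mem (i : Option (ZMod (p : ℕ))) :
    (rep R.place (R.idxEquiv i))⁻¹ * R.repV i ∈ intGroup R.place := by
  have hp := R.valued_p
  have hπ := valued_piLocal R.place
  set π := (piLocal R.place : R.place.adicCompletion EisField) with hπdef
  have hπ0 : π ≠ 0 := Units.ne_zero _
  have hpπ : Valued.v ((((p : ℕ)) : R.place.adicCompletion EisField) / π) = 1 := by
    rw [map_div₀, hp, hπ, div_self (by simp)]
  cases i with
  | none =>
    have e : ((rep R.place (R.idxEquiv none))⁻¹ * R.repV none).val =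
        !![1, 0; 0, (((p : ℕ)) : R.place.adicCompletion EisField) / π] := by
      show (!![(0 : R.place.adicCompletion EisField), 1; 1, 0] *
          ((piDia R.place)⁻¹.val * !![0, 1; 1, 0])) *
        (R.split.repK none).map (algebraMap EisField (R.place.adicCompletion EisField)) = _
      rw [show (piDia R.place)⁻¹.val = !![π⁻¹, 0; 0, 1] from Matrix.ext fun a b => by
        fin_cases a <;> fin_cases b <;> simp [piDia, dia, π]]
      refine Matrix.ext fun a b => ?_
      fin_cases a <;> fin_cases b <;>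
        simp [SplitPlace.repK, Matrix.mul_apply, Fin.sum_univ_two]
      field_simp
      rfl
    refine mem_intGroup_iff.2 ⟨fun a b => ?_, ?_⟩
    · rw [e]; fin_cases a <;> fin_cases b <;> simp [hpπ]
    · rw [e, Matrix.det_fin_two_of]; simp [hpπ]
  | some j =>
    obtain ⟨r, hr⟩ : ∃ r, R.idxEquiv (some j) = some r := ⟨_, rfl⟩
    have hj : Valued.v ((j.val : R.place.adicCompletion EisField) - resLift R.place r) < 1 := by
      rw [resLift, ← map_natCast (algebraMap EisField (R.place.adicCompletion EisField)),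
        ← map_sub, ← map_natCast (algebraMap (𝓞 EisField) EisField), ← map_sub,
        valued_algebraMap_lt_one, ← Ideal.Quotient.eq, Ideal.Quotient.mk_out]
      have hr' := Option.some_injective _ hr
      rw [← hr']
      apply (RingHom.quotientKerEquivOfSurjective R.red_surjective).injective
      refine Eq.trans ?_ (RingEquiv.apply_symm_apply _ j).symm
      show R.red (j.val : 𝓞 EisField) = j
      rw [map_natCast, ZMod.natCast_zmod_val]
    have hjπ : Valued.v (((j.val : R.place.adicCompletion EisField) - resLift R.place r) / π) ≤ 1 := by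
      rw [div_eq_inv_mul]; exact valued_piLocal_inv_mul R.place hj
    have e : ((rep R.place (R.idxEquiv (some j)))⁻¹ * R.repV (some j)).val =
        !![(((p : ℕ)) : R.place.adicCompletion EisField) / π,
          ((j.val : R.place.adicCompletion EisField) - resLift R.place r) / π; 0, 1] := by
      rw [hr]
      show ((piDia R.place)⁻¹.val * !![1, -resLift R.place r; 0, 1]) *
        (R.split.repK (some j)).map (algebraMap EisField (R.place.adicCompletion EisField)) = _
      rw [show (piDia R.place)⁻¹.val = !![π⁻¹, 0; 0, 1] from Matrix.ext fun a b => by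
        fin_cases a <;> fin_cases b <;> simp [piDia, dia, π]]
      refine Matrix.ext fun a b => ?_
      fin_cases a <;> fin_cases b <;>
        simp [SplitPlace.repK, Matrix.mul_apply, Fin.sum_univ_two, -ZMod.natCast_val, split]
      field_simp
      ring
    refine mem_intGroup_iff.2 ⟨fun a b => ?_, ?_⟩
    · rw [e]; fin_cases a <;> fin_cases b <;> simp [hpπ, hjπ, -map_div₀, -ZMod.natCast_val]
    · rw [e, Matrix.det_fin_two_of]; simp [hpπ]

/-- The Hecke operator at the place is the sum over the `p + 1` neighbours. -/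
theorem heckeAt_op_eq {U : Level EisField} (hU : IsGoodAt U R.place) (u : Y U → ℂ)
    (P : InfinitePlace EisField → H3) (g : GLFin EisField) :
    (heckeAt U R.place hU).op u (P, QuotientGroup.mk g) =
      ∑ i, u (P, QuotientGroup.mk (g * ThetaWeight.nbr R.split i)) := by
  let : Fintype (Residue R.place) := Fintype.ofFinite _
  rw [heckeAt_op hU, ← R.idxEquiv.sum_comp]
  refine Finset.sum_congr rfl fun i _ => ?_
  have hk := hU _ (R.rep_inv_mul_mem i)
  rw [map_mul, map_inv, ← R.nbr_eq] at hk
  congr 2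
  refine QuotientGroup.eq.2 ?_
  simpa [mul_assoc] using hk

/-- The scale of a neighbour is `p`. -/
theorem c_nbr (N : ℕ) (hN : 0 < N) (i : Option (ZMod (p : ℕ))) :
    (eisFrame.principalScale N hN).c (ThetaWeight.nbr R.split i) = (p : ℕ) := by
  set e := R.split.idem with he
  set x : (FinAdele EisField)ˣ := QuadFrame.detUnit (ThetaWeight.nbr R.split i) with hx
  have hee : e * e = e := R.split.idem_mul_idem
  have hσe : e * finMap eisConj e = 0 := R.split.idem_mul_finMap_idem
  have hσee : finMap eisConj e * finMap eisConj e = finMap eisConj e := by rw [← map_mul, hee]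
  have hdet : (x : FinAdele EisField) = 1 + e * ((((p : ℕ)) : FinAdele EisField) - 1) := by
    have hd : (R.split.repK i).det = ((p : ℕ) : EisField) := R.split.det_repK i
    rw [Matrix.det_fin_two] at hd
    have hd' := congrArg (finIncl EisField) hd
    rw [map_sub, map_mul, map_mul, map_natCast] at hd'
    show (ThetaWeight.nbr R.split i).val.det = _
    rw [show (ThetaWeight.nbr R.split i).val = 1 + e • ((R.split.repK i).map (finIncl EisField) - 1)
      from rfl, Matrix.det_fin_two]
    simp
    linear_combination e * hd' + (finIncl EisField (R.split.repK i 0 0) *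
      finIncl EisField (R.split.repK i 1 1) - finIncl EisField (R.split.repK i 0 1) *
      finIncl EisField (R.split.repK i 1 0) - finIncl EisField (R.split.repK i 0 0) -
      finIncl EisField (R.split.repK i 1 1) + 1) * hee
  have hsum : e + finMap eisConj e = (1 : EisField) ⊗ₜ[ℤ] (Pi.single p 1 : Zhat) := by
    rw [he, SplitPlace.idem, map_add, finMap_tmul, finMap_tmul]
    simp only [split, eisConj_sqrt, map_div₀ eisConj, map_one, map_ofNat, TensorProduct.neg_tmul]
    rw [add_add_add_comm, add_neg_cancel, zero_add, ← TensorProduct.add_tmul]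
    norm_num
    rfl
  set z : Zhat := 1 + Pi.single p 1 * ((((p : ℕ)) : Zhat) - 1) with hz
  have hxx : (x : FinAdele EisField) * finMap eisConj (x : FinAdele EisField) =
      QuadFrame.zhatIncl z := by
    rw [hdet, map_add, map_one, map_mul, map_sub, map_natCast, map_one, hz, map_add, map_mul,
      map_sub, map_natCast, map_one]
    rw [show QuadFrame.zhatIncl (K := EisField) (Pi.single p 1 : Zhat) = e + finMap eisConj e from
      hsum.symm]
    linear_combination (((p : ℕ) : FinAdele EisField) - 1) ^ 2 * hσe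
  refine eisFrame.idNorm_eq_natCast p.2.ne_zero fun q => ?_
  have h := congrArg (fun y => ‖eisFrame.normAt q y‖) hxx
  have hz2 : eisFrame.normAt q (QuadFrame.zhatIncl z) = (z q : ℚ_[(q : ℕ)]) ^ 2 := by
    rw [QuadFrame.normAt_apply, show QuadFrame.zhatIncl (K := EisField) z = (1 : EisField) ⊗ₜ[ℤ] z
      from rfl, QuadFrame.qcomp_tmul, map_one]
    simp [pow_two]
  simp only [map_mul, norm_mul] at h
  rw [show eisConj = eisFrame.σ from rfl, eisFrame.normAt_finMap, hz2, norm_pow, ← pow_two] at h
  rw [(pow_left_inj₀ (norm_nonneg _) (norm_nonneg _) two_ne_zero).1 h, hz]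
  rcases eq_or_ne q p with rfl | hq
  · simp
  · rw [Pi.add_apply, Pi.mul_apply, Pi.single_eq_of_ne hq, zero_mul, add_zero, Pi.one_apply,
      PadicInt.coe_one, norm_one, eq_comm, Padic.norm_natCast_eq_one_iff]
    exact (Nat.coprime_primes q.2 p.2).2 fun hh => hq (Subtype.ext hh)

end SplitRoot

end Fermat.Agent.LT.LiftHecke

end
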