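import Mathlib.FieldTheory.Finiteness
import Mathlib.NumberTheory.DirichletCharacter.Basic
import Mathlib.NumberTheory.LegendreSymbol.QuadraticChar.Basic
import Fermat.Prelude.Thm_ModularForm_sturm_bound_of_isArithmetic
import Fermat.Prelude.Thm_CuspFormClass_isZeroAt_heckeU
import Fermat.Prelude.Thm_CuspFormClass_isZeroAt_heckeT
import Fermat.Agent.HeckeLift.Basic
import Fermat.Agent.WeightOne.Hecke1
import Fermat.Agent.LT.Final.Data
import Fermat.Agent.LT.Final.Eigensystem

/-!
# An eigenform from Hecke relations at a set of primes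

A weight one form with character `χ₋₃` and `a₁ ≠ 0` which satisfies the relations of `T_p` with
eigenvalues `a p` for `p` in a set `P` spans, after removal of the coefficients at the bad primes,
a space stable under all good Hecke operators; a common eigenvector keeps the eigenvalues on `P`.
-/

set_option autoImplicit false

noncomputable section

open CongruenceSubgroup Matrix.SpecialLinearGroup EisensteinWeightOne UpperHalfPlane ModularFormClass
open ModularForm (heckeMatrix heckeDiagMatrix heckeU heckeT)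
open Fermat.Agent.CuspIntStr
open Fermat.Agent.HeckeLattice (Idx rep toGL)
open Fermat.Agent.LT.Final
open Fermat.Agent.WeightOne (repCorner rep_one_zero eq_of_qCoeff1_eq qCoeff1_add qCoeff1_smul
  one_mem_strictPeriods_Gamma1)
open scoped MatrixGroups ModularForm OnePoint

namespace Fermat.Agent.LT.LiftHecke

variable {M : ℕ} [NeZero M]

theorem chiInt_mul (a b : ℤ) : chiInt (a * b) = chiInt a * chiInt b := by
  have key : ∀ x y : ZMod 3,
      chiNegThree (x * y).val = chiNegThree x.val * chiNegThree y.val := by decide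
  rw [chiInt, chiInt, chiInt, Int.cast_mul, key]

omit [NeZero M] in
theorem chiInt_congr_of_dvd (h3 : 3 ∣ M) {a b : ℤ} (h : (a : ZMod M) = (b : ZMod M)) :
    chiInt a = chiInt b := by
  refine chiInt_congr ?_
  have := congrArg (ZMod.castHom h3 (ZMod 3)) h
  rwa [map_intCast, map_intCast] at this

/-- The sequence of `T_p f` for a form with character `χ₋₃`. -/
def chiHeckeSeq (p : ℕ) (a : ℕ → ℂ) (n : ℕ) : ℂ :=
  a (p * n) + (chiNegThree p : ℂ) * (if p ∣ n then a (n / p) else 0)

omit [NeZero M] in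
/-- The lower right entries when a representative passes an element of `Γ₀(M)`. -/
theorem corner_relation {p : ℕ} [hp : Fact p.Prime] {δ g : SL(2, ℤ)} (hg : g ∈ Gamma0 M)
    {x y : Idx p} (h : rep p x * mapGL ℝ δ = mapGL ℝ g * rep p y) :
    (repCorner p x : ZMod M) * ((δ 1 1 : ℤ) : ZMod M) =
      ((g 1 1 : ℤ) : ZMod M) * (repCorner p y : ZMod M) := by
  obtain ⟨hx0, hx1, -⟩ := rep_one_zero hp.out.ne_zero x
  obtain ⟨-, hy1, e, he⟩ := rep_one_zero hp.out.ne_zero y
  have h11 := congrArg (fun A : GL (Fin 2) ℝ => (A : Matrix (Fin 2) (Fin 2) ℝ) 1 1) h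
  simp only [Units.val_mul, Matrix.mul_apply, Fin.sum_univ_two, mapGL_coe_matrix, map_apply_coe,
    RingHom.mapMatrix_apply, Matrix.map_apply, algebraMap_int_eq, eq_intCast, hx0, hx1, hy1,
    he] at h11
  have hZ : (repCorner p x : ℤ) * δ 1 1 = g 1 0 * e + g 1 1 * (repCorner p y : ℤ) := by
    have : ((((repCorner p x : ℤ) * δ 1 1 : ℤ)) : ℝ) =
        ((g 1 0 * e + g 1 1 * (repCorner p y : ℤ) : ℤ) : ℝ) := by
      push_cast; linarith
    exact_mod_cast this
  have := congrArg (Int.cast : ℤ → ZMod M) hZ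
  push_cast at this
  rwa [Gamma0_mem.mp hg, zero_mul, zero_add] at this

/-- The function `T_p f` for a form with character `χ₋₃`. -/
def chiHeckeFun (p : ℕ) (f : ℍ → ℂ) : ℍ → ℂ :=
  heckeU 1 p f + (chiNegThree p : ℂ) • (heckeT 1 p f - heckeU 1 p f)

variable {p : ℕ} [hp : Fact p.Prime]

/-- The weight of a representative. -/
def repWeight (p : ℕ) (x : Idx p) : ℤ := chiInt p * chiInt (repCorner p x)

omit [NeZero M] in
theorem chiInt_sq_of_not_dvd (h3 : 3 ∣ M) (hpM : ¬ p ∣ M) : chiInt p * chiInt p = 1 := by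
  rw [chiInt_natCast]
  refine chiNegThree_sq fun h => hpM ?_
  rw [← (Nat.prime_dvd_prime_iff_eq Nat.prime_three hp.out).mp h]
  exact h3

omit [NeZero M] in
theorem repCorner_sq (h3 : 3 ∣ M) (hpM : ¬ p ∣ M) (x : Idx p) :
    chiInt (repCorner p x) * chiInt (repCorner p x) = 1 := by
  cases x using OnePoint.rec with
  | infty => rfl
  | coe j =>
    show chiInt (p : ℤ) * chiInt (p : ℤ) = 1
    exact chiInt_sq_of_not_dvd h3 hpM

omit [NeZero M] in
theorem chiHeckeFun_eq_sum (h3 : 3 ∣ M) (hpM : ¬ p ∣ M) (f : ℍ → ℂ) :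
    chiHeckeFun p f = ∑ x : Idx p, (repWeight p x : ℂ) • (f ∣[(1 : ℤ)] rep p x) := by
  have hsum : ∀ F : Idx p → ℍ → ℂ, ∑ x, F x = F ∞ + ∑ j : ZMod p, F (j : Idx p) := fun F =>
    Fintype.sum_option F
  have hinf : (repWeight p (∞ : Idx p) : ℂ) = (chiNegThree p : ℂ) := by
    rw [repWeight, chiInt_natCast, show repCorner p (∞ : Idx p) = 1 from rfl,
      show chiInt ((1 : ℕ) : ℤ) = 1 from rfl, mul_one]
  have hco : ∀ j : ZMod p, (repWeight p (j : Idx p) : ℂ) = 1 := fun j => by
    rw [repWeight, show repCorner p (j : Idx p) = p from rfl, chiInt_sq_of_not_dvd h3 hpM,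
      Int.cast_one]
  rw [hsum, hinf, chiHeckeFun, ModularForm.heckeT_eq_heckeU_add, add_sub_cancel_left, add_comm]
  congr 1
  simp only [hco, one_smul]
  rw [heckeU, Finset.sum_range]
  exact (Equiv.sum_comp (ZMod.finEquiv p).toEquiv
    (fun j : ZMod p => f ∣[(1 : ℤ)] heckeMatrix p j.val)).symm.trans
      (Finset.sum_congr rfl fun i _ => by cases p with
        | zero => exact absurd hp.out Nat.not_prime_zero
        | succ n => rfl) |>.symm

omit [NeZero M] in
/-- `T_p` preserves the invariance with character `χ₋₃` under `Γ₀(M)`. -/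
theorem isChiInvariant_chiHeckeFun (h3 : 3 ∣ M) (hpM : ¬ p ∣ M) {f : ℍ → ℂ}
    (hf : IsChiInvariant M f) : IsChiInvariant M (chiHeckeFun p f) := by
  intro δ hδ
  choose q hq using fun x : Idx p => HeckeLattice.exists_rep_mul hpM ⟨δ, hδ⟩ x
  have hq' : ∀ x : Idx p,
      rep p x * mapGL ℝ δ = mapGL ℝ ((q x).2 : SL(2, ℤ)) * rep p (q x).1 := hq
  have hinj : Function.Injective fun x => (q x).1 := by
    intro x y h
    have hx := hq' x
    have hy := hq' y
    simp only at h
    rw [h] at hx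
    refine HeckeLattice.eq_of_mapGL_mul_rep
      ((((q y).2 : SL(2, ℤ))) * ((q x).2 : SL(2, ℤ))⁻¹) ?_
    refine mul_right_cancel (b := mapGL ℝ δ) ?_
    rw [mul_assoc, hx, map_mul, map_inv, mul_assoc, inv_mul_cancel_left, hy]
  have hterm : ∀ x : Idx p,
      ((repWeight p x : ℂ) • (f ∣[(1 : ℤ)] rep p x)) ∣[(1 : ℤ)] δ =
        (chiInt (δ 1 1) : ℂ) •
          ((repWeight p (q x).1 : ℂ) • (f ∣[(1 : ℤ)] rep p (q x).1)) := by
    intro x
    rw [ModularForm.SL_smul_slash]
    change (repWeight p x : ℂ) • ((f ∣[(1 : ℤ)] rep p x) ∣[(1 : ℤ)] (mapGL ℝ δ : GL (Fin 2) ℝ)) = _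
    rw [← SlashAction.slash_mul, hq' x, SlashAction.slash_mul]
    change (repWeight p x : ℂ) • ((f ∣[(1 : ℤ)] ((q x).2 : SL(2, ℤ))) ∣[(1 : ℤ)] rep p (q x).1) = _
    have hσ : σ (rep p (q x).1) = .refl ℝ ℂ := by
      rw [σ, if_pos (KummerES.det_rep_pos' _)]
    rw [hf _ (q x).2.2, ModularForm.smul_slash, hσ, ContinuousAlgEquiv.refl_apply, smul_smul,
      smul_smul]
    congr 1
    have hc : chiInt (repCorner p x) * chiInt (δ 1 1) =
        chiInt (((q x).2 : SL(2, ℤ)) 1 1) * chiInt (repCorner p (q x).1) := by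
      rw [← chiInt_mul, ← chiInt_mul]
      refine chiInt_congr_of_dvd h3 ?_
      push_cast
      exact corner_relation (q x).2.2 (hq' x)
    have h1 := repCorner_sq h3 hpM x
    have h2 := repCorner_sq h3 hpM (q x).1
    have key : repWeight p x * chiInt (((q x).2 : SL(2, ℤ)) 1 1) =
        chiInt (δ 1 1) * repWeight p (q x).1 := by
      simp only [repWeight]
      linear_combination (-(chiInt p * chiInt (repCorner p (q x).1) * chiInt (repCorner p x))) * hc -
        chiInt p * chiInt (repCorner p x) * chiInt (((q x).2 : SL(2, ℤ)) 1 1) * h2 +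
        chiInt p * chiInt (repCorner p (q x).1) * chiInt (δ 1 1) * h1
    exact_mod_cast key
  rw [chiHeckeFun_eq_sum h3 hpM, SlashAction.sum_slash, Finset.smul_sum]
  exact Fintype.sum_equiv (Equiv.ofBijective _ (Finite.injective_iff_bijective.mp hinj)) _ _ hterm

/-- `T_p` on the forms with character `χ₋₃`. -/
theorem exists_chiHecke (h3 : 3 ∣ M) (hpM : ¬ p ∣ M) (f : CuspForm (Gamma1 M) 1)
    (hf : IsChiInvariant M f) :
    ∃ F : CuspForm (Gamma1 M) 1, IsChiInvariant M F ∧
      ∀ n, qCoeff F n = chiHeckeSeq p (qCoeff f) n := by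
  have h1 := one_mem_strictPeriods_Gamma1 M
  obtain ⟨hfp, hfd, hfb⟩ := form_mem_niceAlg h1 f
  let T : niceAlg := ⟨heckeT 1 p ⇑f, ModularForm.periodic_heckeT_comp_ofComplex hfp 1 p,
    ModularForm.mdifferentiable_heckeT hfd 1 p, ModularForm.isBoundedAtImInfty_heckeT hfb 1 p⟩
  let U : niceAlg := ⟨heckeU 1 p ⇑f, ModularForm.periodic_heckeU_comp_ofComplex hfp 1 p,
    ModularForm.mdifferentiable_heckeU hfd 1 p, ModularForm.isBoundedAtImInfty_heckeU hfb 1 p⟩
  let G : niceAlg := U + (chiNegThree p : ℂ) • (T - U)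
  have hinv := isChiInvariant_chiHeckeFun h3 hpM hf
  let F : CuspForm (Gamma1 M) 1 :=
    { toFun := chiHeckeFun p ⇑f
      slash_action_eq' := fun g hg => by
        obtain ⟨γ, hγ, rfl⟩ := Subgroup.mem_map.mp hg
        exact slash_eq_of_mem_Gamma1 hinv h3 hγ
      holo' := G.2.2.1
      zero_at_cusps' := fun {c} hc => by
        have hU := CuspFormClass.isZeroAt_heckeU f p hc
        have hT := CuspFormClass.isZeroAt_heckeT f p hc
        intro g hg
        have hU' := hU g hg
        have hT' := hT g hg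
        rw [chiHeckeFun, SlashAction.add_slash, ModularForm.smul_slash,
          sub_eq_add_neg, SlashAction.add_slash, SlashAction.neg_slash]
        exact hU'.add ((hT'.add hU'.neg).smul _) }
  refine ⟨F, hinv, fun n => ?_⟩
  change ModularFormClass.qCoeff ((G : ℍ → ℂ)) n = _
  change PowerSeries.coeff n (qHom G) = _
  simp only [G, map_add, map_smul, map_sub, smul_eq_mul]
  change qCoeff (heckeU 1 p ⇑f) n +
      (chiNegThree p : ℂ) * (qCoeff (heckeT 1 p ⇑f) n - qCoeff (heckeU 1 p ⇑f) n) = _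
  rw [ModularFormClass.qCoeff_heckeT f h1 hp.out.ne_zero,
    ModularFormClass.qCoeff_heckeU f h1 hp.out.ne_zero,
    ModularForm.coeffHeckeT_eq_coeffHeckeU_add, ModularForm.coeffHeckeU_apply, chiHeckeSeq,
    mul_comm n p]
  simp

/-! ### Finite dimension, commuting operators -/

omit hp

variable (M) in
/-- The forms with character `χ₋₃`. -/
def chiSpace : Submodule ℂ (CuspForm (Gamma1 M) 1) where
  carrier := {f | IsChiInvariant M f}
  add_mem' {f g} hf hg γ hγ := by
    change (⇑f + ⇑g) ∣[(1 : ℤ)] γ = _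
    rw [SlashAction.add_slash, hf γ hγ, hg γ hγ, ← smul_add]
    rfl
  zero_mem' γ _ := by
    change (0 : ℍ → ℂ) ∣[(1 : ℤ)] γ = _
    rw [SlashAction.zero_slash]
    exact (smul_zero _).symm
  smul_mem' c f hf γ hγ := by
    change (c • ⇑f) ∣[(1 : ℤ)] γ = _
    rw [ModularForm.SL_smul_slash, hf γ hγ, smul_comm]
    rfl

variable (M) in
/-- The space of weight one cusp forms on `Γ₁(M)` is finite dimensional, by the Sturm bound. -/
theorem finiteDimensional_gamma1 : FiniteDimensional ℂ (CuspForm (Gamma1 M) 1) := by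
  set B : ℕ := ((1 : ℤ) * ((Gamma1 M : Subgroup (GL (Fin 2) ℝ))).relIndex 𝒮ℒ).toNat / 12
  let L : CuspForm (Gamma1 M) 1 →ₗ[ℂ] (Fin (B + 1) → ℂ) :=
    { toFun := fun f i => qCoeff ⇑f i
      map_add' := fun f g => funext fun i => qCoeff1_add f g i
      map_smul' := fun c f => funext fun i => qCoeff1_smul c f i }
  refine FiniteDimensional.of_injective L ((injective_iff_map_eq_zero L).mpr fun f hf => ?_)
  let F : ModularForm (Gamma1 M : Subgroup (GL (Fin 2) ℝ)) 1 :=
    { toFun := ⇑f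
      slash_action_eq' := SlashInvariantFormClass.slash_action_eq f
      holo' := CuspFormClass.holo f
      bdd_at_cusps' := fun hc g hg => (CuspFormClass.zero_at_cusps f hc g hg).boundedAtFilter }
  have hF : F = 0 := by
    refine ModularForm.sturm_bound_of_isArithmetic (one_mem_strictPeriods_Gamma1 M) ?_
    refine lt_of_lt_of_le (Nat.cast_lt.mpr (Nat.lt_succ_self B))
      (PowerSeries.nat_le_order _ _ fun i hi => ?_)
    have := congrFun hf ⟨i, hi⟩
    exact this
  exact DFunLike.coe_injective (congrArg (fun G : ModularForm _ 1 => (⇑G : ℍ → ℂ)) hF)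

/-- The index set of good primes. -/
abbrev GoodPrime (M : ℕ) : Type := {p : Nat.Primes // ¬ (p : ℕ) ∣ M}

/-- `T_p` as an operator. -/
def chiHeckeOp (h3 : 3 ∣ M) (p : GoodPrime M) : Module.End ℂ (chiSpace M) :=
  haveI := Fact.mk p.1.2
  have spec := fun f : chiSpace M => (exists_chiHecke h3 p.2 (f : CuspForm (Gamma1 M) 1) f.2).choose_spec
  { toFun := fun f => ⟨(exists_chiHecke h3 p.2 (f : CuspForm (Gamma1 M) 1) f.2).choose, (spec f).1⟩
    map_add' := fun f g => Subtype.ext <| eq_of_qCoeff1_eq fun n => by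
      simp only [Submodule.coe_add, qCoeff1_add]
      rw [(spec (f + g)).2, (spec f).2, (spec g).2]
      simp only [chiHeckeSeq, Submodule.coe_add, qCoeff1_add]
      split_ifs <;> ring
    map_smul' := fun c f => Subtype.ext <| eq_of_qCoeff1_eq fun n => by
      simp only [Submodule.coe_smul, RingHom.id_apply, qCoeff1_smul]
      rw [(spec (c • f)).2, (spec f).2]
      simp only [chiHeckeSeq, Submodule.coe_smul, qCoeff1_smul]
      split_ifs <;> ring }

theorem qCoeff_chiHeckeOp (h3 : 3 ∣ M) (p : GoodPrime M) (f : chiSpace M) (n : ℕ) :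
    qCoeff (chiHeckeOp h3 p f : CuspForm (Gamma1 M) 1) n =
      chiHeckeSeq p (qCoeff (f : CuspForm (Gamma1 M) 1)) n :=
  haveI := Fact.mk p.1.2
  (exists_chiHecke h3 p.2 (f : CuspForm (Gamma1 M) 1) f.2).choose_spec.2 n

/-- The operators `T_p` and `T_l` commute on coefficient sequences. -/
theorem chiHeckeSeq_comm {p l : ℕ} (hp : p.Prime) (hl : l.Prime) (hne : p ≠ l) (a : ℕ → ℂ) :
    chiHeckeSeq p (chiHeckeSeq l a) = chiHeckeSeq l (chiHeckeSeq p a) := by
  have hcop : Nat.Coprime p l := (Nat.coprime_primes hp hl).mpr hne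
  funext n
  simp only [chiHeckeSeq]
  rw [show l * (p * n) = p * (l * n) by ring]
  by_cases h1 : p ∣ n <;> by_cases h2 : l ∣ n
  · obtain ⟨m, rfl⟩ : p * l ∣ n := hcop.mul_dvd_of_dvd_of_dvd h1 h2
    have e1 : p * (p * l * m) / l = p * (p * m) :=
      Nat.div_eq_of_eq_mul_left hl.pos (by ring)
    have e2 : l * (p * l * m) / p = l * (l * m) :=
      Nat.div_eq_of_eq_mul_left hp.pos (by ring)
    have e3 : p * l * m / p = l * m := Nat.div_eq_of_eq_mul_left hp.pos (by ring)
    have e4 : p * l * m / l = p * m := Nat.div_eq_of_eq_mul_left hl.pos (by ring)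
    rw [e1, e2, e3, e4, if_pos (dvd_mul_of_dvd_right (dvd_mul_of_dvd_left (dvd_mul_left l p) m) p),
      if_pos (dvd_mul_of_dvd_right (dvd_mul_of_dvd_left (dvd_mul_right p l) m) l),
      if_pos (dvd_mul_of_dvd_left (dvd_mul_right p l) m),
      if_pos (dvd_mul_of_dvd_left (dvd_mul_left l p) m), if_pos (dvd_mul_right l m),
      if_pos (dvd_mul_right p m), Nat.mul_div_cancel_left _ hl.pos,
      Nat.mul_div_cancel_left _ hp.pos]
    ring
  · have e : ¬ l ∣ n / p := fun h => h2 (h.trans (Nat.div_dvd_of_dvd h1))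
    have e' : ¬ l ∣ p * n := fun h => h2 ((Nat.Coprime.dvd_mul_left hcop.symm).mp h)
    simp only [h1, h2, e, e', dvd_mul_of_dvd_right h1 l, if_true, if_false,
      Nat.mul_div_assoc l h1]
    ring
  · have e : ¬ p ∣ n / l := fun h => h1 (h.trans (Nat.div_dvd_of_dvd h2))
    have e' : ¬ p ∣ l * n := fun h => h1 ((Nat.Coprime.dvd_mul_left hcop).mp h)
    simp only [h1, h2, e, e', dvd_mul_of_dvd_right h2 p, if_true, if_false,
      Nat.mul_div_assoc p h2]
    ring
  · have e : ¬ l ∣ p * n := fun h => h2 ((Nat.Coprime.dvd_mul_left hcop.symm).mp h)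
    have e' : ¬ p ∣ l * n := fun h => h1 ((Nat.Coprime.dvd_mul_left hcop).mp h)
    simp only [h1, h2, e, e', if_false]
    ring

theorem chiHeckeOp_comm (h3 : 3 ∣ M) (p l : GoodPrime M) :
    Commute (chiHeckeOp h3 p) (chiHeckeOp h3 l) := by
  by_cases h : p = l
  · rw [h]
  refine LinearMap.ext fun f => Subtype.ext <| eq_of_qCoeff1_eq fun n => ?_
  have hne : (p.1 : ℕ) ≠ l.1 := fun e => h (Subtype.ext (Subtype.ext e))
  simp only [Module.End.mul_apply, qCoeff_chiHeckeOp, funext (qCoeff_chiHeckeOp h3 _ _)]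
  exact congrFun (chiHeckeSeq_comm p.1.2 l.1.2 hne _) n

/-- The character `χ₋₃` at a level divisible by three. -/
def chiChar {M : ℕ} (h3 : 3 ∣ M) : DirichletCharacter ℂ M :=
  DirichletCharacter.changeLevel h3 ((quadraticChar (ZMod 3)).ringHomComp (Int.castRingHom ℂ))

omit [NeZero M] in
theorem chiChar_natCast (h3 : 3 ∣ M) {p : ℕ} (hp : p.Prime) (hpM : ¬ p ∣ M) :
    chiChar h3 (p : ZMod M) = (chiNegThree p : ℂ) := by
  have hu : IsUnit (p : ZMod M) :=
    (ZMod.isUnit_iff_coprime _ _).mpr (hp.coprime_iff_not_dvd.mpr hpM)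
  obtain ⟨u, hu⟩ := hu
  rw [chiChar, ← hu, DirichletCharacter.changeLevel_eq_cast_of_dvd _ h3 u, hu,
    MulChar.ringHomComp_apply, ZMod.cast_natCast h3, eq_intCast, ← chiInt_natCast, chiInt,
    Int.cast_natCast]
  congr 1
  generalize (p : ZMod 3) = x
  revert x
  decide

/-- **Extraction of an eigenform.** Support on indices prime to the level is assumed. -/
theorem exists_eigen_of_relations (h3 : 3 ∣ M) (f : CuspForm (Gamma1 M) 1)
    (hf : IsChiInvariant M f) (h1 : qCoeff f 1 ≠ 0)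
    (hsupp : ∀ n : ℕ, ¬ n.Coprime M → qCoeff f n = 0)
    (P : Set ℕ) (a : ℕ → ℂ) (hP : ∀ p ∈ P, p.Prime ∧ ¬ p ∣ M)
    (hrel : ∀ p ∈ P, ∀ n, chiHeckeSeq p (qCoeff f) n = a p * qCoeff f n) :
    ∃ g : CuspForm (Gamma1 M) 1, qCoeff g 1 = 1 ∧ HasGoodHeckeRelations (chiChar h3) g ∧
      ∀ p ∈ P, qCoeff g p = a p := by
  classical
  have := finiteDimensional_gamma1 M
  let W : Submodule ℂ (chiSpace M) :=
    { carrier := {g | (∀ n : ℕ, ¬ n.Coprime M → qCoeff (g : CuspForm (Gamma1 M) 1) n = 0) ∧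
        ∀ p ∈ P, ∀ n, chiHeckeSeq p (qCoeff (g : CuspForm (Gamma1 M) 1)) n =
          a p * qCoeff (g : CuspForm (Gamma1 M) 1) n}
      add_mem' := fun {g g'} hg hg' => ⟨fun n hn => by
          rw [Submodule.coe_add, qCoeff1_add, hg.1 n hn, hg'.1 n hn, add_zero],
        fun p hp n => by
          have e1 := hg.2 p hp n
          have e2 := hg'.2 p hp n
          simp only [chiHeckeSeq, Submodule.coe_add, qCoeff1_add] at e1 e2 ⊢
          split_ifs at e1 e2 ⊢ <;> linear_combination e1 + e2⟩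
      zero_mem' := by
        have h0 : ∀ n : ℕ, qCoeff ((0 : CuspForm (Gamma1 M) 1)) n = 0 := fun n => by
          have := qCoeff1_smul (0 : ℂ) (0 : CuspForm (Gamma1 M) 1) n
          rwa [zero_smul, zero_mul] at this
        exact ⟨fun n _ => h0 n, fun p _ n => by
          simp only [chiHeckeSeq, Submodule.coe_zero, h0]; split_ifs <;> ring⟩
      smul_mem' := fun c g hg => ⟨fun n hn => by
          rw [Submodule.coe_smul, qCoeff1_smul, hg.1 n hn, mul_zero],
        fun p hp n => by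
          have e1 := hg.2 p hp n
          simp only [chiHeckeSeq, Submodule.coe_smul, qCoeff1_smul] at e1 ⊢
          split_ifs at e1 ⊢ <;> linear_combination c * e1⟩ }
  have hfW : (⟨f, hf⟩ : chiSpace M) ∈ W := ⟨hsupp, hrel⟩
  have hW0 : W ≠ ⊥ := fun hbot => h1 <| by
    have : (⟨f, hf⟩ : chiSpace M) = 0 := (Submodule.mem_bot ℂ).mp (hbot ▸ hfW)
    have hf0 : f = 0 := congrArg Subtype.val this
    have := qCoeff1_smul (0 : ℂ) f 1
    rw [zero_smul, zero_mul] at this
    rwa [hf0]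
  have hinv : ∀ t ∈ Set.range (chiHeckeOp (M := M) h3), ∀ w ∈ W, t w ∈ W := by
    rintro _ ⟨l, rfl⟩ w ⟨hw1, hw2⟩
    refine ⟨fun n hn => ?_, fun p hp n => ?_⟩
    · rw [qCoeff_chiHeckeOp, chiHeckeSeq, hw1 _ fun h => hn (Nat.Coprime.coprime_mul_left h)]
      split_ifs with hd
      · rw [hw1 _ fun h => hn ?_, mul_zero, add_zero]
        obtain ⟨m, rfl⟩ := hd
        rw [Nat.mul_div_cancel_left _ l.1.2.pos] at h
        exact (l.1.2.coprime_iff_not_dvd.mpr l.2).mul_left h
      · ring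
    · rw [funext (qCoeff_chiHeckeOp h3 l w)]
      have hlin : chiHeckeSeq l.1 (chiHeckeSeq p (qCoeff (w : CuspForm (Gamma1 M) 1))) n =
          a p * chiHeckeSeq l.1 (qCoeff (w : CuspForm (Gamma1 M) 1)) n := by
        rw [funext (hw2 p hp)]
        simp only [chiHeckeSeq]
        split_ifs <;> ring
      by_cases hpl : p = (l.1 : ℕ)
      · rw [hpl] at hlin ⊢
        exact hlin
      rw [chiHeckeSeq_comm (hP p hp).1 l.1.2 hpl]
      exact hlin
  obtain ⟨v, hvW, hv0, hv⟩ := HeckeLift.exists_common_eigenvector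
    (Set.range (chiHeckeOp (M := M) h3))
    (by rintro _ ⟨p, rfl⟩ _ ⟨l, rfl⟩; exact chiHeckeOp_comm h3 p l) W hW0 hinv
  set b : ℕ → ℂ := qCoeff (v : CuspForm (Gamma1 M) 1) with hb
  have hμ : ∀ p : ℕ, p.Prime → ¬ p ∣ M → ∃ μ : ℂ, ∀ n, chiHeckeSeq p b n = μ * b n := by
    intro p hp hpM
    obtain ⟨μ, hμ⟩ := hv _ ⟨⟨⟨p, hp⟩, hpM⟩, rfl⟩
    refine ⟨μ, fun n => ?_⟩
    have := congrArg (fun w : chiSpace M => qCoeff (w : CuspForm (Gamma1 M) 1) n) hμ
    simpa only [qCoeff_chiHeckeOp, Submodule.coe_smul, qCoeff1_smul, ← hb] using this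
  have hb1 : b 1 ≠ 0 := by
    intro h
    refine hv0 (Subtype.ext <| eq_of_qCoeff1_eq fun n => ?_)
    rw [Submodule.coe_zero]
    have h0 : qCoeff ((0 : CuspForm (Gamma1 M) 1)) n = 0 := by
      have := qCoeff1_smul (0 : ℂ) (0 : CuspForm (Gamma1 M) 1) n
      rwa [zero_smul, zero_mul] at this
    rw [h0]
    change b n = 0
    clear h0
    induction n using Nat.strong_induction_on with
    | _ n ih =>
      by_cases hc : n.Coprime M
      · rcases Nat.eq_zero_or_pos n with rfl | hn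
        · exact qCoeff_zero_Gamma1 _
        by_cases hn1 : n = 1
        · subst hn1; exact h
        obtain ⟨p, hp, m, rfl⟩ := Nat.exists_prime_and_dvd hn1
        have hm : 0 < m := Nat.pos_of_mul_pos_left hn
        have hpM : ¬ p ∣ M := hp.coprime_iff_not_dvd.mp hc.coprime_mul_right
        obtain ⟨μ, hμ'⟩ := hμ p hp hpM
        have e := hμ' m
        have hlt : m < p * m := lt_mul_left hm hp.one_lt
        rw [chiHeckeSeq, ih m hlt, mul_zero] at e
        split_ifs at e
        · rw [ih (m / p) ((Nat.div_le_self _ _).trans_lt hlt), mul_zero, add_zero] at e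
          exact e
        · rwa [mul_zero, add_zero] at e
      · exact hvW.1 n hc
  refine ⟨(b 1)⁻¹ • (v : CuspForm (Gamma1 M) 1), ?_, ?_, fun p hp => ?_⟩
  · rw [qCoeff1_smul, ← hb]; exact inv_mul_cancel₀ hb1
  · intro p hp hpM n
    obtain ⟨μ, hμ'⟩ := hμ p hp hpM
    have hp1 := hμ' 1
    rw [chiHeckeSeq, if_neg hp.not_dvd_one, mul_zero, add_zero, mul_one] at hp1
    have e := hμ' n
    simp only [chiHeckeSeq] at e
    simp only [qCoeff1_smul, ← hb, chiChar_natCast h3 hp hpM, hp1]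
    split_ifs at e ⊢
    · linear_combination (b 1)⁻¹ * e - μ * (b 1)⁻¹ * b n * inv_mul_cancel₀ hb1
    · linear_combination (b 1)⁻¹ * e - μ * (b 1)⁻¹ * b n * inv_mul_cancel₀ hb1
  · have e := hvW.2 p hp 1
    rw [chiHeckeSeq, if_neg (hP p hp).1.not_dvd_one, mul_zero, add_zero, mul_one, ← hb] at e
    rw [qCoeff1_smul, ← hb, e]
    field_simp

/-- **Extraction of an eigenform**, the bad coefficients being removed first. -/
theorem exists_eigen_of_split_relations {N : ℕ} [NeZero N] (f : CuspForm (Gamma1 N) 1)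
    (hf : IsChiInvariant N f) (h1 : qCoeff f 1 ≠ 0) (P : Set ℕ) (a : ℕ → ℂ)
    (hP : ∀ p ∈ P, p.Prime ∧ ¬ p ∣ 3 * N)
    (hrel : ∀ p ∈ P, ∀ n, chiHeckeSeq p (qCoeff f) n = a p * qCoeff f n) :
    ∃ (ε : DirichletCharacter ℂ (finalLevel N)) (g : CuspForm (Gamma1 (finalLevel N)) 1),
      qCoeff g 1 = 1 ∧ HasGoodHeckeRelations ε g ∧ ∀ p ∈ P, qCoeff g p = a p := by
  have hN := NeZero.pos N
  have : NeZero (finalLevel N) := ⟨(finalLevel_pos hN).ne'⟩
  have h3 : 3 ∣ finalLevel N := (by norm_num : 3 ∣ 9).trans (nine_dvd_finalLevel N)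
  have hf' : IsChiInvariant (finalLevel N) (raiseGamma1 (dvd_finalLevel N) f) := fun γ hγ => by
    refine hf γ ?_
    rw [Gamma0_mem] at hγ ⊢
    simpa using congrArg (ZMod.castHom (dvd_finalLevel N) (ZMod N)) hγ
  obtain ⟨F, hF, hFn⟩ := exists_strip_finset (raiseGamma1 (dvd_finalLevel N) f) hf'
    (finalLevel N).primeFactors fun q hq => ⟨(Nat.prime_of_mem_primeFactors hq).ne_zero,
      prime_sq_dvd_finalLevel hN.ne' (Nat.prime_of_mem_primeFactors hq)
        (Nat.dvd_of_mem_primeFactors hq)⟩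
  have hiff : ∀ n : ℕ, (∃ q ∈ (finalLevel N).primeFactors, q ∣ n) ↔ ¬ n.Coprime (finalLevel N) := by
    intro n
    rw [Nat.Prime.not_coprime_iff_dvd]
    constructor
    · rintro ⟨q, hq, hd⟩
      exact ⟨q, Nat.prime_of_mem_primeFactors hq, hd, Nat.dvd_of_mem_primeFactors hq⟩
    · rintro ⟨q, hq, hd, hd'⟩
      exact ⟨q, Nat.mem_primeFactors.mpr ⟨hq, hd', (finalLevel_pos hN).ne'⟩, hd⟩
  have hFn' : ∀ n, qCoeff F n = if n.Coprime (finalLevel N) then qCoeff f n else 0 := fun n => by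
    rw [hFn n]
    by_cases h : n.Coprime (finalLevel N)
    · rw [if_pos h, if_neg fun h' => (hiff n).mp h' h]; rfl
    · rw [if_neg h, if_pos ((hiff n).mpr h)]
  have hP' : ∀ p ∈ P, p.Prime ∧ ¬ p ∣ finalLevel N := fun p hp =>
    ⟨(hP p hp).1, fun h => (hP p hp).2 (dvd_of_prime_dvd_finalLevel (hP p hp).1 h)⟩
  refine ⟨chiChar h3, exists_eigen_of_relations h3 F hF ?_ (fun n hn => by rw [hFn' n, if_neg hn])
    P a hP' fun p hp n => ?_⟩
  · rw [hFn' 1, if_pos (Nat.coprime_one_left _)]; exact h1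
  · obtain ⟨hpp, hpM⟩ := hP' p hp
    have hcop : p.Coprime (finalLevel N) := hpp.coprime_iff_not_dvd.mpr hpM
    have e := hrel p hp n
    by_cases hn : n.Coprime (finalLevel N)
    · simp only [chiHeckeSeq] at e ⊢
      rw [hFn' (p * n), if_pos (hcop.mul_left hn), hFn' n, if_pos hn]
      split_ifs with hd
      · rw [hFn' (n / p), if_pos (Nat.Coprime.coprime_dvd_left (Nat.div_dvd_of_dvd hd) hn)]
        rwa [if_pos hd] at e
      · rwa [if_neg hd] at e
    · simp only [chiHeckeSeq]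
      rw [hFn' (p * n), if_neg fun h => hn h.coprime_mul_left, hFn' n, if_neg hn]
      split_ifs with hd
      · rw [hFn' (n / p), if_neg fun h => hn ?_]
        · ring
        · obtain ⟨m, rfl⟩ := hd
          rw [Nat.mul_div_cancel_left _ hpp.pos] at h
          exact hcop.mul_left h
      · ring

end Fermat.Agent.LT.LiftHecke

end
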